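import Mathlib
import Fermat.Prelude.Thm_IsAdicComplete_of_module_finite
import Fermat.Prelude.Def_CuspForm_HeckeGaloisRepDatum
import Fermat.Prelude.Def_GaloisRep_Residual
import Fermat.Prelude.Def_FreyPackage_EigenformResidualAttachment
import Fermat.Agent.MU.S30.WilesPlane
import Fermat.Agent.MU.S30.DensityGal
import Fermat.Agent.S30.Iface
import Fermat.Agent.MU.Lib.Cyclo.CharData
import Fermat.Agent.MU.F3.FrobDensityLiteFinal
import Fermat.Agent.MU.Lib.TraceRigidity.Points
import Fermat.Agent.MU.S31.General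
import Fermat.Agent.MU.Lib.DVRPoints.NumberField
import Fermat.Agent.MU.Lib.Petersson.Main
import Fermat.Agent.MU.S22
import Fermat.Agent.MU.S34.Transfer
import Fermat.Agent.Lib.BadRed.Bridge.Targets
import Fermat.Agent.MU.Lib.BadRed.Bridge.FunTargets
import Fermat.Agent.F3.Interfaces
import Fermat.Agent.Lib.Cyclo.ModCharGlobal
import Fermat.Agent.F3.OpenStab
import Fermat.Agent.F3.Galois.HeckeComm
import Fermat.Agent.Lib.GaussInt.Unramified
import Fermat.Agent.Lib.GaussInt.ValGroup
import Fermat.Agent.MU.Lib.GaussInt.FrobPowFinal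
import Fermat.Agent.MU.F3.EigenclassGlue
import Fermat.Agent.MU.F3.EigenChar.PeriodEigen
import Fermat.Agent.MU.Lib.HeckeInputs.Qbar
import Fermat.Agent.S13.OpenStab
import Fermat.Agent.MU.S13.CountT
import Fermat.Agent.Lib.Frobenius.Exists
import Fermat.Agent.MU.F3.EigenPadic.Closed
import Fermat.Agent.MU.F3.TorsFin.Final
import Fermat.Agent.MU.Lib.BadRed.Bridge.E1Sep
import Fermat.Agent.MU.Lib.BadRed.Bridge.Assembly
import Fermat.Agent.MU.F3.I2.Final
import Fermat.Agent.MU.Lib.GaussInt.KeyAux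
import Fermat.Agent.MU.Lib.BadRed.Final.Sep
import Fermat.Agent.MU.Lib.BadRed.Bridge.AuxLevel

section MergeWrap_S30_WilesMain -- from S30/WilesMain.lean

set_option autoImplicit false

/-!
# S30 p-adic core, part 5: Wiles' algebra, main theorem

`Λ ≠ 0` finite free over a discrete valuation ring `R` of characteristic zero, `G` acting on `Λ`
with the quadratic relation `QuadRel ρ ε t`, and an involution `c ∈ G` with `ε c = -1`.  Then
there is a free `R`-module of rank two with an action of `G` with characteristic polynomials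
`X² - t(g) X + ε(g)` (`RepConclusion`).
-/

namespace Fermat.Agent.S30

open Module Polynomial IsLocalRing

section GSpan

variable {R : Type*} [CommRing R] {G : Type*} [Group G]
  {Λ : Type*} [AddCommGroup Λ] [Module R Λ]

/-- The `R`-span of the orbit of `u`. -/
def gSpan (ρ : G →* Module.End R Λ) (u : Λ) : Submodule R Λ :=
  Submodule.span R (Set.range fun g : G => ρ g u)

theorem mem_gSpan_self (ρ : G →* Module.End R Λ) (u : Λ) : u ∈ gSpan ρ u := by
  apply Submodule.subset_span
  exact ⟨1, by simp⟩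

theorem gSpan_stable (ρ : G →* Module.End R Λ) (u : Λ) (g : G) :
    ∀ x ∈ gSpan ρ u, ρ g x ∈ gSpan ρ u := by
  have : gSpan ρ u ≤ (gSpan ρ u).comap (ρ g) := by
    apply Submodule.span_le.mpr
    rintro _ ⟨h, rfl⟩
    show ρ g (ρ h u) ∈ gSpan ρ u
    apply Submodule.subset_span
    exact ⟨g * h, by simp⟩
  exact fun x hx => this hx

theorem gSpan_le (ρ : G →* Module.End R Λ) (u : Λ) (M : Submodule R Λ) (hu : u ∈ M)
    (hM : ∀ (g : G) (x : Λ), x ∈ M → ρ g x ∈ M) : gSpan ρ u ≤ M := by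
  apply Submodule.span_le.mpr
  rintro _ ⟨g, rfl⟩
  exact hM g u hu

end GSpan

section Step

variable {R : Type*} [CommRing R] [IsDomain R] {G : Type*} [Group G]
  {Λ : Type*} [AddCommGroup Λ] [Module R Λ] [Module.IsTorsionFree R Λ]
  {ρ : G →* Module.End R Λ} {ε : G →* Rˣ} {t : G → R} {c : G}

/-- The `s`-eigenvectors of `ρ(c)` in the saturated orbit module of an `s`-eigenvector `u` lie
on the saturated line through `u`. -/
theorem eigen_mem_satSub_span (hQ : QuadRel ρ ε t) (hc : c * c = 1) (htc : t c = 0)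
    (h2R : (2 : R) ≠ 0) (s : R) (hs : s * s = 1) (u : Λ) (hcu : ρ c u = s • u)
    (x : Λ) (hx : x ∈ satSub (gSpan ρ u)) (hcx : ρ c x = s • x) :
    x ∈ satSub (Submodule.span R {u}) := by
  have h2 : ∀ y : Λ, (2 : R) • y = 0 → y = 0 := fun y hy =>
    (smul_eq_zero.mp hy).resolve_left h2R
  let E : Λ →ₗ[R] Λ := LinearMap.id + s • ρ c
  have hE : gSpan ρ u ≤ (Submodule.span R {u}).comap E := by
    apply Submodule.span_le.mpr
    rintro _ ⟨g, rfl⟩
    show E (ρ g u) ∈ Submodule.span R {u}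
    have := hQ.sign_eigen hc htc h2 s hs g u hcu
    have e : E (ρ g u) = ρ g u + s • ρ c (ρ g u) := rfl
    rw [e, this]
    exact Submodule.smul_mem _ _ (Submodule.mem_span_singleton_self u)
  obtain ⟨r, hr, hrx⟩ := hx
  refine ⟨2 * r, mul_ne_zero h2R hr, ?_⟩
  have h1 : E (r • x) ∈ Submodule.span R {u} := hE hrx
  have e : E (r • x) = (2 * r) • x := by
    show r • x + s • ρ c (r • x) = (2 * r) • x
    rw [map_smul, hcx, smul_smul, smul_smul, ← add_smul]
    congr 1
    linear_combination r * hs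
  rwa [e] at h1

end Step

section Main

variable {R : Type} [CommRing R] [IsDomain R] [IsDiscreteValuationRing R] [CharZero R]
  {G : Type*} [Group G]
  {Λ : Type} [AddCommGroup Λ] [Module R Λ] [Module.Free R Λ] [Module.Finite R Λ] [Nontrivial Λ]

omit [Nontrivial Λ] in
/-- One step of the case analysis: from an `s`-eigenvector `u ≠ 0` of `ρ(c)` we get either the
line case, or a nonzero `(-s)`-eigenvector in the saturated orbit module of `u`. -/
theorem line_or_eigen (ρ : G →* Module.End R Λ) (ε : G →* Rˣ) (t : G → R)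
    (hQ : QuadRel ρ ε t) (c : G) (hc : c * c = 1) (htc : t c = 0)
    (s : R) (hs : s * s = 1) (u : Λ) (hu0 : u ≠ 0) (hcu : ρ c u = s • u) :
    RepConclusion ρ ε t ∨
      ∃ w ∈ satSub (gSpan ρ u), w ≠ 0 ∧ ρ c w = (-s) • w := by
  classical
  have h2R : (2 : R) ≠ 0 := two_ne_zero
  by_cases hex : ∃ w ∈ satSub (gSpan ρ u), w ≠ 0 ∧ ρ c w = (-s) • w
  · exact Or.inr hex
  · left
    simp only [not_exists, not_and] at hex
    have hMstab : ∀ (g : G) (x : Λ), x ∈ satSub (gSpan ρ u) → ρ g x ∈ satSub (gSpan ρ u) :=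
      fun g x hx => map_mem_satSub (ρ g) (gSpan_stable ρ u g) hx
    -- every element of `M` is an `s`-eigenvector
    have hall : ∀ x ∈ satSub (gSpan ρ u), x ∈ satSub (Submodule.span R {u}) := by
      intro x hx
      have hcx : ρ c x ∈ satSub (gSpan ρ u) := hMstab c x hx
      have hm : x + (-s) • ρ c x ∈ satSub (gSpan ρ u) :=
        Submodule.add_mem _ hx (Submodule.smul_mem _ _ hcx)
      have hm0 : x + (-s) • ρ c x = 0 := by
        by_contra hne
        refine hex _ hm hne ?_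
        rw [map_add, map_smul, rho_invol_apply ρ hc, smul_add, smul_smul, neg_mul_neg, hs,
          one_smul, add_comm]
      have hcx' : ρ c x = s • x := by
        have h1 : x = s • ρ c x := by
          rw [neg_smul, ← sub_eq_add_neg, sub_eq_zero] at hm0
          exact hm0
        conv_rhs => rw [h1]
        rw [smul_smul, hs, one_smul]
      exact eigen_mem_satSub_span hQ hc htc h2R s hs u hcu x hx hcx'
    obtain ⟨r, u₁, hr, hru, hprim⟩ := exists_primVec_of_ne_zero (R := R) hu0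
    have hu₁0 : u₁ ≠ 0 := by
      rintro rfl
      rw [smul_zero] at hru
      exact hu0 hru
    have hle : satSub (Submodule.span R {u}) ≤ Submodule.span R {u₁} := by
      rw [← hprim.satSub_span]
      apply satSub_mono
      rw [Submodule.span_singleton_le_iff_mem, hru]
      exact Submodule.smul_mem _ _ (Submodule.mem_span_singleton_self u₁)
    have hu₁M : u₁ ∈ satSub (gSpan ρ u) := by
      apply isSatSub_satSub _ r u₁ hr
      rw [← hru]
      exact le_satSub _ (mem_gSpan_self ρ u)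
    exact repConclusion_of_line ρ ε t hQ u₁ hprim hu₁0
      (fun g => hle (hall _ (hMstab g u₁ hu₁M)))

/-- **Wiles' algebra.** -/
theorem repConclusion_of_quadRel (ρ : G →* Module.End R Λ) (ε : G →* Rˣ) (t : G → R)
    (hQ : QuadRel ρ ε t) (c : G) (hc : c * c = 1) (hεc : ε c = -1) :
    RepConclusion ρ ε t := by
  classical
  have h2R : (2 : R) ≠ 0 := two_ne_zero
  obtain ⟨x₀, hx₀⟩ := exists_ne (0 : Λ)
  have htc : t c = 0 :=
    hQ.t_invol hc hεc x₀ (fun r hr => (smul_eq_zero.mp hr).resolve_right hx₀)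
  -- a nonzero eigenvector of `ρ c`
  have hex : ∃ (s : R) (u : Λ), s * s = 1 ∧ u ≠ 0 ∧ ρ c u = s • u := by
    by_cases h1 : x₀ + ρ c x₀ = 0
    · refine ⟨-1, x₀ + (-1 : R) • ρ c x₀, by ring, ?_, ?_⟩
      · intro h
        have : (2 : R) • x₀ = 0 := by
          have e : (2 : R) • x₀ = (x₀ + ρ c x₀) + (x₀ + (-1 : R) • ρ c x₀) := by
            rw [two_smul, neg_one_smul]; abel
          rw [e, h1, h, add_zero]
        exact hx₀ ((smul_eq_zero.mp this).resolve_left h2R)
      · rw [map_add, map_smul, rho_invol_apply ρ hc, smul_add, smul_smul]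
        simp only [neg_mul_neg, one_smul, mul_one]
        rw [add_comm]
    · refine ⟨1, x₀ + ρ c x₀, by ring, h1, ?_⟩
      rw [map_add, rho_invol_apply ρ hc, one_smul, add_comm]
  obtain ⟨s, u, hs, hu0, hcu⟩ := hex
  have hs' : (-s) * (-s) = 1 := by rw [neg_mul_neg, hs]
  rcases line_or_eigen ρ ε t hQ c hc htc s hs u hu0 hcu with h | ⟨w, hwM, hw0, hcw⟩
  · exact h
  rcases line_or_eigen ρ ε t hQ c hc htc (-s) hs' w hw0 hcw with h | ⟨u', hu'M, hu'0, hcu'⟩
  · exact h
  rw [neg_neg] at hcu'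
  -- plane case, with `M' = satSub (gSpan ρ w)`
  have hMstab : ∀ (g : G) (x : Λ), x ∈ satSub (gSpan ρ u) → ρ g x ∈ satSub (gSpan ρ u) :=
    fun g x hx => map_mem_satSub (ρ g) (gSpan_stable ρ u g) hx
  have hM'stab : ∀ (g : G) (x : Λ), x ∈ satSub (gSpan ρ w) → ρ g x ∈ satSub (gSpan ρ w) :=
    fun g x hx => map_mem_satSub (ρ g) (gSpan_stable ρ w g) hx
  have hM'M : satSub (gSpan ρ w) ≤ satSub (gSpan ρ u) :=
    satSub_le (gSpan_le ρ w _ hwM hMstab) (isSatSub_satSub _)
  obtain ⟨r, u₁, hr, hru, hprimu⟩ := exists_primVec_of_ne_zero (R := R) hu0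
  obtain ⟨r', w₁, hr', hrw, hprimw⟩ := exists_primVec_of_ne_zero (R := R) hw0
  have hleu : satSub (Submodule.span R {u}) ≤ Submodule.span R {u₁} := by
    rw [← hprimu.satSub_span]
    apply satSub_mono
    rw [Submodule.span_singleton_le_iff_mem, hru]
    exact Submodule.smul_mem _ _ (Submodule.mem_span_singleton_self u₁)
  have hlew : satSub (Submodule.span R {w}) ≤ Submodule.span R {w₁} := by
    rw [← hprimw.satSub_span]
    apply satSub_mono
    rw [Submodule.span_singleton_le_iff_mem, hrw]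
    exact Submodule.smul_mem _ _ (Submodule.mem_span_singleton_self w₁)
  have hplus : ∀ x ∈ satSub (gSpan ρ w), ρ c x = s • x → x ∈ Submodule.span R {u₁} :=
    fun x hx hcx => hleu (eigen_mem_satSub_span hQ hc htc h2R s hs u hcu x (hM'M hx) hcx)
  have hminus : ∀ x ∈ satSub (gSpan ρ w), ρ c x = (-s) • x → x ∈ Submodule.span R {w₁} :=
    fun x hx hcx => hlew (eigen_mem_satSub_span hQ hc htc h2R (-s) hs' w hcw x hx hcx)
  -- `u₁`, `w₁` lie in `M'` and are eigenvectors
  obtain ⟨a, ha⟩ := Submodule.mem_span_singleton.mp (hplus u' hu'M hcu')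
  have ha0 : a ≠ 0 := by
    rintro rfl
    rw [zero_smul] at ha
    exact hu'0 ha.symm
  have hu₁M' : u₁ ∈ satSub (gSpan ρ w) := by
    apply isSatSub_satSub _ a u₁ ha0
    rw [ha]; exact hu'M
  have hu₁0 : u₁ ≠ 0 := by
    rintro rfl
    rw [smul_zero] at hru
    exact hu0 hru
  have hw₁0 : w₁ ≠ 0 := by
    rintro rfl
    rw [smul_zero] at hrw
    exact hw0 hrw
  have hcu₁ : ρ c u₁ = s • u₁ := by
    have h1 : r • (ρ c u₁ - s • u₁) = 0 := by
      rw [smul_sub, ← map_smul, ← hru, hcu, hru, smul_comm, sub_self]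
    exact sub_eq_zero.mp ((smul_eq_zero.mp h1).resolve_left hr)
  have hw₁M' : w₁ ∈ satSub (gSpan ρ w) := by
    apply isSatSub_satSub _ r' w₁ hr'
    rw [← hrw]
    exact le_satSub _ (mem_gSpan_self ρ w)
  have hcw₁ : ρ c w₁ = (-s) • w₁ := by
    have h1 : r' • (ρ c w₁ - (-s) • w₁) = 0 := by
      rw [smul_sub, ← map_smul, ← hrw, hcw, hrw, smul_comm, sub_self]
    exact sub_eq_zero.mp ((smul_eq_zero.mp h1).resolve_left hr')
  exact repConclusion_of_plane ρ ε t hQ c hc htc s hs (satSub (gSpan ρ w)) (isSatSub_satSub _)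
    hM'stab u₁ w₁ hu₁M' hw₁M' hu₁0 hw₁0 hcu₁ hcw₁ hplus hminus

end Main

end Fermat.Agent.S30
end MergeWrap_S30_WilesMain

section MergeWrap_S30_Assembly -- from S30/Assembly.lean

set_option autoImplicit false

/-!
# S30 p-adic core, part 8: assembly

`FrobDensityLite` + `CycloCharData p 𝒪` + `FrobLattice p N S 𝒪 (heckeEigenvalue χ)`
  ⟹ the conclusion of S30 for `(p, S, 𝒪, χ)`, with `𝒪'' = 𝒪`.
-/

namespace Fermat.Agent.S30

open Module IsLocalRing Polynomial

section

variable {p N : ℕ} {S : Finset ℕ} {𝒪 : Type} [CommRing 𝒪] [IsDomain 𝒪]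
  [IsDiscreteValuationRing 𝒪] [CharZero 𝒪]

/-- The Galois representation attached to a `FrobLattice`. -/
theorem exists_galoisRepAdic_of_frobLattice (hdens : F3.FrobDensityLite) (hpS : p ∈ S)
    (a : ℕ → 𝒪) (L : FrobLattice p N S 𝒪 a) (E : CycloCharData p 𝒪) :
    ∃ ρ : GaloisRepAdic 𝒪,
      (∀ ℓ : ℕ, ℓ.Prime → ℓ ∉ S →
        ∀ A : ValuationSubring (AlgebraicClosure ℚ), A.LiesOverPrime ℓ →
          ∀ σ : GQ, A.IsFrobeniusAt σ ℓ →
            LinearMap.charpoly (ρ.ρ σ) = X ^ 2 - C (a ℓ) * X + C ((ℓ : 𝒪))) ∧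
      (∀ q : ℕ, q.Prime → ¬ q ∣ N → q ≠ p → ρ.IsUnramifiedAt q) := by
  obtain ⟨t, hQ, ht⟩ := exists_quadRel_of_frobLattice hdens hpS a L E
  obtain ⟨V, iV1, iV2, iV3, iV4, ρ', hfin, hchar, hcont, hker⟩ :=
    repConclusion_of_quadRel L.ρ E.ε t hQ complexConjugation complexConjugation_mul_self E.conj
  have hadic : GaloisActionIsAdicContinuous 𝒪 ρ' := by
    intro n
    obtain ⟨L₁, hL₁fin, hL₁⟩ := L.cont n
    obtain ⟨L₂, hL₂fin, hL₂⟩ := E.level n
    refine ⟨L₁ ⊔ L₂, IntermediateField.finiteDimensional_sup L₁ L₂, ?_⟩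
    intro σ hσ v
    exact hcont n σ (hL₁ σ (fun x hx => hσ x (le_sup_left (a := L₁) (b := L₂) hx)))
      (hL₂ σ (fun x hx => hσ x (le_sup_right (a := L₁) (b := L₂) hx))) v
  refine ⟨{ V := V, finrank_eq := hfin, ρ := ρ', isAdicContinuous := hadic }, ?_, ?_⟩
  · intro ℓ hℓ hℓS A hA σ hσ
    have hℓp : ℓ ≠ p := fun h => hℓS (h ▸ hpS)
    show LinearMap.charpoly (ρ' σ) = _
    rw [hchar σ, ht ℓ hℓ hℓS A hA σ hσ, E.frob ℓ hℓ hℓp A hA σ hσ]
  · intro q hq hqN hqp P hP σ hσ
    show ρ' σ = 1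
    exact hker σ (L.unram q hq hqN hqp P hP σ hσ) (E.inertia q hq hqp P hP σ hσ)

end

/-- **S30 at level `N`** from the three inputs of the core. -/
theorem s30At_of_core (N : ℕ) [NeZero N] (hdens : F3.FrobDensityLite)
    (hcyc : ∀ (p : ℕ) [Fact p.Prime] (𝒪 : Type) [CommRing 𝒪] [IsDomain 𝒪]
      [IsDiscreteValuationRing 𝒪] [IsAdicComplete (maximalIdeal 𝒪) 𝒪]
      [Finite (ResidueField 𝒪)] [CharZero 𝒪], (p : 𝒪) ∈ maximalIdeal 𝒪 →
      Nonempty (CycloCharData p 𝒪))
    (hlat : ∀ (p : ℕ) [Fact p.Prime] (S : Finset ℕ), p ∈ S →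
      (∀ q : ℕ, q.Prime → q ∣ N → q ∈ S) →
      ∀ (𝒪 : Type) [CommRing 𝒪] [IsDomain 𝒪] [IsDiscreteValuationRing 𝒪]
        [IsAdicComplete (maximalIdeal 𝒪) 𝒪] [Finite (ResidueField 𝒪)] [CharZero 𝒪],
        (p : 𝒪) ∈ maximalIdeal 𝒪 →
        ∀ χ : CuspForm.heckeAlgebra N 2 (↑S : Set ℕ) →+* 𝒪,
          Nonempty (FrobLattice p N S 𝒪 (heckeEigenvalue χ))) :
    S30At N := by
  intro p _ S hpS hNS 𝒪' _ _ _ _ _ _ hp χ
  obtain ⟨E⟩ := hcyc p 𝒪' hp
  obtain ⟨L⟩ := hlat p S hpS hNS 𝒪' hp χ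
  obtain ⟨ρ, hρ, hunr⟩ := exists_galoisRepAdic_of_frobLattice hdens hpS (heckeEigenvalue χ) L E
  refine ⟨𝒪', inferInstance, inferInstance, inferInstance, inferInstance, inferInstance,
    inferInstance, Algebra.id 𝒪', inferInstance, ?_, Function.injective_id, ρ, ?_, hunr⟩
  · exact ⟨fun _ h => h⟩
  · intro ℓ hℓ hℓN hℓS A hA σ hσ
    have hℓS' : ℓ ∉ S := fun h => hℓS (Finset.mem_coe.mpr h)
    rw [hρ ℓ hℓ hℓS' A hA σ hσ, heckeEigenvalue_eq χ hℓ hℓN hℓS]
    rfl

end Fermat.Agent.S30
end MergeWrap_S30_Assembly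

section MergeWrap_S30_TateModule -- from S30/TateModule.lean

set_option autoImplicit false
set_option linter.unusedSectionVars false
set_option linter.style.haveILetI false

/-!
# S30 p-adic core, W1 (abstract part): the Tate module of a module over a complete DVR

`O` a commutative ring, `π : O`, `M` an `O`-module.  The *Tate module* `tate π M` is the module of
sequences `x : ℕ → M` with `x 0 = 0` and `π • x (n + 1) = x n`.

If `O` is a complete discrete valuation ring, `π ≠ 0` lies in the maximal ideal and the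
`π`-torsion of `M` is finitely generated, then `tate π M` is a finite free `O`-module, and so
is every saturated submodule, in particular the simultaneous eigenspace `eigenTate` of a family
of endomorphisms of `M`.
-/

noncomputable section

namespace Fermat.Agent.S30Tate

open IsLocalRing

section Basic

variable {O : Type*} [CommRing O] (π : O) (M : Type*) [AddCommGroup M] [Module O M]

/-- The `π`-adic Tate module of `M`: sequences `x` with `x 0 = 0` and `π • x (n+1) = x n`. -/
def tate : Submodule O (ℕ → M) where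
  carrier := {x | x 0 = 0 ∧ ∀ n, π • x (n + 1) = x n}
  add_mem' := by
    rintro x y ⟨hx0, hx⟩ ⟨hy0, hy⟩
    refine ⟨by simp [hx0, hy0], fun n => ?_⟩
    simp [smul_add, hx n, hy n]
  zero_mem' := ⟨rfl, fun n => by simp⟩
  smul_mem' := by
    rintro a x ⟨hx0, hx⟩
    refine ⟨by simp [hx0], fun n => ?_⟩
    simp only [Pi.smul_apply]
    rw [smul_comm, hx n]

variable {π M}

theorem mem_tate {x : ℕ → M} : x ∈ tate π M ↔ x 0 = 0 ∧ ∀ n, π • x (n + 1) = x n := Iff.rfl

theorem tate_zero {x : ℕ → M} (hx : x ∈ tate π M) : x 0 = 0 := hx.1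

theorem tate_succ {x : ℕ → M} (hx : x ∈ tate π M) (n : ℕ) : π • x (n + 1) = x n := hx.2 n

theorem tate_pow_smul {x : ℕ → M} (hx : x ∈ tate π M) (k n : ℕ) : π ^ k • x (n + k) = x n := by
  induction k generalizing n with
  | zero => simp
  | succ k ih =>
    rw [pow_succ, mul_smul, ← add_assoc, tate_succ hx, ih]

theorem tate_pow_smul_self {x : ℕ → M} (hx : x ∈ tate π M) (n : ℕ) : π ^ n • x n = 0 := by
  have := tate_pow_smul hx n 0
  rw [zero_add] at this
  rw [this, tate_zero hx]

/-- The shifted sequence. -/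
theorem shift_mem_tate {x : ℕ → M} (hx : x ∈ tate π M) {m : ℕ} (hm : x m = 0) :
    (fun n => x (n + m)) ∈ tate π M := by
  refine ⟨by simpa using hm, fun n => ?_⟩
  have := tate_succ hx (n + m)
  show π • x (n + 1 + m) = x (n + m)
  rw [show n + 1 + m = n + m + 1 by ring]
  exact this

/-- The kernel of the evaluation at `m` is `π ^ m • tate`. -/
theorem exists_eq_pow_smul {x : ℕ → M} (hx : x ∈ tate π M) {m : ℕ} (hm : x m = 0) :
    ∃ y ∈ tate π M, x = π ^ m • y := by
  refine ⟨fun n => x (n + m), shift_mem_tate hx hm, ?_⟩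
  funext n
  simp only [Pi.smul_apply]
  exact (tate_pow_smul hx m n).symm

theorem pow_smul_apply_self {y : ℕ → M} (hy : y ∈ tate π M) (n : ℕ) :
    (π ^ n • y) n = 0 := by
  simp only [Pi.smul_apply]
  exact tate_pow_smul_self hy n

end Basic

section DVR

variable {O : Type*} [CommRing O] [IsDomain O] [IsDiscreteValuationRing O]

/-- In a DVR every nonzero principal ideal is a power of the maximal ideal. -/
theorem exists_span_eq_maximalIdeal_pow {a : O} (ha : a ≠ 0) :
    ∃ k : ℕ, Ideal.span {a} = maximalIdeal O ^ k := by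
  obtain ⟨ϖ, hϖ⟩ := IsDiscreteValuationRing.exists_irreducible O
  obtain ⟨k, hk⟩ := IsDiscreteValuationRing.ideal_eq_span_pow_irreducible
    (s := Ideal.span {a}) (by simpa using ha) hϖ
  refine ⟨k, ?_⟩
  rw [hk, hϖ.maximalIdeal_eq, Ideal.span_singleton_pow]

theorem exists_dvd_pow {a π : O} (ha : a ≠ 0) (hπ : π ∈ maximalIdeal O) :
    ∃ k : ℕ, a ∣ π ^ k := by
  obtain ⟨k, hk⟩ := exists_span_eq_maximalIdeal_pow ha
  refine ⟨k, ?_⟩
  have : π ^ k ∈ Ideal.span {a} := by
    rw [hk]
    exact Ideal.pow_mem_pow hπ k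
  exact Ideal.mem_span_singleton.mp this

variable {π : O} {M : Type*} [AddCommGroup M] [Module O M]

/-- The Tate module is torsion-free. -/
theorem tate_smul_eq_zero (hπ : π ∈ maximalIdeal O) {a : O} (ha : a ≠ 0) {x : ℕ → M}
    (hx : x ∈ tate π M) (hax : a • x = 0) : x = 0 := by
  obtain ⟨k, b, hb⟩ := exists_dvd_pow ha hπ
  have h1 : π ^ k • x = 0 := by
    rw [hb, mul_comm, mul_smul, hax, smul_zero]
  funext n
  have h2 := tate_pow_smul hx k n
  have h3 : (π ^ k • x) (n + k) = 0 := by rw [h1]; rfl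
  simp only [Pi.smul_apply] at h3
  rw [← h2, h3]
  rfl

theorem tate_isTorsionFree (hπ : π ∈ maximalIdeal O) : Module.IsTorsionFree O (tate π M) := by
  refine Module.IsTorsionFree.of_smul_eq_zero fun a x hax => ?_
  by_cases ha : a = 0
  · exact Or.inl ha
  · right
    apply Subtype.ext
    apply tate_smul_eq_zero hπ ha x.2
    have := congrArg Subtype.val hax
    simpa using this

/-- The Tate module is `𝔪`-adically separated. -/
theorem tate_isHausdorff (hπ0 : π ≠ 0) : IsHausdorff (maximalIdeal O) (tate π M) := by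
  refine ⟨fun x hx => ?_⟩
  apply Subtype.ext
  funext n
  obtain ⟨k, hk⟩ := exists_span_eq_maximalIdeal_pow (pow_ne_zero n hπ0)
  have h1 := hx k
  rw [SModEq.zero, ← hk, Submodule.ideal_span_singleton_smul] at h1
  obtain ⟨y, -, hy⟩ := (Submodule.mem_smul_pointwise_iff_exists _ _ _).mp h1
  have h2 : x.1 = π ^ n • y.1 := by rw [← hy]; rfl
  rw [h2]
  exact pow_smul_apply_self y.2 n

/-- Evaluation of a sequence at the index `n`. -/
def tateEval (π : O) (M : Type*) [AddCommGroup M] [Module O M] (n : ℕ) : tate π M →ₗ[O] M :=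
  (LinearMap.proj n).comp (tate π M).subtype

@[simp] theorem tateEval_apply (n : ℕ) (x : tate π M) : tateEval π M n x = x.1 n := rfl

theorem range_tateEval_le (n : ℕ) :
    LinearMap.range (tateEval π M n) ≤ Submodule.torsionBy O M (π ^ n) := by
  rintro _ ⟨x, rfl⟩
  rw [Submodule.mem_torsionBy_iff]
  exact tate_pow_smul_self x.2 n

/-- If the `π`-torsion of `M` is finitely generated, the Tate module is a finite module. -/
theorem tate_finite [IsAdicComplete (maximalIdeal O) O] (hπ : π ∈ maximalIdeal O) (hπ0 : π ≠ 0)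
    (hfg : (Submodule.torsionBy O M π).FG) : Module.Finite O (tate π M) := by
  haveI := tate_isHausdorff (M := M) hπ0
  have hle : LinearMap.range (tateEval π M 1) ≤ Submodule.torsionBy O M π := by
    have := range_tateEval_le (π := π) (M := M) 1
    rwa [pow_one] at this
  have hfg' : (LinearMap.range (tateEval π M 1)).FG := hfg.of_le hle
  obtain ⟨r, s, hs⟩ := Submodule.fg_iff_exists_fin_generating_family.mp hfg'
  have hs' : ∀ i, s i ∈ LinearMap.range (tateEval π M 1) := fun i => by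
    rw [← hs]; exact Submodule.subset_span (Set.mem_range_self i)
  choose t ht using hs'
  let f : (Fin r → O) →ₗ[O] tate π M := Fintype.linearCombination O t
  haveI : IsAdicComplete (maximalIdeal O) (Fin r → O) :=
    IsAdicComplete.of_module_finite (maximalIdeal O) (Fin r → O)
  have hf : Function.Surjective f := by
    apply surjective_of_mkQ_comp_surjective (I := maximalIdeal O)
    intro y
    obtain ⟨y, rfl⟩ := Submodule.mkQ_surjective _ y
    have hy : tateEval π M 1 y ∈ Submodule.span O (Set.range s) := by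
      rw [hs]; exact LinearMap.mem_range_self _ y
    obtain ⟨a, ha⟩ := Submodule.mem_span_range_iff_exists_fun O |>.mp hy
    refine ⟨a, ?_⟩
    have h1 : tateEval π M 1 (f a) = tateEval π M 1 y := by
      rw [← ha]
      simp only [f, Fintype.linearCombination_apply, map_sum, map_smul, ht]
    have h2 : (y - f a).1 1 = 0 := by
      have := congrArg (fun z => tateEval π M 1 y - z) h1
      simp only [sub_self] at this
      rw [← map_sub] at this
      exact this
    obtain ⟨z, hz, hz'⟩ := exists_eq_pow_smul (y - f a).2 h2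
    rw [pow_one] at hz'
    have h3 : y - f a = π • (⟨z, hz⟩ : tate π M) := Subtype.ext hz'
    have h4 : y - f a ∈ maximalIdeal O • (⊤ : Submodule O (tate π M)) := by
      rw [h3]
      exact Submodule.smul_mem_smul hπ Submodule.mem_top
    simp only [LinearMap.coe_comp, Function.comp_apply, Submodule.mkQ_apply]
    symm
    rw [Submodule.Quotient.eq]
    exact h4
  exact Module.Finite.of_surjective f hf

theorem tate_fg [IsAdicComplete (maximalIdeal O) O] (hπ : π ∈ maximalIdeal O) (hπ0 : π ≠ 0)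
    (hfg : (Submodule.torsionBy O M π).FG) : (tate π M).FG := by
  haveI := tate_finite hπ hπ0 hfg
  exact (Module.Finite.iff_fg).mp inferInstance

end DVR

/-! ### endomorphisms and the eigen-lattice -/

section Eigen

variable {O : Type*} [CommRing O] {π : O} {M : Type*} [AddCommGroup M] [Module O M]

theorem comp_mem_tate (φ : Module.End O M) {x : ℕ → M} (hx : x ∈ tate π M) :
    (fun n => φ (x n)) ∈ tate π M := by
  refine ⟨?_, fun n => ?_⟩
  · show φ (x 0) = 0
    rw [tate_zero hx, map_zero]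
  · show π • φ (x (n + 1)) = φ (x n)
    rw [← map_smul, tate_succ hx]

variable {ι : Type*} (π) (h : ι → Module.End O M) (c : ι → O)

/-- The simultaneous eigen-lattice in the Tate module: sequences `x` in `tate π M` with
`h i (x n) = c i • x n` for all `i` and `n`. -/
def eigenTate : Submodule O (ℕ → M) where
  carrier := {x | x ∈ tate π M ∧ ∀ i n, h i (x n) = c i • x n}
  add_mem' := by
    rintro x y ⟨hx, hx'⟩ ⟨hy, hy'⟩
    refine ⟨(tate π M).add_mem hx hy, fun i n => ?_⟩
    simp only [Pi.add_apply, map_add, hx' i n, hy' i n, smul_add]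
  zero_mem' := ⟨(tate π M).zero_mem, fun i n => by simp⟩
  smul_mem' := by
    rintro a x ⟨hx, hx'⟩
    refine ⟨(tate π M).smul_mem a hx, fun i n => ?_⟩
    simp only [Pi.smul_apply, map_smul, hx' i n]
    rw [smul_comm]

variable {π h c}

theorem mem_eigenTate {x : ℕ → M} :
    x ∈ eigenTate π h c ↔ x ∈ tate π M ∧ ∀ i n, h i (x n) = c i • x n := Iff.rfl

theorem eigenTate_le : eigenTate π h c ≤ tate π M := fun _ hx => hx.1

theorem eigenTate_pow_smul_self (x : eigenTate π h c) (n : ℕ) : π ^ n • x.1 n = 0 :=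
  tate_pow_smul_self x.2.1 n

end Eigen

section EigenDVR

variable {O : Type*} [CommRing O] [IsDomain O] [IsDiscreteValuationRing O]
  {π : O} {M : Type*} [AddCommGroup M] [Module O M]
  {ι : Type*} {h : ι → Module.End O M} {c : ι → O}

/-- The eigen-lattice is saturated in the Tate module. -/
theorem eigenTate_saturated (hπ : π ∈ maximalIdeal O) {a : O} (ha : a ≠ 0) {x : ℕ → M}
    (hx : x ∈ tate π M) (hax : a • x ∈ eigenTate π h c) : x ∈ eigenTate π h c := by
  refine ⟨hx, fun i n => ?_⟩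
  have hz : (fun n => h i (x n)) - c i • x ∈ tate π M :=
    (tate π M).sub_mem (comp_mem_tate (h i) hx) ((tate π M).smul_mem _ hx)
  have hz0 : a • ((fun n => h i (x n)) - c i • x) = 0 := by
    funext n
    have := hax.2 i n
    simp only [Pi.smul_apply, map_smul] at this
    simp only [Pi.smul_apply, Pi.sub_apply, Pi.zero_apply, smul_sub, this]
    rw [smul_comm, sub_self]
  have := tate_smul_eq_zero hπ ha hz hz0
  have := congrFun this n
  simp only [Pi.sub_apply, Pi.smul_apply, Pi.zero_apply] at this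
  exact sub_eq_zero.mp this

theorem eigenTate_isTorsionFree (hπ : π ∈ maximalIdeal O) :
    Module.IsTorsionFree O (eigenTate π h c) := by
  refine Module.IsTorsionFree.of_smul_eq_zero fun a x hax => ?_
  by_cases ha : a = 0
  · exact Or.inl ha
  · right
    apply Subtype.ext
    apply tate_smul_eq_zero hπ ha x.2.1
    have := congrArg Subtype.val hax
    simpa using this

theorem eigenTate_finite [IsAdicComplete (maximalIdeal O) O] (hπ : π ∈ maximalIdeal O)
    (hπ0 : π ≠ 0) (hfg : (Submodule.torsionBy O M π).FG) :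
    Module.Finite O (eigenTate π h c) :=
  Module.Finite.iff_fg.mpr ((tate_fg hπ hπ0 hfg).of_le eigenTate_le)

theorem eigenTate_free [IsAdicComplete (maximalIdeal O) O] (hπ : π ∈ maximalIdeal O)
    (hπ0 : π ≠ 0) (hfg : (Submodule.torsionBy O M π).FG) :
    Module.Free O (eigenTate π h c) := by
  haveI := eigenTate_finite (h := h) (c := c) hπ hπ0 hfg
  haveI := eigenTate_isTorsionFree (h := h) (c := c) hπ
  exact Module.free_of_finite_type_torsion_free'

end EigenDVR

/-! ### the action of a group on the eigen-lattice -/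

section Action

variable {O : Type*} [CommRing O] {π : O} {M : Type*} [AddCommGroup M] [Module O M]
  {ι : Type*} {h : ι → Module.End O M} {c : ι → O}

/-- An endomorphism of `M` commuting with all `h i` acts on the eigen-lattice. -/
def eigenTateMap (φ : Module.End O M) (hφ : ∀ i m, h i (φ m) = φ (h i m)) :
    Module.End O (eigenTate π h c) :=
  (φ.compLeft ℕ).restrict (p := eigenTate π h c) (q := eigenTate π h c) (by
    rintro x ⟨hx, hx'⟩
    refine ⟨comp_mem_tate φ hx, fun i n => ?_⟩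
    show h i (φ (x n)) = c i • φ (x n)
    rw [hφ, hx' i n, map_smul])

@[simp] theorem eigenTateMap_apply (φ : Module.End O M) (hφ : ∀ i m, h i (φ m) = φ (h i m))
    (x : eigenTate π h c) (n : ℕ) :
    (eigenTateMap φ hφ x).1 n = φ (x.1 n) := rfl

variable {G : Type*} [Group G] (g : G →* Module.End O M)
  (hcomm : ∀ σ i m, h i (g σ m) = g σ (h i m))

/-- The action of `G` on the eigen-lattice. -/
def eigenTateRep : G →* Module.End O (eigenTate π h c) where
  toFun σ := eigenTateMap (g σ) (hcomm σ)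
  map_one' := by
    apply LinearMap.ext
    intro x
    apply Subtype.ext
    funext n
    simp
  map_mul' σ τ := by
    apply LinearMap.ext
    intro x
    apply Subtype.ext
    funext n
    simp

@[simp] theorem eigenTateRep_apply (σ : G) (x : eigenTate π h c) (n : ℕ) :
    (eigenTateRep (π := π) (c := c) g hcomm σ x).1 n = g σ (x.1 n) := rfl

/-- If `g σ` fixes the `π ^ n`-torsion of `M` for all `n`, then `σ` acts trivially on the
eigen-lattice. -/
theorem eigenTateRep_eq_one {σ : G} (hσ : ∀ n (m : M), π ^ n • m = 0 → g σ m = m) :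
    eigenTateRep (π := π) (c := c) g hcomm σ = 1 := by
  apply LinearMap.ext
  intro x
  apply Subtype.ext
  funext n
  rw [eigenTateRep_apply, Module.End.one_apply]
  exact hσ n _ (eigenTate_pow_smul_self x n)

/-- The quadratic relation on the eigen-lattice. -/
theorem eigenTateRep_quadratic {σ : G} (i : ι) (b : O)
    (hσ : ∀ n (m : M), π ^ n • m = 0 → g σ (g σ m) - h i (g σ m) + b • m = 0) :
    eigenTateRep (π := π) (c := c) g hcomm σ * eigenTateRep (π := π) (c := c) g hcomm σ
      - c i • eigenTateRep (π := π) (c := c) g hcomm σ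
      + b • (1 : Module.End O (eigenTate π h c)) = 0 := by
  apply LinearMap.ext
  intro x
  apply Subtype.ext
  funext n
  have h1 := hσ n _ (eigenTate_pow_smul_self x n)
  have h2 : h i (g σ (x.1 n)) = c i • g σ (x.1 n) := by
    rw [hcomm, x.2.2 i n, map_smul]
  rw [h2] at h1
  simpa using h1

end Action

section ActionDVR

variable {O : Type*} [CommRing O] [IsDomain O] [IsDiscreteValuationRing O]
  {π : O} {M : Type*} [AddCommGroup M] [Module O M]
  {ι : Type*} {h : ι → Module.End O M} {c : ι → O}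
  {G : Type*} [Group G] (g : G →* Module.End O M)
  (hcomm : ∀ σ i m, h i (g σ m) = g σ (h i m))

/-- If `g σ` fixes the `π ^ n`-torsion of `M`, then `σ - 1` maps the eigen-lattice into
`𝔪 ^ n` times the eigen-lattice. -/
theorem eigenTateRep_sub_mem (hπ : π ∈ maximalIdeal O) (hπ0 : π ≠ 0) {σ : G} {n : ℕ}
    (hσ : ∀ m : M, π ^ n • m = 0 → g σ m = m) (x : eigenTate π h c) :
    eigenTateRep (π := π) (c := c) g hcomm σ x - x ∈
      (maximalIdeal O ^ n) • (⊤ : Submodule O (eigenTate π h c)) := by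
  set w := eigenTateRep (π := π) (c := c) g hcomm σ x - x with hw
  have hwn : w.1 n = 0 := by
    show g σ (x.1 n) - x.1 n = 0
    rw [hσ _ (eigenTate_pow_smul_self x n), sub_self]
  obtain ⟨y, hy, hy'⟩ := exists_eq_pow_smul w.2.1 hwn
  have hy2 : y ∈ eigenTate π h c :=
    eigenTate_saturated hπ (pow_ne_zero n hπ0) hy (hy' ▸ w.2)
  have h3 : w = π ^ n • (⟨y, hy2⟩ : eigenTate π h c) := Subtype.ext hy'
  rw [h3]
  exact Submodule.smul_mem_smul (Ideal.pow_mem_pow hπ n) Submodule.mem_top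

end ActionDVR

end Fermat.Agent.S30Tate
end
end MergeWrap_S30_TateModule

section MergeWrap_S30_TateBaseChange -- from S30/TateBaseChange.lean

set_option autoImplicit false
set_option linter.unusedSectionVars false
set_option linter.style.haveILetI false

/-!
# S30 p-adic core, W1 (abstract part 2): torsion of `O ⊗[ℤ] J` for a flat `ℤ`-algebra `O`

`J` an abelian group, `O` a commutative ring which is flat over `ℤ`.  Then the `n`-torsion of
`O ⊗[ℤ] J` is the image of `O ⊗[ℤ] J[n]`.  Consequently every `ℤ`-linear identity which holds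
on `J[n]` holds on `(O ⊗ J)[n]` after base change.
-/

noncomputable section

namespace Fermat.Agent.S30Tate

open scoped TensorProduct

section Torsion

variable (O : Type*) [CommRing O] {J : Type*} [AddCommGroup J]

theorem natCast_smul_tensor (n : ℕ) (m : O ⊗[ℤ] J) : (n : O) • m = (n : ℤ) • m := by
  rw [Nat.cast_smul_eq_nsmul, natCast_zsmul]

variable [Module.Flat ℤ O]

/-- The `n`-torsion of `O ⊗ J` is the image of `O ⊗ J[n]`. -/
theorem exists_torsion_lift (n : ℕ) (m : O ⊗[ℤ] J) (hm : (n : O) • m = 0) :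
    ∃ z : O ⊗[ℤ] Submodule.torsionBy ℤ J (n : ℤ),
      (Submodule.torsionBy ℤ J (n : ℤ)).subtype.baseChange O z = m := by
  have hex : Function.Exact (Submodule.torsionBy ℤ J (n : ℤ)).subtype
      ((n : ℤ) • (LinearMap.id : J →ₗ[ℤ] J)) := by
    intro y
    simp only [LinearMap.smul_apply, LinearMap.id_coe, id_eq, Submodule.coe_subtype,
      Set.mem_range, Subtype.exists, exists_prop, exists_eq_right, Submodule.mem_torsionBy_iff]
  have h1 := Module.Flat.lTensor_exact O hex
  have h2 : (((n : ℤ) • (LinearMap.id : J →ₗ[ℤ] J)).lTensor O) m = 0 := by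
    rw [LinearMap.lTensor_smul, LinearMap.lTensor_id, LinearMap.smul_apply, LinearMap.id_apply,
      ← natCast_smul_tensor, hm]
  obtain ⟨z, hz⟩ := (h1 m).mp h2
  exact ⟨z, hz⟩

/-- A `ℤ`-linear map vanishing on `J[n]` vanishes on `(O ⊗ J)[n]` after base change. -/
theorem baseChange_eq_zero_of_torsion {J' : Type*} [AddCommGroup J'] (n : ℕ) (f : J →ₗ[ℤ] J')
    (hf : ∀ x : J, n • x = 0 → f x = 0) (m : O ⊗[ℤ] J) (hm : (n : O) • m = 0) :
    f.baseChange O m = 0 := by
  obtain ⟨z, rfl⟩ := exists_torsion_lift O n m hm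
  have h0 : f ∘ₗ (Submodule.torsionBy ℤ J (n : ℤ)).subtype = 0 := by
    apply LinearMap.ext
    intro y
    have hy := y.2
    rw [Submodule.mem_torsionBy_iff, natCast_zsmul] at hy
    exact hf _ hy
  rw [← LinearMap.comp_apply, ← LinearMap.baseChange_comp, h0, LinearMap.baseChange_zero,
    LinearMap.zero_apply]

/-- The torsion of `O ⊗ J` is finitely generated if `J[n]` is finite. -/
theorem torsionBy_tensor_fg [IsNoetherianRing O] (n : ℕ) (hfin : {x : J | n • x = 0}.Finite) :
    (Submodule.torsionBy O (O ⊗[ℤ] J) (n : O)).FG := by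
  haveI : Finite (Submodule.torsionBy ℤ J (n : ℤ)) := by
    have : (Submodule.torsionBy ℤ J (n : ℤ) : Set J) = {x : J | n • x = 0} := by
      ext x
      simp [Submodule.mem_torsionBy_iff]
    exact (this ▸ hfin : (Submodule.torsionBy ℤ J (n : ℤ) : Set J).Finite)
  haveI : Module.Finite ℤ (Submodule.torsionBy ℤ J (n : ℤ)) := Module.Finite.of_finite
  have h1 : (LinearMap.range ((Submodule.torsionBy ℤ J (n : ℤ)).subtype.baseChange O)).FG := by
    rw [← Submodule.map_top]
    exact Module.Finite.fg_top.map _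
  refine h1.of_le ?_
  intro m hm
  rw [Submodule.mem_torsionBy_iff] at hm
  obtain ⟨z, hz⟩ := exists_torsion_lift O n m hm
  exact ⟨z, hz⟩

/-- Injectivity of `O ⊗ J[n] → O ⊗ J`. -/
theorem torsion_baseChange_injective (n : ℕ) :
    Function.Injective ((Submodule.torsionBy ℤ J (n : ℤ)).subtype.baseChange O) := by
  have := Module.Flat.lTensor_preserves_injective_linearMap (M := O)
    (Submodule.torsionBy ℤ J (n : ℤ)).subtype (Submodule.injective_subtype _)
  rwa [← LinearMap.baseChange_eq_ltensor] at this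

end Torsion

section Galois

variable (O : Type*) [CommRing O] (J : Type*) [AddCommGroup J]
  {G : Type*} [Group G] [DistribMulAction G J]

/-- The action of `σ` on `J` as a `ℤ`-linear map. -/
def galLinZ (σ : G) : J →ₗ[ℤ] J := (DistribSMul.toAddMonoidHom J σ).toIntLinearMap

@[simp] theorem galLinZ_apply (σ : G) (x : J) : galLinZ J σ x = σ • x := rfl

/-- The action of `G` on `O ⊗ J`. -/
def galBC : G →* Module.End O (O ⊗[ℤ] J) where
  toFun σ := (galLinZ J σ).baseChange O
  map_one' := by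
    have : galLinZ J (1 : G) = LinearMap.id := by
      apply LinearMap.ext; intro x; simp
    rw [this, LinearMap.baseChange_id]; rfl
  map_mul' σ τ := by
    have : galLinZ J (σ * τ) = galLinZ J σ ∘ₗ galLinZ J τ := by
      apply LinearMap.ext; intro x; simp [mul_smul]
    rw [this, LinearMap.baseChange_comp]; rfl

theorem galBC_apply (σ : G) (m : O ⊗[ℤ] J) : galBC O J σ m = (galLinZ J σ).baseChange O m := rfl

variable {J}

theorem galBC_comm (T : Module.End ℤ J) (hT : ∀ (σ : G) (x : J), T (σ • x) = σ • T x)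
    (σ : G) (m : O ⊗[ℤ] J) :
    T.baseChange O (galBC O J σ m) = galBC O J σ (T.baseChange O m) := by
  rw [galBC_apply, galBC_apply, ← LinearMap.comp_apply, ← LinearMap.comp_apply,
    ← LinearMap.baseChange_comp, ← LinearMap.baseChange_comp]
  congr 2
  apply LinearMap.ext
  intro x
  simp [hT]

variable [Module.Flat ℤ O]

theorem galBC_fix (n : ℕ) (σ : G) (hfix : ∀ x : J, n • x = 0 → σ • x = x)
    (m : O ⊗[ℤ] J) (hm : (n : O) • m = 0) : galBC O J σ m = m := by
  have := baseChange_eq_zero_of_torsion O n (galLinZ J σ - LinearMap.id)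
    (fun x hx => by simp [hfix x hx]) m hm
  rw [LinearMap.baseChange_sub, LinearMap.baseChange_id, LinearMap.sub_apply,
    LinearMap.id_apply, sub_eq_zero] at this
  exact this

theorem galBC_quadratic (n : ℕ) (σ : G) (T : Module.End ℤ J) (ℓ : ℕ)
    (hq : ∀ x : J, n • x = 0 → σ • σ • x - T (σ • x) + ℓ • x = 0)
    (m : O ⊗[ℤ] J) (hm : (n : O) • m = 0) :
    galBC O J σ (galBC O J σ m) - T.baseChange O (galBC O J σ m) + (ℓ : O) • m = 0 := by
  have := baseChange_eq_zero_of_torsion O n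
    (galLinZ J σ ∘ₗ galLinZ J σ - T ∘ₗ galLinZ J σ + (ℓ : ℤ) • LinearMap.id)
    (fun x hx => by simpa using hq x hx) m hm
  rw [LinearMap.baseChange_add, LinearMap.baseChange_sub, LinearMap.baseChange_comp,
    LinearMap.baseChange_comp, LinearMap.baseChange_smul, LinearMap.baseChange_id] at this
  simp only [LinearMap.add_apply, LinearMap.sub_apply, LinearMap.comp_apply,
    LinearMap.smul_apply, LinearMap.id_apply] at this
  rw [natCast_smul_tensor]
  exact this

end Galois

end Fermat.Agent.S30Tate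
end
end MergeWrap_S30_TateBaseChange

section MergeWrap_S30_TateAbstract -- from S30/TateAbstract.lean

set_option autoImplicit false
set_option linter.unusedSectionVars false
set_option linter.style.haveILetI false

/-!
# S30 p-adic core, W1 (abstract part 3): the eigen-lattice of `O ⊗ J`

`J` an abelian group with an action of a group `G` and commuting endomorphisms `T i`
(`i : ι`) which commute with `G`; `O` a complete DVR of characteristic zero, `p` a prime in the
maximal ideal of `O`, `c : ι → O` a system of eigenvalues.  If `J[p]` is finite and there is a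
compatible nonzero sequence of eigen-classes `x n ∈ O ⊗ J[p ^ n]`, then the `c`-eigenpart of the
`p`-adic Tate module of `O ⊗ J` is a nonzero finite free `O`-module with an action of `G`, and
every identity which holds on all `J[p ^ n]` holds on it.
-/

noncomputable section

namespace Fermat.Agent.S30Tate

open IsLocalRing
open scoped TensorProduct

section Bridge

variable {O : Type*} [CommRing O] [Module.Flat ℤ O] {J : Type*} [AddCommGroup J]
  {ι : Type*} (T : ι → Module.End ℤ J) (c : ι → O) {p : ℕ}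

/-- The bridge: a compatible sequence of eigen-classes in `O ⊗ J[p ^ n]` gives a nonzero
element of the eigen-lattice. -/
theorem exists_mem_eigenTate_ne_zero
    (μ : ∀ n, Submodule.torsionBy ℤ J ((p ^ (n + 1) : ℕ) : ℤ) →ₗ[ℤ]
      Submodule.torsionBy ℤ J ((p ^ n : ℕ) : ℤ))
    (hμ : ∀ n (y : Submodule.torsionBy ℤ J ((p ^ (n + 1) : ℕ) : ℤ)),
      ((μ n y : Submodule.torsionBy ℤ J ((p ^ n : ℕ) : ℤ)) : J) = (p : ℤ) • (y : J))
    (Tt : ∀ (_ : ι) (n : ℕ), Submodule.torsionBy ℤ J ((p ^ n : ℕ) : ℤ) →ₗ[ℤ]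
      Submodule.torsionBy ℤ J ((p ^ n : ℕ) : ℤ))
    (hTt : ∀ i n (y : Submodule.torsionBy ℤ J ((p ^ n : ℕ) : ℤ)),
      ((Tt i n y : Submodule.torsionBy ℤ J ((p ^ n : ℕ) : ℤ)) : J) = T i (y : J))
    (x : (n : ℕ) → O ⊗[ℤ] Submodule.torsionBy ℤ J ((p ^ n : ℕ) : ℤ))
    (hx0 : ∃ n, x n ≠ 0)
    (hcompat : ∀ n, (μ n).baseChange O (x (n + 1)) = x n)
    (heig : ∀ i n, (Tt i n).baseChange O (x n) = c i • x n) :
    ∃ X : ℕ → O ⊗[ℤ] J,
      X ∈ eigenTate (p : O) (fun i => (T i).baseChange O) c ∧ X ≠ 0 := by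
  refine ⟨fun n => (Submodule.torsionBy ℤ J ((p ^ n : ℕ) : ℤ)).subtype.baseChange O (x n),
    ⟨⟨?_, ?_⟩, ?_⟩, ?_⟩
  · -- X 0 = 0
    have h0 : (Submodule.torsionBy ℤ J ((p ^ 0 : ℕ) : ℤ)).subtype = 0 := by
      apply LinearMap.ext
      rintro ⟨y, hy⟩
      rw [Submodule.mem_torsionBy_iff, pow_zero, Nat.cast_one, one_smul] at hy
      rw [Submodule.subtype_apply, LinearMap.zero_apply]
      exact hy
    show (Submodule.torsionBy ℤ J ((p ^ 0 : ℕ) : ℤ)).subtype.baseChange O (x 0) = 0
    rw [h0, LinearMap.baseChange_zero, LinearMap.zero_apply]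
  · -- p • X (n+1) = X n
    intro n
    show (p : O) • (Submodule.torsionBy ℤ J ((p ^ (n + 1) : ℕ) : ℤ)).subtype.baseChange O
        (x (n + 1))
      = (Submodule.torsionBy ℤ J ((p ^ n : ℕ) : ℤ)).subtype.baseChange O (x n)
    have h1 : (Submodule.torsionBy ℤ J ((p ^ n : ℕ) : ℤ)).subtype ∘ₗ μ n =
        (p : ℤ) • (Submodule.torsionBy ℤ J ((p ^ (n + 1) : ℕ) : ℤ)).subtype := by
      apply LinearMap.ext
      intro y
      simp only [LinearMap.comp_apply, Submodule.subtype_apply, LinearMap.smul_apply]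
      exact hμ n y
    rw [← hcompat n, ← LinearMap.comp_apply, ← LinearMap.baseChange_comp, h1,
      LinearMap.baseChange_smul, LinearMap.smul_apply, natCast_smul_tensor]
  · -- eigen
    intro i n
    show (T i).baseChange O
        ((Submodule.torsionBy ℤ J ((p ^ n : ℕ) : ℤ)).subtype.baseChange O (x n))
      = c i • (Submodule.torsionBy ℤ J ((p ^ n : ℕ) : ℤ)).subtype.baseChange O (x n)
    have h1 : T i ∘ₗ (Submodule.torsionBy ℤ J ((p ^ n : ℕ) : ℤ)).subtype =
        (Submodule.torsionBy ℤ J ((p ^ n : ℕ) : ℤ)).subtype ∘ₗ Tt i n := by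
      apply LinearMap.ext
      intro y
      simp only [LinearMap.comp_apply, Submodule.subtype_apply]
      exact (hTt i n y).symm
    rw [← LinearMap.comp_apply, ← LinearMap.baseChange_comp, h1, LinearMap.baseChange_comp,
      LinearMap.comp_apply, heig i n, map_smul]
  · -- nonzero
    obtain ⟨n, hn⟩ := hx0
    intro hX
    apply hn
    apply torsion_baseChange_injective O (J := J) (p ^ n)
    rw [map_zero]
    exact congrFun hX n

end Bridge

/-- **W1, abstract form.** -/
theorem exists_eigenLattice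
    {O : Type} [CommRing O] [IsDomain O] [IsDiscreteValuationRing O]
    [IsAdicComplete (maximalIdeal O) O] [CharZero O]
    {p : ℕ} (hp : p.Prime) (hpO : (p : O) ∈ maximalIdeal O)
    {J : Type} [AddCommGroup J] {G : Type} [Group G] [DistribMulAction G J]
    {ι : Type} (T : ι → Module.End ℤ J) (c : ι → O)
    (hT : ∀ i (σ : G) (x : J), T i (σ • x) = σ • T i x)
    (hfin : {x : J | p • x = 0}.Finite)
    (μ : ∀ n, Submodule.torsionBy ℤ J ((p ^ (n + 1) : ℕ) : ℤ) →ₗ[ℤ]
      Submodule.torsionBy ℤ J ((p ^ n : ℕ) : ℤ))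
    (hμ : ∀ n (y : Submodule.torsionBy ℤ J ((p ^ (n + 1) : ℕ) : ℤ)),
      ((μ n y : Submodule.torsionBy ℤ J ((p ^ n : ℕ) : ℤ)) : J) = (p : ℤ) • (y : J))
    (Tt : ∀ (_ : ι) (n : ℕ), Submodule.torsionBy ℤ J ((p ^ n : ℕ) : ℤ) →ₗ[ℤ]
      Submodule.torsionBy ℤ J ((p ^ n : ℕ) : ℤ))
    (hTt : ∀ i n (y : Submodule.torsionBy ℤ J ((p ^ n : ℕ) : ℤ)),
      ((Tt i n y : Submodule.torsionBy ℤ J ((p ^ n : ℕ) : ℤ)) : J) = T i (y : J))
    (x : (n : ℕ) → O ⊗[ℤ] Submodule.torsionBy ℤ J ((p ^ n : ℕ) : ℤ))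
    (hx0 : ∃ n, x n ≠ 0)
    (hcompat : ∀ n, (μ n).baseChange O (x (n + 1)) = x n)
    (heig : ∀ i n, (Tt i n).baseChange O (x n) = c i • x n) :
    ∃ (Λ : Type) (_ : AddCommGroup Λ) (_ : Module O Λ) (_ : Module.Free O Λ)
      (_ : Module.Finite O Λ) (_ : Nontrivial Λ) (ρ : G →* Module.End O Λ),
      (∀ (n : ℕ) (σ : G), (∀ y : J, p ^ n • y = 0 → σ • y = y) →
          ∀ v : Λ, ρ σ v - v ∈ (maximalIdeal O ^ n) • (⊤ : Submodule O Λ)) ∧
      (∀ σ : G, (∀ (n : ℕ) (y : J), p ^ n • y = 0 → σ • y = y) → ρ σ = 1) ∧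
      (∀ (σ : G) (i : ι) (ℓ : ℕ),
          (∀ (n : ℕ) (y : J), p ^ n • y = 0 → σ • σ • y - T i (σ • y) + ℓ • y = 0) →
          ρ σ * ρ σ - c i • ρ σ + (ℓ : O) • (1 : Module.End O Λ) = 0) := by
  have hπ0 : (p : O) ≠ 0 := Nat.cast_ne_zero.mpr hp.ne_zero
  have hfg : (Submodule.torsionBy O (O ⊗[ℤ] J) (p : O)).FG := torsionBy_tensor_fg O p hfin
  have hcomm : ∀ (σ : G) (i : ι) (m : O ⊗[ℤ] J),
      (T i).baseChange O (galBC O J σ m) = galBC O J σ ((T i).baseChange O m) :=
    fun σ i m => galBC_comm O (T i) (hT i) σ m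
  have hcast : ∀ (n : ℕ) (m : O ⊗[ℤ] J), (p : O) ^ n • m = 0 →
      ((p ^ n : ℕ) : O) • m = 0 := fun n m hm => by
    rw [Nat.cast_pow]; exact hm
  obtain ⟨X, hX, hXne⟩ := exists_mem_eigenTate_ne_zero T c μ hμ Tt hTt x hx0 hcompat heig
  refine ⟨eigenTate (p : O) (fun i => (T i).baseChange O) c, inferInstance, inferInstance,
    eigenTate_free hpO hπ0 hfg, eigenTate_finite hpO hπ0 hfg,
    ⟨⟨⟨X, hX⟩, 0, fun h => hXne (congrArg Subtype.val h)⟩⟩,
    eigenTateRep (galBC O J) hcomm, ?_, ?_, ?_⟩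
  · intro n σ hfix v
    exact eigenTateRep_sub_mem (galBC O J) hcomm hpO hπ0
      (fun m hm => galBC_fix O (p ^ n) σ hfix m (hcast n m hm)) v
  · intro σ hfix
    apply eigenTateRep_eq_one
    intro n m hm
    exact galBC_fix O (p ^ n) σ (hfix n) m (hcast n m hm)
  · intro σ i ℓ hq
    exact eigenTateRep_quadratic (h := fun i => (T i).baseChange O) (galBC O J) hcomm i (ℓ : O)
      (fun n m hm => galBC_quadratic O (p ^ n) σ (T i) ℓ (hq n) m (hcast n m hm))

end Fermat.Agent.S30Tate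
end
end MergeWrap_S30_TateAbstract

section MergeWrap_S30_TateLattice -- from S30/TateLattice.lean

set_option autoImplicit false
set_option linter.unusedSectionVars false
set_option linter.style.haveILetI false

/-!
# S30 p-adic core, W1: the Tate lattice of `J₀(N)` at a point `χ` of the Hecke algebra

From the interface propositions of cluster A (`TorsionFinite`, `TorsionUnramified`,
`TorsionFrobQuadratic`, `TorsionOpenStab`, `HeckeGaloisComm`) and the `p`-adic eigen-class
(`EigenclassPadic`) we construct a `FrobLattice p N S 𝒪 (heckeEigenvalue χ)`: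
the `χ`-eigenpart of the `p`-adic Tate module of `𝒪 ⊗ J₀(N)(ℚ̄)`.
-/

noncomputable section

namespace Fermat.Agent.S30

open ModularCurve AlgebraicCurve IsLocalRing
open scoped TensorProduct
open Fermat.Agent.S30Tate

/-- The index set of the Hecke operators: primes `ℓ ∤ N` outside `S`. -/
abbrev HeckeIdx (N : ℕ) (S : Finset ℕ) : Type :=
  {ℓ : ℕ // ℓ.Prime ∧ ¬ ℓ ∣ N ∧ ℓ ∉ (↑S : Set ℕ)}

theorem not_dvd_mul_pow {N p q : ℕ} (hp : p.Prime) (hq : q.Prime) (hqN : ¬ q ∣ N) (hqp : q ≠ p)
    (n : ℕ) : ¬ q ∣ N * p ^ n := by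
  intro h
  rcases (Nat.Prime.dvd_mul hq).mp h with h | h
  · exact hqN h
  · exact hqp ((Nat.prime_dvd_prime_iff_eq hq hp).mp (hq.dvd_of_dvd_pow h))

/-- **W1.**  The Tate lattice: from the interface propositions of cluster A and the `p`-adic
eigen-class we get a `FrobLattice`. -/
theorem frobLattice_of_interfaces (N : ℕ) [NeZero N]
    (hE : EigenclassPadic N) (hFin : F3.TorsionFinite N)
    (hUnr : F3.TorsionUnramified N) (hFrob : F3.TorsionFrobQuadratic N)
    (hOpen : F3.TorsionOpenStab N) (hComm : F3.HeckeGaloisComm N)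
    (p : ℕ) [Fact p.Prime] (S : Finset ℕ) (hpS : p ∈ S)
    (hNS : ∀ q : ℕ, q.Prime → q ∣ N → q ∈ S)
    (𝒪 : Type) [CommRing 𝒪] [IsDomain 𝒪] [IsDiscreteValuationRing 𝒪]
    [IsAdicComplete (maximalIdeal 𝒪) 𝒪] [Finite (ResidueField 𝒪)] [CharZero 𝒪]
    (hp𝒪 : (p : 𝒪) ∈ maximalIdeal 𝒪) (χ : CuspForm.heckeAlgebra N 2 (↑S : Set ℕ) →+* 𝒪) :
    Nonempty (FrobLattice p N S 𝒪 (heckeEigenvalue χ)) := by
  have hp : p.Prime := Fact.out
  obtain ⟨x, hx0, hcompat, heig⟩ := hE p S hpS hNS 𝒪 hp𝒪 χ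
  obtain ⟨Λ, _, _, _, _, _, ρ, hcont, hunr, hfrob⟩ :=
    exists_eigenLattice (O := 𝒪) (G := GQ) (J := JZero N) (ι := HeckeIdx N S) hp hp𝒪
      (fun i => heckeOperatorBar N ⟨i.1, i.2.1⟩)
      (fun i => χ (CuspForm.heckeAlgebra.T i.2.1 i.2.2.1 i.2.2.2))
      (fun i σ y => hComm ⟨i.1, i.2.1⟩ σ y)
      (hFin p hp.pos)
      (fun n => mulPTors N p n)
      (fun n y => mulPTors_coe N p n y)
      (fun i n => F3.heckeTors N (p ^ n) ⟨i.1, i.2.1⟩)
      (fun i n y => rfl)
      x hx0 hcompat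
      (fun i n => heig n i.1 i.2.1 i.2.2.1 i.2.2.2)
  refine ⟨{
    Λ := Λ
    ρ := ρ
    cont := ?_
    unram := ?_
    frob := ?_ }⟩
  · -- adic continuity
    intro n
    have hpos : 0 < p ^ n := pow_pos hp.pos n
    haveI : Finite {y : JZero N // p ^ n • y = 0} := (hFin (p ^ n) hpos).to_subtype
    choose L hLfin hL using fun y : {y : JZero N // p ^ n • y = 0} => hOpen (p ^ n) hpos y.1 y.2
    haveI : ∀ y, FiniteDimensional ℚ (L y) := hLfin
    refine ⟨⨆ y, L y, inferInstance, fun σ hσ v => ?_⟩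
    have hfix : ∀ y : JZero N, p ^ n • y = 0 → σ • y = y := fun y hy =>
      hL ⟨y, hy⟩ σ (fun z hz => hσ z (le_iSup L ⟨y, hy⟩ hz))
    exact hcont n σ hfix v
  · -- unramified
    intro q hq hqN hqp P hP σ hσ
    exact hunr σ (fun n y hy =>
      hUnr (p ^ n) q hq (not_dvd_mul_pow hp hq hqN hqp n) P hP σ hσ y hy)
  · -- Frobenius relation
    intro ℓ hℓ hℓS A hA σ hσ
    have hℓS' : ℓ ∉ (↑S : Set ℕ) := fun h => hℓS (Finset.mem_coe.mp h)
    have hℓN : ¬ ℓ ∣ N := fun h => hℓS (hNS ℓ hℓ h)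
    have hℓp : ℓ ≠ p := fun h => hℓS (h ▸ hpS)
    rw [heckeEigenvalue_eq χ hℓ hℓN hℓS']
    exact hfrob σ (⟨ℓ, hℓ, hℓN, hℓS'⟩ : HeckeIdx N S) ℓ (fun n y hy =>
      hFrob (p ^ n) ℓ hℓ (not_dvd_mul_pow hp hℓ hℓN hℓp n) A hA σ hσ y hy)

end Fermat.Agent.S30
end
end MergeWrap_S30_TateLattice

section MergeWrap_S30_Final -- from S30/Final.lean

set_option autoImplicit false

/-!
# S30 from the interface propositions of cluster A

`s30At_of_interfaces N` : the six interface propositions at level `N`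
(`EigenclassPadic`, `TorsionFinite`, `TorsionUnramified`, `TorsionFrobQuadratic`,
`TorsionOpenStab`, `HeckeGaloisComm`) imply the frozen S30 statement at level `N`.
Frobenius density and the cyclotomic character are unconditional.
-/

namespace Fermat.Agent.S30

open IsLocalRing

/-- S30 at level `N` from the interface propositions. -/
theorem s30At_of_interfaces (N : ℕ) [NeZero N]
    (hE : EigenclassPadic N) (hFin : F3.TorsionFinite N)
    (hUnr : F3.TorsionUnramified N) (hFrob : F3.TorsionFrobQuadratic N)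
    (hOpen : F3.TorsionOpenStab N) (hComm : F3.HeckeGaloisComm N) :
    S30At N :=
  s30At_of_core N F3.frobDensityLite
    (fun p _ 𝒪 _ _ _ _ _ _ hp => ⟨Fermat.Agent.Cyclo.cycloCharData (p := p) (𝒪 := 𝒪) hp⟩)
    (fun p _ S hpS hNS 𝒪 _ _ _ _ _ _ hp χ =>
      frobLattice_of_interfaces N hE hFin hUnr hFrob hOpen hComm p S hpS hNS 𝒪 hp χ)

end Fermat.Agent.S30
end MergeWrap_S30_Final

section MergeWrap_S31_Reduction -- from S31/Reduction.lean

/-!
# S31: reduction to existence (owner: helper62)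

`S31` (the representation of a Hecke–Galois datum is unramified outside `S`) is reduced to

* `F3.FrobDensityLite` (Frobenius density, existence form),
* the frozen statement of `S30` (existence of Galois representations over discrete valuation
  rings), taken as a hypothesis `S30Statement`,
* the fact that the points of `T` in complete discrete valuation rings of characteristic zero
  with finite residue field separate the elements of `T` (semisimplicity of the Hecke algebra).

No frozen constant is used: `S30Statement` is a definition with the same type.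
-/

namespace Fermat.Agent.S31

open Polynomial Fermat.Agent.F3 Fermat.Agent.TraceRigidity

/-- The frozen statement of S30, as a proposition. -/
def S30Statement : Prop :=
  ∀ (p : ℕ) [Fact p.Prime] (N : ℕ) [NeZero N] (S : Finset ℕ)
    (_hpS : p ∈ S) (_hNS : ∀ q : ℕ, q.Prime → q ∣ N → q ∈ S)
    (𝒪' : Type) [CommRing 𝒪'] [IsDomain 𝒪'] [IsDiscreteValuationRing 𝒪']
    [IsAdicComplete (IsLocalRing.maximalIdeal 𝒪') 𝒪'] [Finite (IsLocalRing.ResidueField 𝒪')]
    [CharZero 𝒪'] (_hp𝒪' : (p : 𝒪') ∈ IsLocalRing.maximalIdeal 𝒪')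
    (χ : CuspForm.heckeAlgebra N 2 (↑S : Set ℕ) →+* 𝒪'),
    ∃ (𝒪'' : Type) (_ : CommRing 𝒪'') (_ : IsDomain 𝒪'') (_ : IsDiscreteValuationRing 𝒪'')
      (_ : IsAdicComplete (IsLocalRing.maximalIdeal 𝒪'') 𝒪'')
      (_ : Finite (IsLocalRing.ResidueField 𝒪'')) (_ : CharZero 𝒪'')
      (_ : Algebra 𝒪' 𝒪'') (_ : Module.Finite 𝒪' 𝒪'') (_ : IsLocalHom (algebraMap 𝒪' 𝒪'')),
    Function.Injective (algebraMap 𝒪' 𝒪'') ∧
    ∃ ρ : GaloisRepAdic 𝒪'',
      (∀ (ℓ : ℕ) (hℓ : ℓ.Prime) (hℓN : ¬ ℓ ∣ N) (hℓS : ℓ ∉ (↑S : Set ℕ)),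
        ∀ A : ValuationSubring (AlgebraicClosure ℚ), A.LiesOverPrime ℓ →
          ∀ σ : AlgebraicClosure ℚ ≃ₐ[ℚ] AlgebraicClosure ℚ, A.IsFrobeniusAt σ ℓ →
            LinearMap.charpoly (ρ.ρ σ) =
              X ^ 2 - C (algebraMap 𝒪' 𝒪'' (χ (CuspForm.heckeAlgebra.T hℓ hℓN hℓS))) * X
                + C ((ℓ : 𝒪''))) ∧
      (∀ q : ℕ, q.Prime → ¬ q ∣ N → q ≠ p → ρ.IsUnramifiedAt q)

/-- A point of `T` in a complete discrete valuation ring of characteristic zero with finite
residue field of residue characteristic `p`. -/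
structure DVRPoint (p : ℕ) (T : Type) [CommRing T] [IsLocalRing T] : Type 1 where
  /-- the target ring -/
  O : Type
  [instCommRing : CommRing O]
  [instIsDomain : IsDomain O]
  [instDVR : IsDiscreteValuationRing O]
  [instComplete : IsAdicComplete (IsLocalRing.maximalIdeal O) O]
  [instFinite : Finite (IsLocalRing.ResidueField O)]
  [instCharZero : CharZero O]
  hp : (p : O) ∈ IsLocalRing.maximalIdeal O
  /-- the point -/
  ψ : T →+* O
  isLocalHom : IsLocalHom ψ

attribute [instance] DVRPoint.instCommRing DVRPoint.instIsDomain DVRPoint.instDVR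
  DVRPoint.instComplete DVRPoint.instFinite DVRPoint.instCharZero

variable {p : ℕ} {N : ℕ} [NeZero N] {S : Finset ℕ}
  {𝒪 : Type} [CommRing 𝒪] [IsDomain 𝒪] [IsDiscreteValuationRing 𝒪]
  [IsAdicComplete (IsLocalRing.maximalIdeal 𝒪) 𝒪]
  {θ : CuspForm.heckeAlgebra N 2 (↑S : Set ℕ) →+* IsLocalRing.ResidueField 𝒪}
  {T : Type} [CommRing T] [IsLocalRing T] [IsNoetherianRing T]
  [IsAdicComplete (IsLocalRing.maximalIdeal T) T] [Algebra 𝒪 T] [IsLocalHom (algebraMap 𝒪 T)]
  [Module.Finite 𝒪 T] [Module.Free 𝒪 T]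

/-- S31 from a separating family of points carrying representations. -/
theorem isUnramifiedAt_of_points_datum (hdens : FrobDensityLite)
    (hNS : ∀ q : ℕ, q.Prime → q ∣ N → q ∈ S)
    (H : CuspForm.HeckeGaloisRepDatum N (↑S : Set ℕ) 𝒪 θ T) (q : ℕ)
    {ι : Type*} (O : ι → Type) [∀ i, CommRing (O i)] [∀ i, IsLocalRing (O i)]
    [∀ i, IsNoetherianRing (O i)]
    (ψ : ∀ i, T →+* O i) (hloc : ∀ i, IsLocalHom (ψ i))
    (hinj : ∀ x : T, (∀ i, ψ i x = 0) → x = 0)
    (ρ' : ∀ i, GaloisRepAdic (O i))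
    (hfrob : ∀ i, ∀ (ℓ : ℕ) (hℓ : ℓ.Prime) (hℓN : ¬ ℓ ∣ N) (hℓS : ℓ ∉ (↑S : Set ℕ)),
      ∀ A : ValuationSubring (AlgebraicClosure ℚ), A.LiesOverPrime ℓ →
        ∀ σ : GQ, A.IsFrobeniusAt σ ℓ →
          LinearMap.charpoly ((ρ' i).ρ σ) =
            X ^ 2 - C (ψ i (H.π (CuspForm.heckeAlgebra.T hℓ hℓN hℓS))) * X + C ((ℓ : O i)))
    (hunr : ∀ i, (ρ' i).IsUnramifiedAt q) :
    H.ρ.IsUnramifiedAt q := by
  refine isUnramifiedAt_of_points hdens H.ρ H.residual_absIrr S q O ψ hloc hinj ρ' ?_ hunr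
  intro i ℓ hℓ hℓS A hA σ hσ
  have hℓN : ¬ ℓ ∣ N := fun h => hℓS (hNS ℓ hℓ h)
  have hℓS' : ℓ ∉ (↑S : Set ℕ) := fun h => hℓS (Finset.mem_coe.1 h)
  rw [hfrob i ℓ hℓ hℓN hℓS' A hA σ hσ, H.charpoly_frob ℓ hℓ hℓN hℓS' A hA σ hσ]
  simp [Polynomial.map_sub, Polynomial.map_add, Polynomial.map_mul, Polynomial.map_pow]

/-- **S31 from S30**, Frobenius density and separation of `T` by points. -/
theorem isUnramifiedAt_of_S30 (hS30 : S30Statement) (hdens : FrobDensityLite)
    (hp : p.Prime) (hpS : p ∈ S) (hNS : ∀ q : ℕ, q.Prime → q ∣ N → q ∈ S)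
    (H : CuspForm.HeckeGaloisRepDatum N (↑S : Set ℕ) 𝒪 θ T)
    (hsep : ∀ x : T, (∀ P : DVRPoint p T, P.ψ x = 0) → x = 0)
    (q : ℕ) (hq : q.Prime) (hqS : q ∉ S) :
    H.ρ.IsUnramifiedAt q := by
  classical
  have : Fact p.Prime := ⟨hp⟩
  have hqN : ¬ q ∣ N := fun h => hqS (hNS q hq h)
  have hqp : q ≠ p := fun h => hqS (h ▸ hpS)
  -- apply S30 at every point
  have key : ∀ P : DVRPoint p T, ∃ (O'' : Type) (_ : CommRing O'') (_ : IsLocalRing O'')
      (_ : IsNoetherianRing O'') (φ : T →+* O''), IsLocalHom φ ∧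
      (∀ x, φ x = 0 → P.ψ x = 0) ∧
      ∃ ρ : GaloisRepAdic O'',
        (∀ (ℓ : ℕ) (hℓ : ℓ.Prime) (hℓN : ¬ ℓ ∣ N) (hℓS : ℓ ∉ (↑S : Set ℕ)),
          ∀ A : ValuationSubring (AlgebraicClosure ℚ), A.LiesOverPrime ℓ →
            ∀ σ : GQ, A.IsFrobeniusAt σ ℓ →
              LinearMap.charpoly (ρ.ρ σ) =
                X ^ 2 - C (φ (H.π (CuspForm.heckeAlgebra.T hℓ hℓN hℓS))) * X + C ((ℓ : O''))) ∧
        ρ.IsUnramifiedAt q := by
    intro P
    obtain ⟨O'', i1, i2, i3, i4, i5, i6, i7, i8, i9, hinj, ρ, hρ, hunr⟩ :=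
      hS30 p N S hpS hNS P.O P.hp (P.ψ.comp H.π)
    have := P.isLocalHom
    refine ⟨O'', i1, inferInstance, inferInstance, (algebraMap P.O O'').comp P.ψ, ?_, ?_, ρ, ?_,
      hunr q hq hqN hqp⟩
    · exact RingHom.isLocalHom_comp _ _
    · intro x hx
      rw [RingHom.comp_apply] at hx
      exact hinj (by rw [hx, map_zero])
    · intro ℓ hℓ hℓN hℓS A hA σ hσ
      exact hρ ℓ hℓ hℓN hℓS A hA σ hσ
  choose O'' i1 i2 i3 φ hφloc hφker ρ' hρ' hunr using key
  exact isUnramifiedAt_of_points_datum hdens hNS H q O'' φ hφloc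
    (fun x hx => hsep x fun P => hφker P x (hx P)) ρ' hρ' hunr

end Fermat.Agent.S31
end MergeWrap_S31_Reduction

section MergeWrap_S31_FromS30 -- from S31/FromS30.lean

/-!
# S31 from S30 and the separation of the Hecke algebra by finitely many DVR points
(owner: helper62)

`HeckeDVRSeparation p N S`: there are finitely many ring homomorphisms from the Hecke algebra
`𝕋 = heckeAlgebra N 2 S` to complete discrete valuation rings of characteristic zero with finite
residue field of characteristic `p`, which separate `𝕋` uniformly for the `p`-adic topology.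
(This is a statement about `𝕋` only; it follows from the semisimplicity of `𝕋 ⊗ ℚ`.)

Main result: `S31Statement_of_S30`: the frozen statement of S31 (all `𝒪`, all `T`) follows from
the frozen statement of S30 and `HeckeDVRSeparation`.
-/

namespace Fermat.Agent.S31

open Polynomial Fermat.Agent.F3 Fermat.Agent.TraceRigidity IsDiscreteValuationRing

section Transfer

variable {O O' : Type*} [CommRing O] [IsDomain O] [IsDiscreteValuationRing O]
  [CommRing O'] [IsDomain O'] [IsDiscreteValuationRing O']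

lemma mem_maximalIdeal_pow_iff (x : O) (n : ℕ) :
    x ∈ IsLocalRing.maximalIdeal O ^ n ↔ (n : ℕ∞) ≤ addVal O x := by
  obtain ⟨ϖ, hϖ⟩ := exists_irreducible O
  rw [Irreducible.maximalIdeal_eq hϖ, Ideal.span_singleton_pow, Ideal.mem_span_singleton,
    ← addVal_le_iff_dvd, hϖ.addVal_pow]

/-- Powers of the maximal ideal of an extension contract into powers of the maximal ideal. -/
lemma exists_pow_contract (φ : O →+* O') (hφ : Function.Injective φ) (m : ℕ) :
    ∃ m' : ℕ, ∀ x : O, φ x ∈ IsLocalRing.maximalIdeal O' ^ m' →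
      x ∈ IsLocalRing.maximalIdeal O ^ m := by
  obtain ⟨ϖ, hϖ⟩ := exists_irreducible O
  have hϖ0 : φ ϖ ≠ 0 := fun h => hϖ.ne_zero (hφ (by rw [h, map_zero]))
  obtain ⟨e, he⟩ : ∃ e : ℕ, addVal O' (φ ϖ) = e := by
    have h1 : addVal O' (φ ϖ) ≠ ⊤ := fun h => hϖ0 (addVal_eq_top_iff.1 h)
    exact ⟨(addVal O' (φ ϖ)).toNat, (ENat.natCast_toNat h1).symm⟩
  refine ⟨m * e + 1, fun x hx => ?_⟩
  by_contra hxm
  have hx0 : x ≠ 0 := fun h => hxm (by rw [h]; exact Ideal.zero_mem _)
  obtain ⟨k, u, rfl⟩ := eq_unit_mul_pow_irreducible hx0 hϖ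
  have hk : k < m := by
    by_contra hkm
    push Not at hkm
    apply hxm
    rw [mem_maximalIdeal_pow_iff, addVal_def' u hϖ k]
    exact_mod_cast hkm
  rw [mem_maximalIdeal_pow_iff, map_mul, map_pow, addVal_mul, addVal_pow, he] at hx
  have hu : addVal O' (φ (u : O)) = 0 := by
    rw [addVal_eq_zero_iff]
    exact (u.isUnit).map φ
  rw [hu, zero_add] at hx
  have h2 : ((m * e + 1 : ℕ) : ℕ∞) ≤ ((k * e : ℕ) : ℕ∞) := by
    simpa [nsmul_eq_mul] using hx
  have h3 : m * e + 1 ≤ k * e := by exact_mod_cast h2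
  have h4 : k * e ≤ m * e := Nat.mul_le_mul_right e hk.le
  omega

end Transfer

/-- A point of the Hecke algebra in a complete discrete valuation ring of characteristic zero
with finite residue field of characteristic `p`. -/
structure HeckeDVRPoint (p N : ℕ) [NeZero N] (S : Finset ℕ) : Type 1 where
  /-- the coefficient ring -/
  O : Type
  [instCommRing : CommRing O]
  [instIsDomain : IsDomain O]
  [instDVR : IsDiscreteValuationRing O]
  [instComplete : IsAdicComplete (IsLocalRing.maximalIdeal O) O]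
  [instFinite : Finite (IsLocalRing.ResidueField O)]
  [instCharZero : CharZero O]
  hp : (p : O) ∈ IsLocalRing.maximalIdeal O
  /-- the eigen-system -/
  χ : CuspForm.heckeAlgebra N 2 (↑S : Set ℕ) →+* O

attribute [instance] HeckeDVRPoint.instCommRing HeckeDVRPoint.instIsDomain
  HeckeDVRPoint.instDVR HeckeDVRPoint.instComplete HeckeDVRPoint.instFinite
  HeckeDVRPoint.instCharZero

/-- Finitely many DVR points separate the Hecke algebra uniformly for the `p`-adic topology. -/
def HeckeDVRSeparation (p N : ℕ) [NeZero N] (S : Finset ℕ) : Prop :=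
  ∃ (d : ℕ) (P : Fin d → HeckeDVRPoint p N S), ∀ r : ℕ, ∃ m : ℕ,
    ∀ X : CuspForm.heckeAlgebra N 2 (↑S : Set ℕ),
      (∀ i, (P i).χ X ∈ IsLocalRing.maximalIdeal (P i).O ^ m) →
        ∃ Y : CuspForm.heckeAlgebra N 2 (↑S : Set ℕ), X = (p : CuspForm.heckeAlgebra N 2 _) ^ r * Y

variable {p : ℕ} {N : ℕ} [NeZero N] {S : Finset ℕ}

/-- S30 turns DVR points of the Hecke algebra into points carrying representations. -/
theorem separatingPoints_of_S30 (hS30 : S30Statement) (hp : p.Prime) (hpS : p ∈ S)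
    (hNS : ∀ q : ℕ, q.Prime → q ∣ N → q ∈ S) (hsep : HeckeDVRSeparation p N S)
    (q : ℕ) (hq : q.Prime) (hqS : q ∉ S) : SeparatingPoints p N S q := by
  classical
  have : Fact p.Prime := ⟨hp⟩
  have hqN : ¬ q ∣ N := fun h => hqS (hNS q hq h)
  have hqp : q ≠ p := fun h => hqS (h ▸ hpS)
  obtain ⟨d, P, hP⟩ := hsep
  have key : ∀ i : Fin d, ∃ Q : HeckePoint N S q,
      ∀ m : ℕ, ∃ m' : ℕ, ∀ X : CuspForm.heckeAlgebra N 2 (↑S : Set ℕ),
        Q.χ X ∈ IsLocalRing.maximalIdeal Q.O ^ m' →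
          (P i).χ X ∈ IsLocalRing.maximalIdeal (P i).O ^ m := by
    intro i
    obtain ⟨O'', i1, i2, i3, i4, i5, i6, i7, i8, i9, hinj, ρ, hρ, hunr⟩ :=
      hS30 p N S hpS hNS (P i).O (P i).hp (P i).χ
    refine ⟨{ O := O'', χ := (algebraMap (P i).O O'').comp (P i).χ, ρ := ρ,
              charpoly_frob := fun ℓ hℓ hℓN hℓS A hA σ hσ => hρ ℓ hℓ hℓN hℓS A hA σ hσ,
              unram := hunr q hq hqN hqp }, fun m => ?_⟩
    obtain ⟨m', hm'⟩ := exists_pow_contract (algebraMap (P i).O O'') hinj m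
    exact ⟨m', fun X hX => hm' _ hX⟩
  choose Q hQ using key
  refine ⟨d, Q, fun r => ?_⟩
  obtain ⟨m, hm⟩ := hP r
  choose m' hm' using fun i => hQ i m
  refine ⟨Finset.univ.sup m', fun X hX => hm X fun i => hm' i X ?_⟩
  exact Ideal.pow_le_pow_right (Finset.le_sup (Finset.mem_univ i)) (hX i)

/-- The frozen statement of S31, as a proposition. -/
def S31Statement : Prop :=
  ∀ {p : ℕ} {N : ℕ} [NeZero N] {S : Finset ℕ}
    {𝒪 : Type} [CommRing 𝒪] [IsDomain 𝒪] [IsDiscreteValuationRing 𝒪]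
    [IsAdicComplete (IsLocalRing.maximalIdeal 𝒪) 𝒪]
    {θ : CuspForm.heckeAlgebra N 2 (↑S : Set ℕ) →+* IsLocalRing.ResidueField 𝒪}
    {T : Type} [CommRing T] [IsLocalRing T] [IsNoetherianRing T]
    [IsAdicComplete (IsLocalRing.maximalIdeal T) T] [Algebra 𝒪 T] [IsLocalHom (algebraMap 𝒪 T)]
    [Module.Finite 𝒪 T] [Module.Free 𝒪 T]
    (_hp : p.Prime) (_hp𝒪 : (p : 𝒪) ∈ IsLocalRing.maximalIdeal 𝒪) (_hpS : p ∈ S)
    (_hNS : ∀ q : ℕ, q.Prime → q ∣ N → q ∈ S)
    (H : CuspForm.HeckeGaloisRepDatum N (↑S : Set ℕ) 𝒪 θ T)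
    (q : ℕ) (_hq : q.Prime) (_hqS : q ∉ S), H.ρ.IsUnramifiedAt q

/-- **S31 from S30** and the separation property of the Hecke algebra. -/
theorem S31Statement_of_S30 (hS30 : S30Statement)
    (hsep : ∀ (p N : ℕ) [NeZero N] (S : Finset ℕ), p.Prime → p ∈ S →
      (∀ q : ℕ, q.Prime → q ∣ N → q ∈ S) → HeckeDVRSeparation p N S) :
    S31Statement := by
  intro p N _ S 𝒪 _ _ _ _ θ T _ _ _ _ _ _ _ _ hp hp𝒪 hpS hNS H q hq hqS
  exact isUnramifiedAt_of_separatingPoints frobDensityLite hp𝒪 hNS H q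
    (separatingPoints_of_S30 hS30 hp hpS hNS (hsep p N S hp hpS hNS) q hq hqS)

end Fermat.Agent.S31
end MergeWrap_S31_FromS30

section MergeWrap_Lib_DVRPoints_Reduced -- from Lib/DVRPoints/Reduced.lean

/-!
# DVR points of a reduced ring which is finite and torsion-free over `ℤ`
(owner: helper62)

Main result `dvrSeparation_of_isReduced`: a reduced commutative ring which is a finitely generated
torsion-free `ℤ`-module is separated, uniformly for the `p`-adic topology, by finitely many ring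
homomorphisms to complete discrete valuation rings of characteristic zero with finite residue
field of characteristic `p`.
-/

namespace Fermat.Agent.DVRPoints

open NumberField nonZeroDivisors

universe u

section Domain

variable (D : Type u) [CommRing D] [IsDomain D] [Module.Finite ℤ D] [CharZero D]
  (K : Type u) [Field K] [Algebra D K] [IsFractionRing D K]

include D in
theorem numberField_of_isFractionRing : NumberField K := by
  have : CharZero K := charZero_of_injective_algebraMap (IsFractionRing.injective D K)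
  have : FiniteDimensional ℚ K := Module.Finite.of_isLocalization ℤ D ℤ⁰
  exact ⟨⟩

omit [IsDomain D] [CharZero D] [IsFractionRing D K] in
/-- the map from an order to the ring of integers -/
noncomputable def toInt : D →+* 𝓞 K :=
  (IsIntegralClosure.lift ℤ (𝓞 K) K (S := D)).toRingHom

omit [IsDomain D] [CharZero D] [IsFractionRing D K] in
lemma algebraMap_toInt (x : D) : algebraMap (𝓞 K) K (toInt D K x) = algebraMap D K x :=
  IsIntegralClosure.algebraMap_lift ℤ (𝓞 K) K x

omit [IsDomain D] [CharZero D] in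
lemma toInt_injective : Function.Injective (toInt D K) := by
  intro x y hxy
  have h1 := algebraMap_toInt D K x
  rw [hxy, algebraMap_toInt] at h1
  exact (IsFractionRing.injective D K h1).symm

end Domain

/-- The quotient of a `ℤ`-torsion-free ring by a minimal prime has characteristic zero. -/
theorem charZero_quotient_of_mem_minimalPrimes {h : Type u} [CommRing h]
    (htf : ∀ (n : ℕ) (x : h), n ≠ 0 → (n : h) * x = 0 → x = 0) {𝔭 : Ideal h}
    (h𝔭 : 𝔭 ∈ minimalPrimes h) : CharZero (h ⧸ 𝔭) := by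
  have hprime : 𝔭.IsPrime := Ideal.IsMinimalPrime.isPrime h𝔭
  refine charZero_of_inj_zero fun n hn => ?_
  by_contra hn0
  have h1 : (n : h) ∈ 𝔭 := by
    rw [← Ideal.Quotient.eq_zero_iff_mem, map_natCast]
    exact hn
  have h2 : (n : h) ∈ nonZeroDivisors h := by
    rw [mem_nonZeroDivisors_iff_right]
    intro x hx
    exact htf n x hn0 (by rw [mul_comm]; exact hx)
  exact Set.disjoint_left.1 (Ideal.disjoint_nonZeroDivisors_of_mem_minimalPrimes h𝔭) h1 h2

/-- A reduced commutative ring which is finite and torsion-free over `ℤ` is separated, uniformly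
for the `p`-adic topology, by finitely many points in complete discrete valuation rings of
characteristic zero with finite residue field of characteristic `p`. -/
theorem dvrSeparation_of_isReduced (h : Type u) [CommRing h] [Module.Finite ℤ h] [IsReduced h]
    (htf : ∀ (n : ℕ) (x : h), n ≠ 0 → (n : h) * x = 0 → x = 0) (p : ℕ) (hp : p.Prime) :
    DVRSeparation p h := by
  classical
  have : IsNoetherianRing h := Algebra.FiniteType.isNoetherianRing ℤ h
  have : Finite (minimalPrimes h) := (minimalPrimes.finite_of_isNoetherianRing h).to_subtype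
  have hprime : ∀ 𝔭 : minimalPrimes h, 𝔭.1.IsPrime := fun 𝔭 => Ideal.IsMinimalPrime.isPrime 𝔭.2
  have hchar : ∀ 𝔭 : minimalPrimes h, CharZero (h ⧸ 𝔭.1) :=
    fun 𝔭 => charZero_quotient_of_mem_minimalPrimes htf 𝔭.2
  have hnf : ∀ 𝔭 : minimalPrimes h, NumberField (FractionRing (h ⧸ 𝔭.1)) :=
    fun 𝔭 => numberField_of_isFractionRing (h ⧸ 𝔭.1) _
  refine dvrSeparation_of_family (ι := minimalPrimes h) (fun 𝔭 => FractionRing (h ⧸ 𝔭.1))
    (fun 𝔭 => (toInt (h ⧸ 𝔭.1) (FractionRing (h ⧸ 𝔭.1))).comp (Ideal.Quotient.mk 𝔭.1)) ?_ p hp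
  intro X hX
  have h1 : X ∈ sInf (minimalPrimes h) := by
    rw [Ideal.mem_sInf]
    intro 𝔭 h𝔭
    have h2 := hX ⟨𝔭, h𝔭⟩
    rw [RingHom.comp_apply, map_eq_zero_iff _ (toInt_injective _ _),
      Ideal.Quotient.eq_zero_iff_mem] at h2
    exact h2
  rw [minimalPrimes, Ideal.sInf_minimalPrimes] at h1
  have h3 : IsNilpotent X := by
    rwa [← mem_nilradical, nilradical]
  exact h3.eq_zero

end Fermat.Agent.DVRPoints
end MergeWrap_Lib_DVRPoints_Reduced

section MergeWrap_S31_DVRPoints -- from S31/DVRPoints.lean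

/-!
# The Hecke algebra is separated by finitely many DVR points; S31 from S30
(owner: helper62)

`heckeDVRSeparation`: `HeckeDVRSeparation p N S` holds (unconditionally) when `S` contains the
primes dividing `N`.  Inputs: the Hecke algebra is a finitely generated `ℤ`-module (S22), it is
reduced (Petersson product, `Fermat.Agent.Pet.isReduced_heckeAlgebra`), and the abstract theorem
`Fermat.Agent.DVRPoints.dvrSeparation_of_isReduced`.

`S31Statement_of_S30Statement`: the frozen statement of S31 follows from that of S30.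
-/

namespace Fermat.Agent.S31

open Fermat.Agent.DVRPoints

/-- The Hecke algebra is torsion-free over `ℤ`. -/
theorem heckeAlgebra_torsionFree (N : ℕ) [NeZero N] (k : ℤ) (S : Set ℕ) (n : ℕ)
    (x : CuspForm.heckeAlgebra N k S) (hn : n ≠ 0)
    (hx : (n : CuspForm.heckeAlgebra N k S) * x = 0) : x = 0 := by
  have h1 : ((n : CuspForm.heckeAlgebra N k S) * x :
      CuspForm.heckeAlgebra N k S).1 = 0 := by rw [hx]; rfl
  have h2 : (n : Module.End ℂ (CuspForm (CongruenceSubgroup.Gamma0 N) k)) * x.1 = 0 := h1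
  apply Subtype.ext
  change x.1 = 0
  ext f : 1
  have h3 := LinearMap.congr_fun h2 f
  have h4 : (n : ℂ) • (x.1 f) = 0 := by
    have : ((n : Module.End ℂ (CuspForm (CongruenceSubgroup.Gamma0 N) k)) * x.1) f
        = (n : ℂ) • (x.1 f) := by
      rw [Module.End.mul_apply]
      simp [Nat.cast_smul_eq_nsmul]
    rw [← this, h3]
    rfl
  rcases smul_eq_zero.1 h4 with h5 | h5
  · exact absurd (by exact_mod_cast h5) hn
  · exact h5

/-- The Hecke algebra away from the level is separated, uniformly for the `p`-adic topology, by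
finitely many points in complete discrete valuation rings. -/
theorem heckeDVRSeparation (p N : ℕ) [NeZero N] (S : Finset ℕ) (hp : p.Prime)
    (hNS : ∀ q : ℕ, q.Prime → q ∣ N → q ∈ S) : HeckeDVRSeparation p N S := by
  have : Module.Finite ℤ (CuspForm.heckeAlgebra N 2 (↑S : Set ℕ)) :=
    Fermat.Agent.S22.result N 2 _
  have : IsReduced (CuspForm.heckeAlgebra N 2 (↑S : Set ℕ)) :=
    Fermat.Agent.Pet.isReduced_heckeAlgebra N 2 _ (fun q hq hqN => by exact_mod_cast hNS q hq hqN)
  obtain ⟨d, P, hP⟩ := dvrSeparation_of_isReduced (CuspForm.heckeAlgebra N 2 (↑S : Set ℕ))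
    (fun n x hn hx => heckeAlgebra_torsionFree N 2 _ n x hn hx) p hp
  exact ⟨d, fun i => { O := (P i).O, hp := (P i).hp, χ := (P i).χ }, hP⟩

/-- **S31 from S30**: the frozen statement of S31 follows from the frozen statement of S30. -/
theorem S31Statement_of_S30Statement (hS30 : S30Statement) : S31Statement :=
  S31Statement_of_S30 hS30 fun p N _ S hp _ hNS => heckeDVRSeparation p N S hp hNS

end Fermat.Agent.S31
end MergeWrap_S31_DVRPoints

section MergeWrap_S34_Reduction -- from S34/Reduction.lean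

/-!
# S34 from a statement about the `p`-adic representations of eigen-systems
(owner: helper62)

`UnipotentPoints p N S q`: every point `χ : 𝕋 → O'` of the Hecke algebra `𝕋 = heckeAlgebra N 2 S`
in a complete discrete valuation ring `O'` of characteristic zero with finite residue field of
characteristic `p` has an attached representation (over a finite extension `O''` of `O'`, with
the Frobenius characteristic polynomials `X² - χ(T_ℓ) X + ℓ`, `ℓ ∉ S`) which is unipotent on
inertia at `q`.  This is a statement about `p`-adic representations of single eigen-systems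
(the frozen S30 with one more clause).

`S34Statement_of_unipotentPoints`: the frozen S34 (all `𝒪`, all `T`) follows from
`UnipotentPoints p N S q` for all `q ‖ N`, `q ≠ p`.  Frobenius density, the separation of the
Hecke algebra by DVR points (Petersson + S22 + Lib/DVRPoints) are already discharged.
-/

namespace Fermat.Agent.S34

open Polynomial Fermat.Agent.F3 Fermat.Agent.TraceRigidity Fermat.Agent.S31 IsLocalRing

/-- Every `p`-adic point of the Hecke algebra of level `N` carries a representation with the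
right Frobenius characteristic polynomials which is unipotent on inertia at `q`. -/
def UnipotentPoints (p N : ℕ) [NeZero N] (S : Finset ℕ) (q : ℕ) : Prop :=
  ∀ (𝒪' : Type) [CommRing 𝒪'] [IsDomain 𝒪'] [IsDiscreteValuationRing 𝒪']
    [IsAdicComplete (IsLocalRing.maximalIdeal 𝒪') 𝒪'] [Finite (IsLocalRing.ResidueField 𝒪')]
    [CharZero 𝒪'] (_hp𝒪' : (p : 𝒪') ∈ IsLocalRing.maximalIdeal 𝒪')
    (χ : CuspForm.heckeAlgebra N 2 (↑S : Set ℕ) →+* 𝒪'),
    ∃ (𝒪'' : Type) (_ : CommRing 𝒪'') (_ : IsDomain 𝒪'') (_ : IsDiscreteValuationRing 𝒪'')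
      (_ : Algebra 𝒪' 𝒪''),
    Function.Injective (algebraMap 𝒪' 𝒪'') ∧
    ∃ ρ : GaloisRepAdic 𝒪'',
      (∀ (ℓ : ℕ) (hℓ : ℓ.Prime) (hℓN : ¬ ℓ ∣ N) (hℓS : ℓ ∉ (↑S : Set ℕ)),
        ∀ A : ValuationSubring (AlgebraicClosure ℚ), A.LiesOverPrime ℓ →
          ∀ σ : AlgebraicClosure ℚ ≃ₐ[ℚ] AlgebraicClosure ℚ, A.IsFrobeniusAt σ ℓ →
            LinearMap.charpoly (ρ.ρ σ) =
              X ^ 2 - C (algebraMap 𝒪' 𝒪'' (χ (CuspForm.heckeAlgebra.T hℓ hℓN hℓS))) * X
                + C ((ℓ : 𝒪''))) ∧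
      ρ.IsUnipotentOnInertiaAt q

variable {p : ℕ} {N : ℕ} [NeZero N] {S : Finset ℕ}

/-- Separating points carrying representations which are unipotent on inertia at `q`. -/
theorem exists_repPoints_of_unipotentPoints (hp : p.Prime)
    (hNS : ∀ q : ℕ, q.Prime → q ∣ N → q ∈ S) (q : ℕ) (hU : UnipotentPoints p N S q) :
    ∃ (d : ℕ) (P : Fin d → HeckeRepPoint N S), IsSeparating p P ∧
      ∀ i, (P i).ρ.IsUnipotentOnInertiaAt q := by
  classical
  obtain ⟨d, P, hP⟩ := heckeDVRSeparation p N S hp hNS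
  have key : ∀ i : Fin d, ∃ Q : HeckeRepPoint N S, Q.ρ.IsUnipotentOnInertiaAt q ∧
      ∀ m : ℕ, ∃ m' : ℕ, ∀ X : CuspForm.heckeAlgebra N 2 (↑S : Set ℕ),
        Q.χ X ∈ IsLocalRing.maximalIdeal Q.O ^ m' →
          (P i).χ X ∈ IsLocalRing.maximalIdeal (P i).O ^ m := by
    intro i
    obtain ⟨O'', i1, i2, i3, i4, hinj, ρ, hρ, hunip⟩ := hU (P i).O (P i).hp (P i).χ
    refine ⟨{ O := O'', χ := (algebraMap (P i).O O'').comp (P i).χ, ρ := ρ,
              charpoly_frob := fun ℓ hℓ hℓN hℓS A hA σ hσ => hρ ℓ hℓ hℓN hℓS A hA σ hσ },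
            hunip, fun m => ?_⟩
    obtain ⟨m', hm'⟩ := exists_pow_contract (algebraMap (P i).O O'') hinj m
    exact ⟨m', fun X hX => hm' _ hX⟩
  choose Q hQu hQ using key
  refine ⟨d, Q, fun r => ?_, hQu⟩
  obtain ⟨m, hm⟩ := hP r
  choose m' hm' using fun i => hQ i m
  refine ⟨Finset.univ.sup m', fun X hX => hm X fun i => hm' i X ?_⟩
  exact Ideal.pow_le_pow_right (Finset.le_sup (Finset.mem_univ i)) (hX i)

/-- The frozen statement of S34, as a proposition. -/
def S34Statement : Prop :=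
  ∀ {𝒪 : Type} [CommRing 𝒪] [IsDomain 𝒪] [IsDiscreteValuationRing 𝒪]
    [IsAdicComplete (maximalIdeal 𝒪) 𝒪] [Finite (ResidueField 𝒪)] [CharZero 𝒪]
    {p : ℕ} (_hp : p.Prime) (_hp𝒪 : (p : 𝒪) ∈ maximalIdeal 𝒪)
    {N : ℕ} [NeZero N] {S : Finset ℕ} (_hpS : p ∈ S) (_hNS : ∀ q : ℕ, q.Prime → q ∣ N → q ∈ S)
    {θ : CuspForm.heckeAlgebra N 2 (↑S : Set ℕ) →+* ResidueField 𝒪}
    {T : Type} [CommRing T] [IsLocalRing T] [IsNoetherianRing T]
    [IsAdicComplete (maximalIdeal T) T] [Algebra 𝒪 T] [IsLocalHom (algebraMap 𝒪 T)]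
    [Module.Finite 𝒪 T] [Module.Free 𝒪 T]
    (H : CuspForm.HeckeGaloisRepDatum N (↑S : Set ℕ) 𝒪 θ T)
    (q : ℕ) (_hq : q.Prime) (_hqp : q ≠ p) (_hqN : q ∣ N) (_hq2 : ¬ q ^ 2 ∣ N),
    H.ρ.IsUnipotentOnInertiaAt q

/-- **S34 from the `p`-adic representations of eigen-systems.** -/
theorem S34Statement_of_unipotentPoints
    (hU : ∀ (p N : ℕ) [NeZero N] (S : Finset ℕ) (q : ℕ), p.Prime → p ∈ S →
      (∀ q : ℕ, q.Prime → q ∣ N → q ∈ S) → q.Prime → q ≠ p → q ∣ N → ¬ q ^ 2 ∣ N →
        UnipotentPoints p N S q) :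
    S34Statement := by
  intro 𝒪 _ _ _ _ _ _ p hp hp𝒪 N _ S hpS hNS θ T _ _ _ _ _ _ _ _ H q hq hqp hqN hq2
  obtain ⟨d, P, hP, hPu⟩ := exists_repPoints_of_unipotentPoints hp hNS q
    (hU p N S q hp hpS hNS hq hqp hqN hq2)
  exact isUnipotentOnInertiaAt_of_repPoints frobDensityLite hp𝒪 hNS H P hP q hPu

end Fermat.Agent.S34
end MergeWrap_S34_Reduction

section MergeWrap_Lib_BadRed_Bridge_S34Bridge -- from Lib/BadRed/Bridge/S34Bridge.lean

set_option autoImplicit false
set_option linter.unusedSectionVars false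
set_option linter.style.haveILetI false

/-!
# Cluster T, bridge to S34  (architect helper81)

`TorsionInertiaUnipotent N` (T1: `(σ - 1)² = 0` on `J₀(N)[n]` for inertia at `q ∥ N`) together with
the interface propositions of cluster A at level `N` gives `S34.UnipotentPoints p N S q`, hence
(helper62's `S34Statement_of_unipotentPoints`) the frozen S34.

Mechanism: the eigen-lattice of `S30/TateAbstract` transports every quadratic relation
`σ² - T σ + ℓ = 0` which holds on all `J[pⁿ]`; we add the "Hecke operator" `T = 2` with eigenvalue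
`2` to the index set, so that `(σ - 1)² = 0` is transported as well.  On the lattice `ρ(σ)` is
killed by `X² - t(σ) X + ε(σ)` (`QuadRel`), `ε(σ) = 1` on inertia at `q ≠ p`, hence `t(σ) = 2` and
the characteristic polynomial of the two-dimensional representation is `(X - 1)²`.
-/

noncomputable section

namespace Fermat.Agent.BadRed

open ModularCurve AlgebraicCurve IsLocalRing Polynomial
open scoped TensorProduct
open Fermat.Agent.S30 Fermat.Agent.S30Tate

/-- the Hecke operators of `S30.HeckeIdx`, plus multiplication by `2` at `none`. -/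
def opT (N : ℕ) [NeZero N] (S : Finset ℕ) : Option (HeckeIdx N S) → Module.End ℤ (JZero N)
  | none => (2 : ℤ) • (1 : Module.End ℤ (JZero N))
  | some i => heckeOperatorBar N ⟨i.1, i.2.1⟩

/-- the eigenvalues. -/
def opC {N : ℕ} [NeZero N] {S : Finset ℕ} {𝒪 : Type} [CommRing 𝒪]
    (χ : CuspForm.heckeAlgebra N 2 (↑S : Set ℕ) →+* 𝒪) : Option (HeckeIdx N S) → 𝒪
  | none => 2
  | some i => χ (CuspForm.heckeAlgebra.T i.2.1 i.2.2.1 i.2.2.2)

/-- the operators on the torsion. -/
def opTt (N : ℕ) [NeZero N] (S : Finset ℕ) (p : ℕ) :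
    Option (HeckeIdx N S) → ∀ n : ℕ, F3.Jtors N (p ^ n) →ₗ[ℤ] F3.Jtors N (p ^ n)
  | none, _ => (2 : ℤ) • LinearMap.id
  | some i, n => F3.heckeTors N (p ^ n) ⟨i.1, i.2.1⟩

/-- A `FrobLattice` which in addition satisfies `(ρ σ - 1)² = 0` on inertia at `q`. -/
theorem exists_frobLattice_unip (N : ℕ) [NeZero N]
    (hE : EigenclassPadic N) (hFin : F3.TorsionFinite N)
    (hUnr : F3.TorsionUnramified N) (hFrob : F3.TorsionFrobQuadratic N)
    (hOpen : F3.TorsionOpenStab N) (hComm : F3.HeckeGaloisComm N)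
    (hT1 : TorsionInertiaUnipotent N)
    (p : ℕ) [Fact p.Prime] (S : Finset ℕ) (hpS : p ∈ S)
    (hNS : ∀ q : ℕ, q.Prime → q ∣ N → q ∈ S)
    (q : ℕ) (hq : q.Prime) (hqp : q ≠ p) (hqN : q ∣ N) (hq2 : ¬ q ^ 2 ∣ N)
    (𝒪 : Type) [CommRing 𝒪] [IsDomain 𝒪] [IsDiscreteValuationRing 𝒪]
    [IsAdicComplete (maximalIdeal 𝒪) 𝒪] [Finite (ResidueField 𝒪)] [CharZero 𝒪]
    (hp𝒪 : (p : 𝒪) ∈ maximalIdeal 𝒪) (χ : CuspForm.heckeAlgebra N 2 (↑S : Set ℕ) →+* 𝒪) :
    ∃ L : FrobLattice p N S 𝒪 (heckeEigenvalue χ),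
      ∀ P : ValuationSubring (AlgebraicClosure ℚ), P.LiesOverPrime q →
        ∀ σ ∈ P.inertiaSubgroupIn ℚ,
          L.ρ σ * L.ρ σ - (2 : 𝒪) • L.ρ σ + (1 : Module.End 𝒪 L.Λ) = 0 := by
  have hp : p.Prime := Fact.out
  obtain ⟨x, hx0, hcompat, heig⟩ := hE p S hpS hNS 𝒪 hp𝒪 χ
  obtain ⟨Λ, _, _, _, _, _, ρ, hcont, hunr, hfrob⟩ :=
    exists_eigenLattice (O := 𝒪) (G := GQ) (J := JZero N) (ι := Option (HeckeIdx N S)) hp hp𝒪
      (opT N S) (opC χ)
      (by
        rintro (_ | i) σ y
        · show (2 : ℤ) • (σ • y) = σ • ((2 : ℤ) • y)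
          rw [smul_comm]
        · exact hComm ⟨i.1, i.2.1⟩ σ y)
      (hFin p hp.pos)
      (fun n => mulPTors N p n)
      (fun n y => mulPTors_coe N p n y)
      (opTt N S p)
      (by
        rintro (_ | i) n y
        · rfl
        · rfl)
      x hx0 hcompat
      (by
        rintro (_ | i) n
        · show ((2 : ℤ) • LinearMap.id : F3.Jtors N (p ^ n) →ₗ[ℤ] F3.Jtors N (p ^ n)).baseChange 𝒪
              (x n) = (2 : 𝒪) • x n
          rw [LinearMap.baseChange_smul, LinearMap.baseChange_id, LinearMap.smul_apply,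
            LinearMap.id_apply]
          have h2 : ((2 : ℤ) : 𝒪) = 2 := by norm_num
          rw [← h2, Int.cast_smul_eq_zsmul]
        · exact heig n i.1 i.2.1 i.2.2.1 i.2.2.2)
  refine ⟨{
    Λ := Λ
    ρ := ρ
    cont := ?_
    unram := ?_
    frob := ?_ }, ?_⟩
  · -- adic continuity
    intro n
    have hpos : 0 < p ^ n := pow_pos hp.pos n
    haveI : Finite {y : JZero N // p ^ n • y = 0} := (hFin (p ^ n) hpos).to_subtype
    choose L hLfin hL using fun y : {y : JZero N // p ^ n • y = 0} => hOpen (p ^ n) hpos y.1 y.2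
    haveI : ∀ y, FiniteDimensional ℚ (L y) := hLfin
    refine ⟨⨆ y, L y, inferInstance, fun σ hσ v => ?_⟩
    have hfix : ∀ y : JZero N, p ^ n • y = 0 → σ • y = y := fun y hy =>
      hL ⟨y, hy⟩ σ (fun z hz => hσ z (le_iSup L ⟨y, hy⟩ hz))
    exact hcont n σ hfix v
  · -- unramified
    intro q' hq' hqN' hqp' P hP σ hσ
    exact hunr σ (fun n y hy =>
      hUnr (p ^ n) q' hq' (not_dvd_mul_pow hp hq' hqN' hqp' n) P hP σ hσ y hy)
  · -- Frobenius relation
    intro ℓ hℓ hℓS A hA σ hσ
    have hℓS' : ℓ ∉ (↑S : Set ℕ) := fun h => hℓS (Finset.mem_coe.mp h)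
    have hℓN : ¬ ℓ ∣ N := fun h => hℓS (hNS ℓ hℓ h)
    have hℓp : ℓ ≠ p := fun h => hℓS (h ▸ hpS)
    rw [heckeEigenvalue_eq χ hℓ hℓN hℓS']
    exact hfrob σ (some (⟨ℓ, hℓ, hℓN, hℓS'⟩ : HeckeIdx N S)) ℓ (fun n y hy =>
      hFrob (p ^ n) ℓ hℓ (not_dvd_mul_pow hp hℓ hℓN hℓp n) A hA σ hσ y hy)
  · -- unipotency
    intro P hP σ hσ
    have hqpn : ∀ n : ℕ, ¬ q ∣ p ^ n := fun n h =>
      hqp ((Nat.prime_dvd_prime_iff_eq hq hp).mp (hq.dvd_of_dvd_pow h))
    have h := hfrob σ none 1 (fun n y hy => by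
      have h1 := hT1 (p ^ n) q hq hqN hq2 (hqpn n) P hP σ hσ y hy
      show σ • σ • y - (2 : ℤ) • (1 : Module.End ℤ (JZero N)) (σ • y) + 1 • y = 0
      rw [one_smul, Module.End.one_apply]
      exact h1)
    show ρ σ * ρ σ - (2 : 𝒪) • ρ σ + (1 : Module.End 𝒪 Λ) = 0
    have h' : ρ σ * ρ σ - opC χ none • ρ σ + ((1 : ℕ) : 𝒪) • (1 : Module.End 𝒪 Λ) = 0 := h
    rw [Nat.cast_one, one_smul] at h'
    exact h'

/-- **T1 ⟹ `UnipotentPoints`.** -/
theorem unipotentPoints_of_interfaces (N : ℕ) [NeZero N]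
    (hE : EigenclassPadic N) (hFin : F3.TorsionFinite N)
    (hUnr : F3.TorsionUnramified N) (hFrob : F3.TorsionFrobQuadratic N)
    (hOpen : F3.TorsionOpenStab N) (hComm : F3.HeckeGaloisComm N)
    (hT1 : TorsionInertiaUnipotent N)
    (p : ℕ) (hp : p.Prime) (S : Finset ℕ) (hpS : p ∈ S)
    (hNS : ∀ q : ℕ, q.Prime → q ∣ N → q ∈ S)
    (q : ℕ) (hq : q.Prime) (hqp : q ≠ p) (hqN : q ∣ N) (hq2 : ¬ q ^ 2 ∣ N) :
    Fermat.Agent.S34.UnipotentPoints p N S q := by
  haveI : Fact p.Prime := ⟨hp⟩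
  intro 𝒪 _ _ _ _ _ _ hp𝒪 χ
  obtain ⟨L, hunip⟩ := exists_frobLattice_unip N hE hFin hUnr hFrob hOpen hComm hT1 p S hpS hNS
    q hq hqp hqN hq2 𝒪 hp𝒪 χ
  let E : CycloCharData p 𝒪 := Fermat.Agent.Cyclo.cycloCharData (p := p) (𝒪 := 𝒪) hp𝒪
  obtain ⟨t, hQ, ht⟩ := exists_quadRel_of_frobLattice F3.frobDensityLite hpS (heckeEigenvalue χ) L E
  obtain ⟨V, iV1, iV2, iV3, iV4, ρ', hfin, hchar, hcont, hker⟩ :=
    repConclusion_of_quadRel L.ρ E.ε t hQ complexConjugation complexConjugation_mul_self E.conj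
  have hadic : GaloisActionIsAdicContinuous 𝒪 ρ' := by
    intro n
    obtain ⟨L₁, hL₁fin, hL₁⟩ := L.cont n
    obtain ⟨L₂, hL₂fin, hL₂⟩ := E.level n
    refine ⟨L₁ ⊔ L₂, IntermediateField.finiteDimensional_sup L₁ L₂, ?_⟩
    intro σ hσ v
    exact hcont n σ (hL₁ σ (fun x hx => hσ x (le_sup_left (a := L₁) (b := L₂) hx)))
      (hL₂ σ (fun x hx => hσ x (le_sup_right (a := L₁) (b := L₂) hx))) v
  refine ⟨𝒪, inferInstance, inferInstance, inferInstance, Algebra.id 𝒪, Function.injective_id,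
    { V := V, finrank_eq := hfin, ρ := ρ', isAdicContinuous := hadic }, ?_, ?_⟩
  · intro ℓ hℓ hℓN hℓS A hA σ hσ
    have hℓS' : ℓ ∉ S := fun h => hℓS (Finset.mem_coe.mpr h)
    have hℓp : ℓ ≠ p := fun h => hℓS' (h ▸ hpS)
    show LinearMap.charpoly (ρ' σ) = _
    rw [hchar σ, ht ℓ hℓ hℓS' A hA σ hσ, E.frob ℓ hℓ hℓp A hA σ hσ,
      heckeEigenvalue_eq χ hℓ hℓN hℓS]
    rfl
  · intro P hP σ hσ
    show LinearMap.charpoly (ρ' σ) = (X - 1) ^ 2
    have hε : E.ε σ = 1 := E.inertia q hq hqp P hP σ hσ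
    have h1 := hQ σ
    rw [hε, Units.val_one, one_smul] at h1
    have h2 := hunip P hP σ hσ
    have h4 : (t σ - 2) • L.ρ σ = 0 := by
      have : (t σ - 2) • L.ρ σ =
          (L.ρ σ * L.ρ σ - (2 : 𝒪) • L.ρ σ + (1 : Module.End 𝒪 L.Λ))
            - (L.ρ σ * L.ρ σ - t σ • L.ρ σ + (1 : Module.End 𝒪 L.Λ)) := by
        rw [sub_smul]; abel
      rw [this, h1, h2, sub_zero]
    obtain ⟨x₀, hx₀⟩ := exists_ne (0 : L.Λ)
    have h5 : (t σ - 2) • (L.ρ σ x₀) = 0 := by
      have := congrArg (fun f : Module.End 𝒪 L.Λ => f x₀) h4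
      simpa using this
    have h6 : L.ρ σ x₀ ≠ 0 := fun h =>
      hx₀ (rho_injective L.ρ σ (by rw [h, map_zero]))
    have h7 : t σ = 2 := by
      rcases smul_eq_zero.mp h5 with h | h
      · exact sub_eq_zero.mp h
      · exact absurd h h6
    rw [hchar σ, h7, hε, Units.val_one]
    simp only [map_one]
    have : (C (2 : 𝒪) : 𝒪[X]) = 2 := map_ofNat C 2
    rw [this]
    ring

/-- **S34 from T1 and the interface propositions of cluster A** (all levels). -/
theorem s34Statement_of_interfaces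
    (h : ∀ (N : ℕ) [NeZero N], EigenclassPadic N ∧ F3.TorsionFinite N ∧ F3.TorsionUnramified N ∧
      F3.TorsionFrobQuadratic N ∧ F3.TorsionOpenStab N ∧ F3.HeckeGaloisComm N ∧
      TorsionInertiaUnipotent N) :
    Fermat.Agent.S34.S34Statement :=
  Fermat.Agent.S34.S34Statement_of_unipotentPoints
    (fun p N _ S q hp hpS hNS hq hqp hqN hq2 => by
      obtain ⟨hE, hFin, hUnr, hFrob, hOpen, hComm, hT1⟩ := h N
      exact unipotentPoints_of_interfaces N hE hFin hUnr hFrob hOpen hComm hT1 p hp S hpS hNS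
        q hq hqp hqN hq2)

end Fermat.Agent.BadRed
end
end MergeWrap_Lib_BadRed_Bridge_S34Bridge

section MergeWrap_Lib_BadRed_Bridge_T1ofPow -- from Lib/BadRed/Bridge/T1ofPow.lean

set_option autoImplicit false

/-!
# Cluster T, bridge: `InertiaPowSq N → TorsionInertiaUnipotent N`  (helper81)

The dictionary between divisor classes killed by `n` and functions (helper42's
`F3/Galois/TorsionReduce.lean`) applied to the relation `uⁿ (τ f)² = τ² f · f`.
-/

noncomputable section

namespace Fermat.Agent.BadRed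

open ModularCurve AlgebraicCurve Fermat.Agent.F3 Fermat.Agent.F3G

variable {N : ℕ} [NeZero N]

/-- **`InertiaPowSq N → TorsionInertiaUnipotent N`.** -/
theorem torsionInertiaUnipotent_of_inertiaPowSq (h : InertiaPowSq N) :
    TorsionInertiaUnipotent N := by
  intro n q hq hqN hq2 hqn A hA τ hτ x hx
  have hn : n ≠ 0 := by
    rintro rfl
    exact hqn (dvd_zero q)
  have hx' : (n : ℤ) • x = 0 := by rwa [natCast_zsmul]
  obtain ⟨D, f, hf, rfl, hD⟩ := exists_div_of_zsmul_eq_zero (n : ℤ) x hx'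
  set g := arithmeticGalois (modularFunctionFieldFull N) τ with hg
  set D' := SemilinearAut.degZeroSMulHom g D with hD'def
  set D'' := SemilinearAut.degZeroSMulHom g D' with hD''def
  have hf' : g • f ≠ 0 := by simpa using hf
  have hf'' : g • (g • f) ≠ 0 := by simpa using hf
  have hD' : ∀ v, (n : ℤ) * (D' : Divisor (AlgebraicClosure ℚ) (FBar N)) v = v.ord (g • f) :=
    fun v => mul_smul_divisor_apply_eq_ord g (n : ℤ) hD v
  have hD'' : ∀ v, (n : ℤ) * (D'' : Divisor (AlgebraicClosure ℚ) (FBar N)) v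
      = v.ord (g • (g • f)) :=
    fun v => mul_smul_divisor_apply_eq_ord g (n : ℤ) hD' v
  obtain ⟨u, hu⟩ := h n q hq hqN hq2 hqn A hA τ hτ f hf D hD
  have e1 : τ • Pic0.mk D = Pic0.mk D' := SemilinearAut.pic0_smul_mk g D
  have e2 : τ • Pic0.mk D' = Pic0.mk D'' := SemilinearAut.pic0_smul_mk g D'
  rw [e1, e2]
  -- `E = 2 D'` with function `(τ f)²`
  have hE : ∀ v, (n : ℤ) * (((2 : ℕ) • D' : Divisor.degZero (K := AlgebraicClosure ℚ)
      (F := FBar N)) : Divisor (AlgebraicClosure ℚ) (FBar N)) v = v.ord ((g • f) ^ 2) := by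
    intro v
    rw [AddSubgroup.coe_nsmul, Finsupp.smul_apply, nsmul_eq_mul, ← zpow_natCast (g • f) 2,
      Place.ord_zpow, ← hD' v]
    push_cast
    ring
  have key := mk_sub_add_nsmul_eq_zero_of_pow n hn 1 D'' ((2 : ℕ) • D') D
    hf'' (pow_ne_zero 2 hf') hf hD'' hE hD (u := u) (by rw [pow_one]; exact hu)
  rw [one_smul] at key
  have e3 : Pic0.mk ((2 : ℕ) • D') = (2 : ℤ) • Pic0.mk D' := by
    have : Pic0.mk ((2 : ℕ) • D') = (2 : ℕ) • Pic0.mk D' :=
      map_nsmul (QuotientAddGroup.mk' _) 2 D'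
    rw [this]
    exact (natCast_zsmul (Pic0.mk D') 2).symm
  rw [e3] at key
  exact key

end Fermat.Agent.BadRed
end
end MergeWrap_Lib_BadRed_Bridge_T1ofPow

section MergeWrap_S29_CoreLinAlg -- from S29/CoreLinAlg.lean

set_option autoImplicit false

/-!
# S29 core, part 1: linear algebra in dimension two

* `charpoly_eq_of_not_scalar`: a non-scalar endomorphism of a 2-dimensional space killed by
  `(X - λ)(X - μ)` has characteristic polynomial `(X - λ)(X - μ)`.
* `charpoly_smul_one_of_finrank_two`: the characteristic polynomial of a scalar `r` on a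
  2-dimensional space is `(X - r)^2`.
* `sum_prod_eq_of_not_scalar`: the monic quadratic annihilating a non-scalar endomorphism is
  unique.
-/

namespace Fermat.Agent.S29Core

open Polynomial Module

variable {F : Type*} [Field F] {V : Type*} [AddCommGroup V] [Module F V]

/-- `f` is a scalar multiple of the identity. -/
def IsScalarEnd (f : Module.End F V) : Prop := ∃ c : F, f = c • (1 : Module.End F V)

theorem quad_expand (f : Module.End F V) (a b : F) :
    (f - a • (1 : Module.End F V)) * (f - b • (1 : Module.End F V)) =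
      f * f - (a + b) • f + (a * b) • (1 : Module.End F V) := by
  simp only [sub_mul, mul_sub, smul_mul_assoc, mul_smul_comm, one_mul, mul_one]
  module

/-- Uniqueness of the monic quadratic killing a non-scalar endomorphism. -/
theorem sum_prod_eq_of_not_scalar [Nontrivial V] (f : Module.End F V) (hf : ¬ IsScalarEnd f)
    {a b a' b' : F}
    (h : (f - a • (1 : Module.End F V)) * (f - b • (1 : Module.End F V)) = 0)
    (h' : (f - a' • (1 : Module.End F V)) * (f - b' • (1 : Module.End F V)) = 0) :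
    a + b = a' + b' ∧ a * b = a' * b' := by
  rw [quad_expand] at h h'
  have key : ((a' + b') - (a + b)) • f = (a' * b' - a * b) • (1 : Module.End F V) := by
    have := congrArg₂ (· - ·) h h'
    simp only [sub_self] at this
    rw [sub_smul, sub_smul]
    have e : f * f - (a + b) • f + (a * b) • (1 : Module.End F V)
        - (f * f - (a' + b') • f + (a' * b') • (1 : Module.End F V))
        = ((a' + b') • f - (a + b) • f) - ((a' * b') • (1 : Module.End F V)
          - (a * b) • (1 : Module.End F V)) := by abel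
    rw [e] at this
    exact sub_eq_zero.mp this
  have hs : a + b = a' + b' := by
    by_contra hne
    have hne' : (a' + b') - (a + b) ≠ 0 := sub_ne_zero.mpr (Ne.symm hne)
    apply hf
    refine ⟨((a' + b') - (a + b))⁻¹ * (a' * b' - a * b), ?_⟩
    have := congrArg (fun g => ((a' + b') - (a + b))⁻¹ • g) key
    simp only [smul_smul, inv_mul_cancel₀ hne', one_smul] at this
    exact this
  refine ⟨hs, ?_⟩
  rw [hs, sub_self, zero_smul] at key
  have h1 : (a' * b' - a * b) = 0 := by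
    by_contra hne
    obtain ⟨v, hv⟩ := exists_ne (0 : V)
    have := congrArg (fun g : Module.End F V => g v) key
    simp only [LinearMap.zero_apply, LinearMap.smul_apply, Module.End.one_apply] at this
    exact hv ((smul_eq_zero.mp this.symm).resolve_left hne)
  exact (sub_eq_zero.mp h1).symm

theorem smul_one_quad (r c d : F) :
    (r • (1 : Module.End F V) - c • (1 : Module.End F V)) *
      (r • (1 : Module.End F V) - d • (1 : Module.End F V)) =
      ((r - c) * (r - d)) • (1 : Module.End F V) := by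
  simp only [sub_mul, mul_sub, smul_mul_assoc, mul_smul_comm, one_mul]
  module

theorem smul_quad (r a b : F) (f : Module.End F V) :
    (r • f - (r * a) • (1 : Module.End F V)) * (r • f - (r * b) • (1 : Module.End F V)) =
      (r * r) • ((f - a • (1 : Module.End F V)) * (f - b • (1 : Module.End F V))) := by
  simp only [sub_mul, mul_sub, smul_mul_assoc, mul_smul_comm, one_mul, mul_one, smul_sub,
    smul_smul]
  module

/-- Scalars are determined by the operator on a nontrivial module. -/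
theorem smul_one_injective [Nontrivial V] {c c' : F}
    (h : c • (1 : Module.End F V) = c' • (1 : Module.End F V)) : c = c' := by
  obtain ⟨v, hv⟩ := exists_ne (0 : V)
  have := congrArg (fun f : Module.End F V => f v) h
  simp only [LinearMap.smul_apply, Module.End.one_apply] at this
  exact smul_left_injective F hv this

theorem poly_identity (c d : F) :
    ((X - C c) * (X - C d) : F[X]) = X ^ 2 - C (c + d) * X + C (c * d) := by
  rw [map_add, map_mul]; ring

theorem aeval_quad (f : Module.End F V) (a b : F) :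
    aeval f ((X - C a) * (X - C b) : F[X]) =
      (f - a • (1 : Module.End F V)) * (f - b • (1 : Module.End F V)) := by
  simp [Algebra.algebraMap_eq_smul_one]

variable [FiniteDimensional F V]

/-- A non-scalar endomorphism of a 2-dimensional space killed by `(X - a)(X - b)` has
characteristic polynomial `(X - a)(X - b)`. -/
theorem charpoly_eq_of_not_scalar (hV : finrank F V = 2) (f : Module.End F V)
    (hf : ¬ IsScalarEnd f) {a b : F}
    (h : (f - a • (1 : Module.End F V)) * (f - b • (1 : Module.End F V)) = 0) :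
    LinearMap.charpoly f = (X - C a) * (X - C b) := by
  have : Nontrivial V := Module.nontrivial_of_finrank_pos (R := F) (by rw [hV]; norm_num)
  set q : F[X] := (X - C a) * (X - C b) with hq
  have hqm : q.Monic := (monic_X_sub_C a).mul (monic_X_sub_C b)
  have hqd : q.natDegree = 2 := by
    rw [hq, natDegree_mul (X_sub_C_ne_zero a) (X_sub_C_ne_zero b), natDegree_X_sub_C,
      natDegree_X_sub_C]
  have hcm : (LinearMap.charpoly f).Monic := LinearMap.charpoly_monic f
  have hcd : (LinearMap.charpoly f).natDegree = 2 := by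
    rw [LinearMap.charpoly_natDegree, hV]
  by_contra hne
  -- the difference is a nonzero polynomial of degree < 2 killing f
  set d : F[X] := LinearMap.charpoly f - q with hd
  have hd0 : d ≠ 0 := sub_ne_zero.mpr hne
  have hdeg : d.degree < 2 := by
    have h1 : (LinearMap.charpoly f).degree = 2 := by
      rw [degree_eq_natDegree hcm.ne_zero, hcd]; rfl
    have h2 : q.degree = 2 := by
      rw [degree_eq_natDegree hqm.ne_zero, hqd]; rfl
    have := degree_sub_lt_left (h1.trans h2.symm) hcm.ne_zero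
      (by rw [hcm.leadingCoeff, hqm.leadingCoeff])
    rwa [h1] at this
  have hkill : aeval f d = 0 := by
    rw [hd, map_sub, LinearMap.aeval_self_charpoly, hq, aeval_quad, h, sub_zero]
  have hdn : d.natDegree < 2 := by
    rcases Nat.lt_or_ge d.natDegree 2 with h | h
    · exact h
    · exfalso
      have := degree_eq_natDegree hd0
      rw [this] at hdeg
      have : (d.natDegree : WithBot ℕ) < (2 : ℕ) := hdeg
      exact absurd (Nat.cast_lt.mp this) (not_lt.mpr h)
  have hform : d = C (d.coeff 1) * X + C (d.coeff 0) :=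
    Polynomial.eq_X_add_C_of_natDegree_le_one (Nat.lt_succ_iff.mp hdn)
  have hk2 : (d.coeff 1) • f + (d.coeff 0) • (1 : Module.End F V) = 0 := by
    rw [hform] at hkill
    simpa [Algebra.algebraMap_eq_smul_one] using hkill
  by_cases h1 : d.coeff 1 = 0
  · rw [h1, zero_smul, zero_add] at hk2
    have h0 : d.coeff 0 = 0 := by
      by_contra hne0
      obtain ⟨v, hv⟩ := exists_ne (0 : V)
      have := congrArg (fun g : Module.End F V => g v) hk2
      simp only [LinearMap.zero_apply, LinearMap.smul_apply, Module.End.one_apply] at this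
      exact hv ((smul_eq_zero.mp this).resolve_left hne0)
    apply hd0
    rw [hform, h1, h0]; simp
  · apply hf
    refine ⟨-(d.coeff 1)⁻¹ * d.coeff 0, ?_⟩
    have := congrArg (fun g => (d.coeff 1)⁻¹ • g) hk2
    simp only [smul_add, smul_smul, inv_mul_cancel₀ h1, one_smul, smul_zero] at this
    rw [neg_mul, neg_smul]
    exact eq_neg_of_add_eq_zero_left this

/-- The characteristic polynomial of a scalar endomorphism. -/
theorem charpoly_smul_one (r : F) :
    LinearMap.charpoly (r • (1 : Module.End F V)) = (X - C r) ^ finrank F V := by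
  classical
  rw [← LinearMap.charpoly_toMatrix _ (Module.finBasis F V)]
  have : LinearMap.toMatrix (Module.finBasis F V) (Module.finBasis F V)
      (r • (1 : Module.End F V)) = Matrix.diagonal fun _ => r := by
    rw [map_smul]
    have h1 : LinearMap.toMatrix (Module.finBasis F V) (Module.finBasis F V)
        (1 : Module.End F V) = 1 := LinearMap.toMatrix_one _
    rw [h1]
    ext i j
    by_cases hij : i = j
    · subst hij; simp
    · simp [hij]
  rw [this, Matrix.charpoly_diagonal, Finset.prod_const, Finset.card_univ, Fintype.card_fin]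

/-- The characteristic polynomial of a scalar on a 2-dimensional space. -/
theorem charpoly_smul_one_of_finrank_two (hV : finrank F V = 2) (r : F) :
    LinearMap.charpoly (r • (1 : Module.End F V)) = (X - C r) * (X - C r) := by
  rw [charpoly_smul_one, hV, pow_two]

end Fermat.Agent.S29Core
end MergeWrap_S29_CoreLinAlg

section MergeWrap_S29_CoreSimple -- from S29/CoreSimple.lean

set_option autoImplicit false

/-!
# S29 core, part 2: a simple module all of whose operators are split-quadratic has dimension ≤ 2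

`ρ : Γ →* End_F(W)`, `ω : Γ →* Fˣ`.  `SplitQuad ρ ω` says that every `ρ g` is killed by some
`(X - a)(X - b)` with `a b = ω g`.  For such a representation which is simple and contains a
non-scalar operator, `dim W = 2`.
-/

namespace Fermat.Agent.S29Core

open Polynomial Module

variable {Γ : Type*} [Group Γ] {F : Type*} [Field F] {W : Type*} [AddCommGroup W] [Module F W]

/-- Every operator `ρ g` is killed by a split quadratic with constant term `ω g`. -/
def SplitQuad (ρ : Γ →* Module.End F W) (ω : Γ →* Fˣ) : Prop :=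
  ∀ g : Γ, ∃ a b : F, a * b = (ω g : F) ∧
    (ρ g - a • (1 : Module.End F W)) * (ρ g - b • (1 : Module.End F W)) = 0

theorem pow_quad_zero (f : Module.End F W) (a b : F)
    (h : (f - a • (1 : Module.End F W)) * (f - b • (1 : Module.End F W)) = 0) (m : ℕ) :
    (f ^ m - (a ^ m) • (1 : Module.End F W)) * (f ^ m - (b ^ m) • (1 : Module.End F W)) = 0 := by
  have h1 : ((X - C a) * (X - C b) : F[X]) ∣ (X ^ m - C (a ^ m)) * (X ^ m - C (b ^ m)) := by
    apply mul_dvd_mul
    · rw [C_pow]; exact sub_dvd_pow_sub_pow X (C a) m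
    · rw [C_pow]; exact sub_dvd_pow_sub_pow X (C b) m
  obtain ⟨q, hq⟩ := h1
  have h2 := congrArg (aeval f) hq
  rw [map_mul, map_mul (aeval f) ((X - C a) * (X - C b)), aeval_quad, h, zero_mul] at h2
  simpa [Algebra.algebraMap_eq_smul_one, _root_.smul_pow] using h2

variable (ρ : Γ →* Module.End F W) (ω : Γ →* Fˣ)

theorem rho_mul_inv (g : Γ) : ρ g * ρ g⁻¹ = 1 := by
  rw [← map_mul, mul_inv_cancel, map_one]

theorem rho_inv_mul (g : Γ) : ρ g⁻¹ * ρ g = 1 := by
  rw [← map_mul, inv_mul_cancel, map_one]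

/-- From a split quadratic relation: `ρ g + ω g • ρ g⁻¹ = (a + b) • 1`. -/
theorem trace_rel_of_quad (g : Γ) {a b : F} (hab : a * b = (ω g : F))
    (h : (ρ g - a • (1 : Module.End F W)) * (ρ g - b • (1 : Module.End F W)) = 0) :
    ρ g + (ω g : F) • ρ g⁻¹ = (a + b) • (1 : Module.End F W) := by
  rw [quad_expand] at h
  have h2 := congrArg (fun x => x * ρ g⁻¹) h
  simp only [add_mul, sub_mul, zero_mul, smul_mul_assoc, one_mul, mul_assoc, rho_mul_inv,
    mul_one] at h2
  rw [← hab]
  have : ρ g + (a * b) • ρ g⁻¹ - (a + b) • (1 : Module.End F W) = 0 := by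
    rw [← h2]; abel
  exact sub_eq_zero.mp this

variable {ρ ω}

/-- The chosen "trace" of `g`. -/
noncomputable def tr (hQ : SplitQuad ρ ω) (g : Γ) : F :=
  (hQ g).choose + (hQ g).choose_spec.choose

theorem trace_rel (hQ : SplitQuad ρ ω) (g : Γ) :
    ρ g + (ω g : F) • ρ g⁻¹ = tr hQ g • (1 : Module.End F W) :=
  trace_rel_of_quad ρ ω g (hQ g).choose_spec.choose_spec.1 (hQ g).choose_spec.choose_spec.2

theorem inv_rel (hQ : SplitQuad ρ ω) (g : Γ) :
    (ω g : F) • ρ g⁻¹ = tr hQ g • (1 : Module.End F W) - ρ g :=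
  eq_sub_of_add_eq' (trace_rel hQ g)

/-- The anticommutator relation. -/
theorem anticomm_rel (hQ : SplitQuad ρ ω) (g h : Γ) :
    ρ g * ρ h + ρ h * ρ g =
      tr hQ h • ρ g + tr hQ g • ρ h + (tr hQ (g * h) - tr hQ g * tr hQ h) •
        (1 : Module.End F W) := by
  have h1 : (ω (g * h) : F) • ρ (g * h)⁻¹ =
      ((ω h : F) • ρ h⁻¹) * ((ω g : F) • ρ g⁻¹) := by
    rw [mul_inv_rev, map_mul, map_mul, Units.val_mul, smul_mul_smul_comm, mul_comm (ω h : F)]
  have h2 := trace_rel hQ (g * h)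
  rw [h1, inv_rel hQ g, inv_rel hQ h, map_mul] at h2
  have h3 : ρ g * ρ h + (tr hQ h • (1 : Module.End F W) - ρ h) *
      (tr hQ g • (1 : Module.End F W) - ρ g) =
      ρ g * ρ h + ρ h * ρ g - tr hQ h • ρ g - tr hQ g • ρ h +
        (tr hQ g * tr hQ h) • (1 : Module.End F W) := by
    simp only [sub_mul, mul_sub, smul_mul_assoc, mul_smul_comm, one_mul, mul_one]
    module
  rw [h3] at h2
  have h4 : ρ g * ρ h + ρ h * ρ g = tr hQ (g * h) • (1 : Module.End F W) + tr hQ h • ρ g +
      tr hQ g • ρ h - (tr hQ g * tr hQ h) • (1 : Module.End F W) := by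
    rw [← h2]; abel
  rw [h4]
  module

/-- A non-scalar `ρ g` has `tr g = a + b` for any split quadratic `(X - a)(X - b)` killing it. -/
theorem tr_eq_of_not_scalar [Nontrivial W] (hQ : SplitQuad ρ ω) (g : Γ)
    (hg : ¬ IsScalarEnd (ρ g)) {a b : F}
    (h : (ρ g - a • (1 : Module.End F W)) * (ρ g - b • (1 : Module.End F W)) = 0) :
    tr hQ g = a + b :=
  (sum_prod_eq_of_not_scalar (ρ g) hg (hQ g).choose_spec.choose_spec.2 h).1

/-- Key claim: if `v ≠ 0` is an eigenvector of `ρ g₀` for the root `c` of the split quadratic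
`(X - c)(X - d)` with `c + d = tr g₀`, and the orbit of `v` spans `W`, then the range of
`ρ g₀ - d` lies in the line through `v`. -/
theorem range_le_span (hQ : SplitQuad ρ ω)
    (horbit : ∀ v : W, v ≠ 0 → Submodule.span F (Set.range fun h : Γ => ρ h v) = ⊤)
    (g₀ : Γ) {c d : F} (hcd : tr hQ g₀ = c + d) {v : W} (hv : v ≠ 0) (hev : ρ g₀ v = c • v) :
    LinearMap.range (ρ g₀ - d • (1 : Module.End F W)) ≤ Submodule.span F {v} := by
  have hU : Submodule.span F (Set.range fun h : Γ => ρ h v) ≤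
      (Submodule.span F {v}).comap (ρ g₀ - d • (1 : Module.End F W)) := by
    rw [Submodule.span_le]
    rintro _ ⟨h, rfl⟩
    show (ρ g₀ - d • (1 : Module.End F W)) (ρ h v) ∈ Submodule.span F {v}
    have key := congrArg (fun f : Module.End F W => f v) (anticomm_rel hQ g₀ h)
    simp only [LinearMap.add_apply, Module.End.mul_apply, LinearMap.smul_apply,
      Module.End.one_apply, hev, map_smul, hcd] at key
    have e : (ρ g₀ - d • (1 : Module.End F W)) (ρ h v) =
        (tr hQ h * c + (tr hQ (g₀ * h) - (c + d) * tr hQ h)) • v := by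
      simp only [LinearMap.sub_apply, LinearMap.smul_apply, Module.End.one_apply]
      have : ρ g₀ (ρ h v) = tr hQ h • c • v + (c + d) • ρ h v +
          (tr hQ (g₀ * h) - (c + d) * tr hQ h) • v - c • ρ h v :=
        eq_sub_of_add_eq key
      rw [this]
      module
    rw [e]
    exact Submodule.smul_mem _ _ (Submodule.mem_span_singleton_self v)
  rw [horbit v hv] at hU
  rintro _ ⟨w, rfl⟩
  exact hU (Submodule.mem_top (x := w))

variable [FiniteDimensional F W]

/-- A simple split-quadratic representation containing a non-scalar operator has dimension 2. -/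
theorem finrank_eq_two_of_simple [Nontrivial W] (hQ : SplitQuad ρ ω)
    (hsimple : ∀ U : Submodule F W, (∀ g, ∀ v ∈ U, ρ g v ∈ U) → U = ⊥ ∨ U = ⊤)
    (g₀ : Γ) (hg₀ : ¬ IsScalarEnd (ρ g₀)) : finrank F W = 2 := by
  -- orbits span
  have horbit : ∀ v : W, v ≠ 0 → Submodule.span F (Set.range fun h : Γ => ρ h v) = ⊤ := by
    intro v hv
    refine (hsimple _ ?_).resolve_left ?_
    · intro g w hw
      refine Submodule.span_induction (p := fun w _ => ρ g w ∈
        Submodule.span F (Set.range fun h : Γ => ρ h v)) ?_ ?_ ?_ ?_ hw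
      · rintro _ ⟨h, rfl⟩
        refine Submodule.subset_span ⟨g * h, ?_⟩
        simp only [map_mul, Module.End.mul_apply]
      · simp
      · intro x y _ _ hx hy
        rw [map_add]; exact Submodule.add_mem _ hx hy
      · intro a x _ hx
        rw [map_smul]; exact Submodule.smul_mem _ _ hx
    · intro hbot
      have : v ∈ Submodule.span F (Set.range fun h : Γ => ρ h v) :=
        Submodule.subset_span ⟨1, by simp⟩
      rw [hbot] at this
      exact hv ((Submodule.mem_bot F).mp this)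
  obtain ⟨a, b, hab, hq⟩ := hQ g₀
  have hq' : (ρ g₀ - b • (1 : Module.End F W)) * (ρ g₀ - a • (1 : Module.End F W)) = 0 := by
    rw [quad_expand] at hq ⊢
    rw [add_comm b a, mul_comm b a]; exact hq
  have htr : tr hQ g₀ = a + b := tr_eq_of_not_scalar hQ g₀ hg₀ hq
  have htr' : tr hQ g₀ = b + a := by rw [htr, add_comm]
  -- X - b ≠ 0, X - a ≠ 0
  have hb0 : ρ g₀ - b • (1 : Module.End F W) ≠ 0 := fun h => hg₀ ⟨b, sub_eq_zero.mp h⟩
  have ha0 : ρ g₀ - a • (1 : Module.End F W) ≠ 0 := fun h => hg₀ ⟨a, sub_eq_zero.mp h⟩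
  -- v := (X - b) w₀ ≠ 0 is an a-eigenvector
  obtain ⟨w₀, hw₀⟩ : ∃ w, (ρ g₀ - b • (1 : Module.End F W)) w ≠ 0 := by
    by_contra hcon
    push Not at hcon
    exact hb0 (LinearMap.ext hcon)
  set v := (ρ g₀ - b • (1 : Module.End F W)) w₀ with hvdef
  have hva : ρ g₀ v = a • v := by
    have := congrArg (fun f : Module.End F W => f w₀) hq
    simp only [Module.End.mul_apply, LinearMap.zero_apply] at this
    have h2 : (ρ g₀ - a • (1 : Module.End F W)) v = 0 := this
    simp only [LinearMap.sub_apply, LinearMap.smul_apply, Module.End.one_apply] at h2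
    exact sub_eq_zero.mp h2
  obtain ⟨w₁, hw₁⟩ : ∃ w, (ρ g₀ - a • (1 : Module.End F W)) w ≠ 0 := by
    by_contra hcon
    push Not at hcon
    exact ha0 (LinearMap.ext hcon)
  set v' := (ρ g₀ - a • (1 : Module.End F W)) w₁ with hv'def
  have hv'b : ρ g₀ v' = b • v' := by
    have := congrArg (fun f : Module.End F W => f w₁) hq'
    simp only [Module.End.mul_apply, LinearMap.zero_apply] at this
    have h2 : (ρ g₀ - b • (1 : Module.End F W)) v' = 0 := this
    simp only [LinearMap.sub_apply, LinearMap.smul_apply, Module.End.one_apply] at h2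
    exact sub_eq_zero.mp h2
  -- range (X - b) = span {v}
  have hr1 : LinearMap.range (ρ g₀ - b • (1 : Module.End F W)) = Submodule.span F {v} := by
    apply le_antisymm (range_le_span hQ horbit g₀ htr hw₀ hva)
    rw [Submodule.span_singleton_le_iff_mem]
    exact ⟨w₀, rfl⟩
  -- ker (X - b) = span {v'}
  have hk1 : LinearMap.ker (ρ g₀ - b • (1 : Module.End F W)) = Submodule.span F {v'} := by
    apply le_antisymm
    · intro u hu
      by_cases hu0 : u = 0
      · rw [hu0]; exact Submodule.zero_mem _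
      have hub : ρ g₀ u = b • u := by
        have h2 : (ρ g₀ - b • (1 : Module.End F W)) u = 0 := hu
        simp only [LinearMap.sub_apply, LinearMap.smul_apply, Module.End.one_apply] at h2
        exact sub_eq_zero.mp h2
      have hle := range_le_span hQ horbit g₀ htr' hu0 hub
      have hv'mem : v' ∈ Submodule.span F {u} := hle ⟨w₁, rfl⟩
      obtain ⟨s, hs⟩ := Submodule.mem_span_singleton.mp hv'mem
      have hs0 : s ≠ 0 := by
        rintro rfl
        rw [zero_smul] at hs
        exact hw₁ hs.symm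
      rw [Submodule.mem_span_singleton]
      refine ⟨s⁻¹, ?_⟩
      rw [← hs, smul_smul, inv_mul_cancel₀ hs0, one_smul]
    · rw [Submodule.span_singleton_le_iff_mem]
      show (ρ g₀ - b • (1 : Module.End F W)) v' = 0
      simp only [LinearMap.sub_apply, LinearMap.smul_apply, Module.End.one_apply, hv'b, sub_self]
  have hrn := LinearMap.finrank_range_add_finrank_ker (ρ g₀ - b • (1 : Module.End F W))
  rw [hr1, hk1, finrank_span_singleton hw₀, finrank_span_singleton hw₁] at hrn
  exact hrn.symm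

end Fermat.Agent.S29Core
end MergeWrap_S29_CoreSimple

section MergeWrap_S29_CoreAbstract -- from S29/CoreAbstract.lean

set_option autoImplicit false

/-!
# S29 core, part 3: the abstract two-dimensional representation

`exists_two_dim_rep`: let `ρ : Γ →* End_F(W)` be a nonzero finite-dimensional representation,
`ω : Γ →* Fˣ` a character and `P ⊆ Γ × F` a set of "Frobenius pairs" `(σ, a)` such that `ρ σ` is
killed by a split quadratic `(X - c)(X - d)`, `c + d = a`, `c d = ω σ`.  If every `g` is, on `W` and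
for `ω`, a power of some Frobenius pair, there is a 2-dimensional representation `ρV` with
`charpoly (ρV σ) = X² - a X + ω σ` for all `(σ, a) ∈ P`, trivial where `ρ` and `ω` are.
-/

namespace Fermat.Agent.S29Core

open Polynomial Module

section Restrict

variable {Γ : Type*} [Group Γ] {F : Type*} [Field F] {W : Type*} [AddCommGroup W] [Module F W]

/-- `U` is stable under `ρ`. -/
def IsInvariant (ρ : Γ →* Module.End F W) (U : Submodule F W) : Prop :=
  ∀ g, ∀ v ∈ U, ρ g v ∈ U

/-- The restriction of a representation to an invariant subspace. -/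
def restrictRep (ρ : Γ →* Module.End F W) (U : Submodule F W) (hU : IsInvariant ρ U) :
    Γ →* Module.End F U where
  toFun g := (ρ g).restrict (hU g)
  map_one' := by
    ext v
    simp
  map_mul' g h := by
    ext v
    simp [map_mul]

@[simp] theorem coe_restrictRep_apply (ρ : Γ →* Module.End F W) (U : Submodule F W)
    (hU : IsInvariant ρ U) (g : Γ) (v : U) :
    ((restrictRep ρ U hU g v : U) : W) = ρ g (v : W) := rfl

theorem splitQuad_restrict {ρ : Γ →* Module.End F W} {ω : Γ →* Fˣ} (hQ : SplitQuad ρ ω)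
    (U : Submodule F W) (hU : IsInvariant ρ U) : SplitQuad (restrictRep ρ U hU) ω := by
  intro g
  obtain ⟨a, b, hab, h⟩ := hQ g
  refine ⟨a, b, hab, ?_⟩
  ext v
  have := congrArg (fun f : Module.End F W => f (v : W)) h
  simpa using this

theorem exists_minimal_invariant [FiniteDimensional F W] [Nontrivial W]
    (ρ : Γ →* Module.End F W) :
    ∃ U : Submodule F W, U ≠ ⊥ ∧ IsInvariant ρ U ∧
      ∀ U' : Submodule F W, U' ≤ U → IsInvariant ρ U' → U' = ⊥ ∨ U' = U := by
  have hwf : WellFounded ((· < ·) : Submodule F W → Submodule F W → Prop) := wellFounded_lt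
  obtain ⟨U, ⟨hU0, hUinv⟩, hmin⟩ := hwf.has_min {U : Submodule F W | U ≠ ⊥ ∧ IsInvariant ρ U}
    ⟨⊤, top_ne_bot, fun _ _ _ => Submodule.mem_top⟩
  refine ⟨U, hU0, hUinv, fun U' hle hinv => ?_⟩
  by_cases h0 : U' = ⊥
  · exact Or.inl h0
  · right
    have := hmin U' ⟨h0, hinv⟩
    exact (eq_or_lt_of_le hle).resolve_right this

theorem simple_restrict {ρ : Γ →* Module.End F W} (U : Submodule F W) (hU : IsInvariant ρ U)
    (hmin : ∀ U' : Submodule F W, U' ≤ U → IsInvariant ρ U' → U' = ⊥ ∨ U' = U)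
    (U'' : Submodule F U) (h'' : ∀ g, ∀ v ∈ U'', restrictRep ρ U hU g v ∈ U'') :
    U'' = ⊥ ∨ U'' = ⊤ := by
  have hle : U''.map U.subtype ≤ U := Submodule.map_subtype_le U U''
  have hinv : IsInvariant ρ (U''.map U.subtype) := by
    rintro g _ ⟨v, hv, rfl⟩
    exact ⟨restrictRep ρ U hU g v, h'' g v hv, rfl⟩
  rcases hmin _ hle hinv with h | h
  · left
    rw [eq_bot_iff]
    intro v hv
    have hv' : (v : W) ∈ U''.map U.subtype := ⟨v, hv, rfl⟩
    rw [h] at hv'
    exact (Submodule.mem_bot F).mpr (Subtype.ext ((Submodule.mem_bot F).mp hv'))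
  · right
    rw [eq_top_iff]
    intro v _
    have hv : (v : W) ∈ U''.map U.subtype := by rw [h]; exact v.2
    obtain ⟨w, hw, hwv⟩ := hv
    have : w = v := Subtype.ext hwv
    rwa [← this]

end Restrict

section Diag

variable {Γ : Type*} [Group Γ] {F : Type*} [Field F]

/-- The representation `χ₁ ⊕ χ₂` on `F × F`. -/
def diagRep (χ₁ χ₂ : Γ →* F) : Γ →* Module.End F (F × F) where
  toFun g := LinearMap.prodMap (χ₁ g • (1 : Module.End F F)) (χ₂ g • (1 : Module.End F F))
  map_one' := by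
    ext <;> simp
  map_mul' g h := by
    have e1 : χ₁ (g * h) • (1 : Module.End F F) =
        (χ₁ g • (1 : Module.End F F)) * (χ₁ h • (1 : Module.End F F)) := by
      rw [smul_mul_smul_comm, one_mul, map_mul]
    have e2 : χ₂ (g * h) • (1 : Module.End F F) =
        (χ₂ g • (1 : Module.End F F)) * (χ₂ h • (1 : Module.End F F)) := by
      rw [smul_mul_smul_comm, one_mul, map_mul]
    rw [e1, e2]
    exact (LinearMap.prodMap_mul _ _ _ _).symm

theorem diagRep_apply (χ₁ χ₂ : Γ →* F) (g : Γ) :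
    diagRep χ₁ χ₂ g =
      LinearMap.prodMap (χ₁ g • (1 : Module.End F F)) (χ₂ g • (1 : Module.End F F)) := rfl

theorem charpoly_diagRep (χ₁ χ₂ : Γ →* F) (g : Γ) :
    LinearMap.charpoly (diagRep χ₁ χ₂ g) = (X - C (χ₁ g)) * (X - C (χ₂ g)) := by
  rw [diagRep_apply, LinearMap.charpoly_prodMap, charpoly_smul_one, charpoly_smul_one,
    Module.finrank_self, pow_one, pow_one]

theorem diagRep_eq_one (χ₁ χ₂ : Γ →* F) (g : Γ) (h1 : χ₁ g = 1) (h2 : χ₂ g = 1) :
    diagRep χ₁ χ₂ g = 1 := by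
  rw [diagRep_apply, h1, h2]
  ext <;> simp

end Diag

section Main

variable {Γ : Type*} [Group Γ] {F : Type} [Field F] {W : Type} [AddCommGroup W] [Module F W]

theorem splitQuad_of_dense (ρ : Γ →* Module.End F W) (ω : Γ →* Fˣ) (P : Set (Γ × F))
    (hP : ∀ σ a, (σ, a) ∈ P → ∃ c d : F, c + d = a ∧ c * d = (ω σ : F) ∧
      (ρ σ - c • (1 : Module.End F W)) * (ρ σ - d • (1 : Module.End F W)) = 0)
    (hdense : ∀ g : Γ, ∃ σ a, (σ, a) ∈ P ∧ ∃ m : ℕ, ρ g = ρ σ ^ m ∧ ω g = ω σ ^ m) :
    SplitQuad ρ ω := by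
  intro g
  obtain ⟨σ, a, hσ, m, hρ, hω⟩ := hdense g
  obtain ⟨c, d, -, hcd, hq⟩ := hP σ a hσ
  refine ⟨c ^ m, d ^ m, ?_, ?_⟩
  · rw [hω, Units.val_pow_eq_pow_val, ← hcd, mul_pow]
  · rw [hρ]
    exact pow_quad_zero (ρ σ) c d hq m

variable [FiniteDimensional F W] [Nontrivial W]

/-- **The abstract core.** -/
theorem exists_two_dim_rep (ρ : Γ →* Module.End F W) (ω : Γ →* Fˣ) (P : Set (Γ × F))
    (hP : ∀ σ a, (σ, a) ∈ P → ∃ c d : F, c + d = a ∧ c * d = (ω σ : F) ∧
      (ρ σ - c • (1 : Module.End F W)) * (ρ σ - d • (1 : Module.End F W)) = 0)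
    (hdense : ∀ g : Γ, ∃ σ a, (σ, a) ∈ P ∧ ∃ m : ℕ, ρ g = ρ σ ^ m ∧ ω g = ω σ ^ m) :
    ∃ (V : Type) (_ : AddCommGroup V) (_ : Module F V) (_ : Module.Finite F V)
      (ρV : Γ →* Module.End F V),
      Module.finrank F V = 2 ∧ (∀ g, ρ g = 1 → ω g = 1 → ρV g = 1) ∧
      ∀ σ a, (σ, a) ∈ P → LinearMap.charpoly (ρV σ) = X ^ 2 - C a * X + C (ω σ : F) := by
  classical
  have hQ : SplitQuad ρ ω := splitQuad_of_dense ρ ω P hP hdense
  obtain ⟨U, hU0, hUinv, hmin⟩ := exists_minimal_invariant ρ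
  set ρ₁ := restrictRep ρ U hUinv with hρ₁
  have hQ₁ : SplitQuad ρ₁ ω := splitQuad_restrict hQ U hUinv
  have hsimple := simple_restrict U hUinv hmin
  have : Nontrivial U := Submodule.nontrivial_iff_ne_bot.mpr hU0
  -- restriction of the quadratic relation of a Frobenius pair
  have hP₁ : ∀ σ a, (σ, a) ∈ P → ∃ c d : F, c + d = a ∧ c * d = (ω σ : F) ∧
      (ρ₁ σ - c • (1 : Module.End F U)) * (ρ₁ σ - d • (1 : Module.End F U)) = 0 := by
    intro σ a hσ
    obtain ⟨c, d, h1, h2, h3⟩ := hP σ a hσ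
    refine ⟨c, d, h1, h2, ?_⟩
    ext v
    have := congrArg (fun f : Module.End F W => f (v : W)) h3
    simpa [hρ₁] using this
  have hker₁ : ∀ g, ρ g = 1 → ρ₁ g = 1 := by
    intro g hg
    ext v
    simp [hρ₁, hg]
  by_cases hsc : ∀ g, IsScalarEnd (ρ₁ g)
  · -- Case A: everything is scalar on `U`; use `χ ⊕ ω χ⁻¹`.
    choose χ hχ using hsc
    have hχmul : ∀ g h, χ (g * h) = χ g * χ h := by
      intro g h
      apply smul_one_injective (V := U)
      rw [← hχ (g * h), map_mul, hχ g, hχ h, smul_mul_smul_comm, one_mul]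
    have hχone : χ 1 = 1 := by
      apply smul_one_injective (V := U)
      rw [← hχ 1, map_one, one_smul]
    have hχne : ∀ g, χ g ≠ 0 := by
      intro g h0
      have := hχmul g g⁻¹
      rw [mul_inv_cancel, hχone, h0, zero_mul] at this
      exact one_ne_zero this
    let χ₁ : Γ →* F := { toFun := χ, map_one' := hχone, map_mul' := hχmul }
    let χ₂ : Γ →* F :=
      { toFun := fun g => (ω g : F) * (χ g)⁻¹
        map_one' := by simp [hχone]
        map_mul' := fun g h => by
          rw [hχmul, map_mul, Units.val_mul, mul_inv]; ring }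
    refine ⟨F × F, inferInstance, inferInstance, inferInstance, diagRep χ₁ χ₂, ?_, ?_, ?_⟩
    · rw [Module.finrank_prod, Module.finrank_self]
    · intro g hg hω
      have h1 : χ g = 1 := by
        apply smul_one_injective (V := U)
        rw [← hχ g, hker₁ g hg, one_smul]
      apply diagRep_eq_one
      · exact h1
      · show (ω g : F) * (χ g)⁻¹ = 1
        rw [h1, hω]; simp
    · intro σ a hσ
      obtain ⟨c, d, hcd, hprod, hq⟩ := hP₁ σ a hσ
      have hr : (χ σ - c) * (χ σ - d) = 0 := by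
        rw [hχ σ, smul_one_quad] at hq
        have := smul_one_injective (V := U) (c := (χ σ - c) * (χ σ - d)) (c' := 0)
          (by rw [hq, zero_smul])
        exact this
      have hcharp : LinearMap.charpoly (diagRep χ₁ χ₂ σ) =
          (X - C (χ σ)) * (X - C ((ω σ : F) * (χ σ)⁻¹)) := charpoly_diagRep χ₁ χ₂ σ
      rw [hcharp, poly_identity]
      have hc0 : c ≠ 0 := by
        rintro rfl
        rw [zero_mul] at hprod
        exact (ω σ).ne_zero hprod.symm
      have hd0 : d ≠ 0 := by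
        rintro rfl
        rw [mul_zero] at hprod
        exact (ω σ).ne_zero hprod.symm
      rcases mul_eq_zero.mp hr with h | h
      · have hχc : χ σ = c := sub_eq_zero.mp h
        have e2 : (ω σ : F) * (χ σ)⁻¹ = d := by
          rw [hχc, ← hprod, mul_comm c d, mul_assoc, mul_inv_cancel₀ hc0, mul_one]
        rw [e2, hχc, hcd, hprod]
      · have hχd : χ σ = d := sub_eq_zero.mp h
        have e2 : (ω σ : F) * (χ σ)⁻¹ = c := by
          rw [hχd, ← hprod, mul_assoc, mul_inv_cancel₀ hd0, mul_one]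
        rw [e2, hχd, add_comm d c, mul_comm d c, hcd, hprod]
  · -- Case B: some operator is not scalar on `U`; then `dim U = 2`.
    push Not at hsc
    obtain ⟨g₀, hg₀⟩ := hsc
    have hfin : finrank F U = 2 := finrank_eq_two_of_simple hQ₁ hsimple g₀ hg₀
    refine ⟨U, inferInstance, inferInstance, inferInstance, ρ₁, hfin, fun g hg _ => hker₁ g hg, ?_⟩
    intro σ a hσ
    obtain ⟨c, d, hcd, hprod, hq⟩ := hP₁ σ a hσ
    by_cases hσsc : IsScalarEnd (ρ₁ σ)
    · obtain ⟨r, hr⟩ := hσsc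
      -- r² = ω σ via the non-scalar element σ g₀
      have hr0 : r ≠ 0 := by
        rintro rfl
        rw [zero_smul] at hr
        have h1 := rho_mul_inv ρ₁ σ
        rw [hr, zero_mul] at h1
        exact zero_ne_one h1
      obtain ⟨a₀, b₀, hab₀, hq₀⟩ := hQ₁ g₀
      obtain ⟨a₁, b₁, hab₁, hq₁⟩ := hQ₁ (σ * g₀)
      have hns : ¬ IsScalarEnd (ρ₁ (σ * g₀)) := by
        rintro ⟨s, hs⟩
        apply hg₀
        refine ⟨r⁻¹ * s, ?_⟩
        rw [map_mul, hr, smul_mul_assoc, one_mul] at hs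
        rw [mul_smul, ← hs, smul_smul, inv_mul_cancel₀ hr0, one_smul]
      have hq₂ : (ρ₁ (σ * g₀) - (r * a₀) • (1 : Module.End F U)) *
          (ρ₁ (σ * g₀) - (r * b₀) • (1 : Module.End F U)) = 0 := by
        rw [map_mul, hr, smul_mul_assoc, one_mul, smul_quad, hq₀, smul_zero]
      have hprod2 := (sum_prod_eq_of_not_scalar _ hns hq₁ hq₂).2
      have hrr : r * r = (ω σ : F) := by
        have h1 : (ω (σ * g₀) : F) = (ω σ : F) * (ω g₀ : F) := by
          rw [map_mul, Units.val_mul]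
        have h2 : (ω σ : F) * (ω g₀ : F) = r * r * (ω g₀ : F) := by
          rw [← h1, ← hab₁, hprod2, ← hab₀]; ring
        exact (mul_right_cancel₀ (ω g₀).ne_zero h2).symm
      have hrcd : (r - c) * (r - d) = 0 := by
        rw [hr, smul_one_quad] at hq
        exact smul_one_injective (V := U) (c := (r - c) * (r - d)) (c' := 0)
          (by rw [hq, zero_smul])
      have hc0 : c ≠ 0 := by
        rintro rfl
        rw [zero_mul] at hprod
        exact (ω σ).ne_zero hprod.symm
      have hd0 : d ≠ 0 := by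
        rintro rfl
        rw [mul_zero] at hprod
        exact (ω σ).ne_zero hprod.symm
      have hcd_eq : c = r ∧ d = r := by
        rcases mul_eq_zero.mp hrcd with h | h
        · have hrc : r = c := sub_eq_zero.mp h
          refine ⟨hrc.symm, ?_⟩
          have : c * c = c * d := by rw [← hrc, hrr, ← hprod, ← hrc]
          rw [hrc]; exact (mul_left_cancel₀ hc0 this).symm
        · have hrd : r = d := sub_eq_zero.mp h
          refine ⟨?_, hrd.symm⟩
          have : d * d = c * d := by rw [← hrd, hrr, ← hprod, ← hrd]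
          rw [hrd]; exact (mul_right_cancel₀ hd0 this).symm
      rw [hr, charpoly_smul_one_of_finrank_two hfin, ← hcd, ← hprod, hcd_eq.1, hcd_eq.2,
        poly_identity]
    · rw [charpoly_eq_of_not_scalar hfin (ρ₁ σ) hσsc hq, poly_identity, hcd, hprod]

end Main

end Fermat.Agent.S29Core
end MergeWrap_S29_CoreAbstract

section MergeWrap_S29_AsmLevel -- from S29/AsmLevel.lean

/-!
# S29 assembly, part 1: the base-changed Galois representation and finite level

`Y` is a `ℤ`-module with an action of `G_ℚ` by linear maps (`gal`), such that every element has an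
open stabiliser.  We study the representation `rhoM gal : G_ℚ →* End_k (k ⊗ Y)`.
-/

set_option autoImplicit false
set_option linter.style.haveILetI false
set_option linter.unusedSectionVars false

noncomputable section

namespace Fermat.Agent.S29Asm

open Fermat.Agent.F3 (GQ)
open scoped TensorProduct

local notation "Qb" => AlgebraicClosure ℚ

theorem normal_Qb : Normal ℚ Qb := by
  haveI : Algebra.IsAlgebraic ℚ Qb := AlgebraicClosure.isAlgebraic ℚ
  haveI : IsAlgClosure ℚ Qb := ⟨inferInstance, inferInstance⟩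
  infer_instance

/-- `σ` fixes the intermediate field `L` pointwise. -/
def Fixes (L : IntermediateField ℚ Qb) (σ : GQ) : Prop := ∀ a ∈ L, σ a = a

lemma Fixes.mono {L L' : IntermediateField ℚ Qb} (h : L ≤ L') {σ : GQ} (hσ : Fixes L' σ) :
    Fixes L σ := fun a ha => hσ a (h ha)

lemma Fixes.one (L : IntermediateField ℚ Qb) : Fixes L 1 := fun _ _ => rfl

lemma Fixes.mul {L : IntermediateField ℚ Qb} {σ τ : GQ} (hσ : Fixes L σ) (hτ : Fixes L τ) :
    Fixes L (σ * τ) := fun a ha => by
  rw [AlgEquiv.mul_apply, hτ a ha, hσ a ha]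

lemma Fixes.inv {L : IntermediateField ℚ Qb} {σ : GQ} (hσ : Fixes L σ) : Fixes L σ⁻¹ :=
  fun a ha => by
    have h := hσ a ha
    calc σ⁻¹ a = σ⁻¹ (σ a) := by rw [h]
      _ = a := by rw [← AlgEquiv.mul_apply, inv_mul_cancel, AlgEquiv.one_apply]

/-- For a normal `L`, every `τ` maps `L` into itself. -/
lemma apply_mem_of_normal' (L : IntermediateField ℚ Qb) [Normal ℚ L] (τ : GQ) {a : Qb}
    (ha : a ∈ L) : τ a ∈ L := by
  have h := AlgEquiv.restrictNormal_commutes τ L ⟨a, ha⟩
  have h' : τ a = ((τ.restrictNormal L ⟨a, ha⟩ : L) : Qb) := h.symm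
  rw [h']
  exact (τ.restrictNormal L ⟨a, ha⟩).2

/-- For a normal `L`, the elements fixing `L` form a normal subgroup. -/
lemma Fixes.conj {L : IntermediateField ℚ Qb} [Normal ℚ L] {σ : GQ} (hσ : Fixes L σ) (τ : GQ) :
    Fixes L (τ⁻¹ * σ * τ) := fun a ha => by
  have h1 : τ a ∈ L := apply_mem_of_normal' L τ ha
  rw [AlgEquiv.mul_apply, AlgEquiv.mul_apply, hσ _ h1, ← AlgEquiv.mul_apply, inv_mul_cancel,
    AlgEquiv.one_apply]

/-- If `σ` and `τ` agree on `L`, then `τ⁻¹ σ` fixes `L`. -/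
lemma fixes_inv_mul_of_agree {L : IntermediateField ℚ Qb} {σ τ : GQ}
    (h : ∀ a ∈ L, σ a = τ a) : Fixes L (τ⁻¹ * σ) := fun a ha => by
  rw [AlgEquiv.mul_apply, h a ha, ← AlgEquiv.mul_apply, inv_mul_cancel, AlgEquiv.one_apply]

section Rep

variable {Y : Type} [AddCommGroup Y] (gal : GQ →* Module.End ℤ Y)
variable (k : Type) [Field k]

/-- The base-changed representation on `k ⊗ Y`. -/
def rhoM : GQ →* Module.End k (k ⊗[ℤ] Y) where
  toFun σ := (gal σ).baseChange k
  map_one' := by rw [map_one, LinearMap.baseChange_one]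
  map_mul' σ τ := by rw [map_mul, LinearMap.baseChange_mul]

@[simp] lemma rhoM_apply (σ : GQ) : rhoM gal k σ = (gal σ).baseChange k := rfl

lemma rhoM_tmul (σ : GQ) (c : k) (y : Y) : rhoM gal k σ (c ⊗ₜ[ℤ] y) = c ⊗ₜ[ℤ] gal σ y := by
  rw [rhoM_apply, LinearMap.baseChange_tmul]

/-- `Y` has open stabilisers. -/
def OpenStab : Prop :=
  ∀ y : Y, ∃ L : IntermediateField ℚ Qb, FiniteDimensional ℚ L ∧
    ∀ σ : GQ, Fixes L σ → gal σ y = y

variable {gal}

/-- Every element of `k ⊗ Y` has an open stabiliser. -/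
lemma exists_level_fix (hopen : OpenStab gal) (x : k ⊗[ℤ] Y) :
    ∃ L : IntermediateField ℚ Qb, FiniteDimensional ℚ L ∧
      ∀ σ : GQ, Fixes L σ → rhoM gal k σ x = x := by
  induction x using TensorProduct.induction_on with
  | zero => exact ⟨⊥, inferInstance, fun σ _ => map_zero _⟩
  | tmul c y =>
    obtain ⟨L, hL, h⟩ := hopen y
    exact ⟨L, hL, fun σ hσ => by rw [rhoM_tmul, h σ hσ]⟩
  | add x₁ x₂ h₁ h₂ =>
    obtain ⟨L₁, hL₁, h₁⟩ := h₁
    obtain ⟨L₂, hL₂, h₂⟩ := h₂
    refine ⟨L₁ ⊔ L₂, IntermediateField.finiteDimensional_sup L₁ L₂, fun σ hσ => ?_⟩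
    rw [map_add, h₁ σ (hσ.mono le_sup_left), h₂ σ (hσ.mono le_sup_right)]

/-- Every element of `k ⊗ Y` is fixed by the elements fixing a suitable finite *normal*
extension containing a given finite extension `L₀`. -/
lemma exists_normal_level_fix (hopen : OpenStab gal) (x : k ⊗[ℤ] Y)
    (L₀ : IntermediateField ℚ Qb) (hL₀ : FiniteDimensional ℚ L₀) :
    ∃ L : IntermediateField ℚ Qb, FiniteDimensional ℚ L ∧ Normal ℚ L ∧ L₀ ≤ L ∧
      ∀ σ : GQ, Fixes L σ → rhoM gal k σ x = x := by
  obtain ⟨L₁, hL₁, h₁⟩ := exists_level_fix k hopen x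
  haveI : FiniteDimensional ℚ (L₁ ⊔ L₀ : IntermediateField ℚ Qb) :=
    IntermediateField.finiteDimensional_sup L₁ L₀
  haveI hNQ : Normal ℚ Qb := normal_Qb
  have hfd : FiniteDimensional ℚ
      (IntermediateField.normalClosure ℚ (L₁ ⊔ L₀ : IntermediateField ℚ Qb) Qb) := by
    infer_instance
  have hnor : Normal ℚ
      (IntermediateField.normalClosure ℚ (L₁ ⊔ L₀ : IntermediateField ℚ Qb) Qb) :=
    normalClosure.normal ℚ (L₁ ⊔ L₀ : IntermediateField ℚ Qb) Qb
  refine ⟨IntermediateField.normalClosure ℚ (L₁ ⊔ L₀ : IntermediateField ℚ Qb) Qb,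
    hfd, hnor, ?_, fun σ hσ => ?_⟩
  · exact le_sup_right.trans (IntermediateField.le_normalClosure _)
  · exact h₁ σ (hσ.mono (le_sup_left.trans (IntermediateField.le_normalClosure _)))

/-- The orbit of an element with open stabiliser is finite. -/
lemma finite_orbit (x : k ⊗[ℤ] Y) (L : IntermediateField ℚ Qb) [FiniteDimensional ℚ L]
    (h : ∀ σ : GQ, Fixes L σ → rhoM gal k σ x = x) :
    (Set.range fun σ : GQ => rhoM gal k σ x).Finite := by
  classical
  let r : GQ → (L →ₐ[ℚ] Qb) := fun σ => (σ : Qb →ₐ[ℚ] Qb).comp L.val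
  have hfac : ∀ σ τ : GQ, r σ = r τ → rhoM gal k σ x = rhoM gal k τ x := by
    intro σ τ hστ
    have hagree : ∀ a ∈ L, σ a = τ a := by
      intro a ha
      exact congrArg (fun f : L →ₐ[ℚ] Qb => f ⟨a, ha⟩) hστ
    have h1 := h _ (fixes_inv_mul_of_agree hagree)
    have h2 : rhoM gal k σ x = rhoM gal k τ (rhoM gal k (τ⁻¹ * σ) x) := by
      rw [← Module.End.mul_apply, ← map_mul, mul_inv_cancel_left]
    rw [h2, h1]
  let g : (L →ₐ[ℚ] Qb) → k ⊗[ℤ] Y := fun φ =>
    if hφ : ∃ σ, r σ = φ then rhoM gal k hφ.choose x else 0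
  have hsub : (Set.range fun σ : GQ => rhoM gal k σ x) ⊆ Set.range g := by
    rintro _ ⟨σ, rfl⟩
    refine ⟨r σ, ?_⟩
    have hex : ∃ τ, r τ = r σ := ⟨σ, rfl⟩
    simp only [g, dif_pos hex]
    exact hfac _ _ hex.choose_spec
  exact (Set.finite_range g).subset hsub

end Rep

end Fermat.Agent.S29Asm
end
end MergeWrap_S29_AsmLevel

section MergeWrap_S29_AsmCore -- from S29/AsmCore.lean

/-!
# S29 assembly, part 2: the abstract assembly

From a `ℤ`-module `Y` with a Galois action `gal` and operators `T ℓ` satisfying the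
Eichler--Shimura relation, a nonzero eigenclass `x ∈ k ⊗ Y`, a character `ω` with the
properties of the mod `p` cyclotomic character, and `FrobDensityLite`, we construct a
`ResidualGaloisRep k` with the expected characteristic polynomials of Frobenius.
-/

set_option autoImplicit false
set_option linter.style.haveILetI false
set_option linter.unusedSectionVars false

noncomputable section

namespace Fermat.Agent.S29Asm

open Fermat.Agent.F3 (GQ FrobDensityLite)
open Fermat.Agent.S29Core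
open scoped TensorProduct
open Polynomial

local notation "Qb" => AlgebraicClosure ℚ

section Core

variable {Y : Type} [AddCommGroup Y] (gal : GQ →* Module.End ℤ Y)
  (T : Nat.Primes → Module.End ℤ Y)
variable {k : Type} [Field k] (N p : ℕ)

/-- The abstract hypotheses of the S29 assembly. -/
structure Inputs (ω : GQ →* kˣ) (x : k ⊗[ℤ] Y) (a : Nat.Primes → k) : Prop where
  dense : FrobDensityLite
  openStab : OpenStab gal
  comm : ∀ (ℓ : Nat.Primes) (σ : GQ), T ℓ * gal σ = gal σ * T ℓ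
  unram : ∀ ℓ : ℕ, ℓ.Prime → ¬ ℓ ∣ N * p → ∀ A : ValuationSubring Qb, A.LiesOverPrime ℓ →
    ∀ σ ∈ A.inertiaSubgroupIn ℚ, gal σ = 1
  quad : ∀ (ℓ : ℕ) (hℓ : ℓ.Prime), ¬ ℓ ∣ N * p → ∀ A : ValuationSubring Qb,
    A.LiesOverPrime ℓ → ∀ σ : GQ, A.IsFrobeniusAt σ ℓ →
      gal σ * gal σ - T ⟨ℓ, hℓ⟩ * gal σ + (ℓ : ℤ) • (1 : Module.End ℤ Y) = 0
  x_ne : x ≠ 0
  eigen : ∀ ℓ : Nat.Primes, ¬ (ℓ : ℕ) ∣ N * p → (T ℓ).baseChange k x = a ℓ • x
  split : ∀ ℓ : Nat.Primes, ¬ (ℓ : ℕ) ∣ N * p → ∃ c d : k, c + d = a ℓ ∧ c * d = ((ℓ : ℕ) : k)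
  ω_frob : ∀ ℓ : ℕ, ℓ.Prime → ¬ ℓ ∣ N * p → ∀ A : ValuationSubring Qb, A.LiesOverPrime ℓ →
    ∀ σ : GQ, A.IsFrobeniusAt σ ℓ → ((ω σ : kˣ) : k) = (ℓ : k)
  ω_inertia : ∀ ℓ : ℕ, ℓ.Prime → ¬ ℓ ∣ N * p → ∀ A : ValuationSubring Qb, A.LiesOverPrime ℓ →
    ∀ σ ∈ A.inertiaSubgroupIn ℚ, ω σ = 1
  ω_level : ∃ L : IntermediateField ℚ Qb, FiniteDimensional ℚ L ∧ ∀ σ : GQ, Fixes L σ → ω σ = 1
  Np_ne : N * p ≠ 0

variable {gal T N p}

/-- The span of the orbit of `x`. -/
def orbitSpan (gal : GQ →* Module.End ℤ Y) (x : k ⊗[ℤ] Y) : Submodule k (k ⊗[ℤ] Y) :=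
  Submodule.span k (Set.range fun σ : GQ => rhoM gal k σ x)

lemma mem_orbitSpan_self (x : k ⊗[ℤ] Y) : x ∈ orbitSpan gal x :=
  Submodule.subset_span ⟨1, by
    show rhoM gal k 1 x = x
    rw [map_one]; rfl⟩

lemma orbitSpan_invariant (x : k ⊗[ℤ] Y) : IsInvariant (rhoM gal k) (orbitSpan gal x) := by
  intro τ w hw
  induction hw using Submodule.span_induction with
  | mem w hw =>
    obtain ⟨σ, rfl⟩ := hw
    refine Submodule.subset_span ⟨τ * σ, ?_⟩
    show rhoM gal k (τ * σ) x = rhoM gal k τ (rhoM gal k σ x)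
    rw [map_mul]; rfl
  | zero => rw [map_zero]; exact Submodule.zero_mem _
  | add u v _ _ hu hv => rw [map_add]; exact Submodule.add_mem _ hu hv
  | smul c u _ hu => rw [map_smul]; exact Submodule.smul_mem _ c hu

/-- A monoid homomorphism trivial on `Fixes L` takes the same value on elements agreeing on
`L`. -/
lemma eq_of_agree {Mo : Type*} [Monoid Mo] (f : GQ →* Mo) {L : IntermediateField ℚ Qb}
    (hf : ∀ σ : GQ, Fixes L σ → f σ = 1) {σ τ : GQ} (h : ∀ a ∈ L, σ a = τ a) : f σ = f τ := by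
  have h1 := hf _ (fixes_inv_mul_of_agree h)
  have h2 : f σ = f τ * f (τ⁻¹ * σ) := by rw [← map_mul, mul_inv_cancel_left]
  rw [h2, h1, mul_one]

/-- From `FrobDensityLite`: every `g` is a power of a Frobenius, for any monoid homomorphism
factoring through `L`. -/
lemma exists_frob_pow (hF : FrobDensityLite) (hNp : N * p ≠ 0)
    (L : IntermediateField ℚ Qb) (hL : FiniteDimensional ℚ L) (hLn : Normal ℚ L) (g : GQ) :
    ∃ (ℓ : ℕ) (A : ValuationSubring Qb) (τ : GQ) (j : ℕ),
      ℓ.Prime ∧ ¬ ℓ ∣ N * p ∧ A.LiesOverPrime ℓ ∧ A.IsFrobeniusAt τ ℓ ∧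
      ∀ {Mo : Type} [Monoid Mo] (f : GQ →* Mo), (∀ σ : GQ, Fixes L σ → f σ = 1) →
        f g = f τ ^ j := by
  obtain ⟨ℓ, A, τ, m, j, hℓ, hℓS, hA, hτ, h1, h2⟩ := hF L hL hLn g (N * p).primeFactors
  refine ⟨ℓ, A, τ, j, hℓ, ?_, hA, hτ, ?_⟩
  · intro hdvd
    exact hℓS (Nat.mem_primeFactors.mpr ⟨hℓ, hdvd, hNp⟩)
  · intro Mo _ f hf
    have e1 : f τ = f (g ^ m) := eq_of_agree f hf h1
    have e2 : f (g ^ (m * j)) = f g := eq_of_agree f hf h2
    rw [← e2, e1, pow_mul, map_pow, map_pow]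

variable {ω : GQ →* kˣ} {x : k ⊗[ℤ] Y} {a : Nat.Primes → k}

/-- The eigen-property holds on the whole orbit span. -/
lemma eigen_on_orbitSpan (h : Inputs gal T N p ω x a) (ℓ : Nat.Primes)
    (hℓ : ¬ (ℓ : ℕ) ∣ N * p) {w : k ⊗[ℤ] Y} (hw : w ∈ orbitSpan gal x) :
    (T ℓ).baseChange k w = a ℓ • w := by
  induction hw using Submodule.span_induction with
  | mem w hw =>
    obtain ⟨σ, rfl⟩ := hw
    show (T ℓ).baseChange k ((gal σ).baseChange k x) = a ℓ • (gal σ).baseChange k x
    have e : (T ℓ).baseChange k ((gal σ).baseChange k x)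
        = (gal σ).baseChange k ((T ℓ).baseChange k x) := by
      rw [← Module.End.mul_apply, ← Module.End.mul_apply, ← LinearMap.baseChange_mul,
        ← LinearMap.baseChange_mul, h.comm ℓ σ]
    rw [e, h.eigen ℓ hℓ, map_smul]
  | zero => rw [map_zero, smul_zero]
  | add u v _ _ hu hv => rw [map_add, hu, hv, smul_add]
  | smul c u _ hu => rw [map_smul, hu, smul_comm]

/-- The Eichler--Shimura relation on `k ⊗ Y`. -/
lemma quad_baseChange (h : Inputs gal T N p ω x a) (ℓ : ℕ) (hℓ : ℓ.Prime) (hℓN : ¬ ℓ ∣ N * p)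
    (A : ValuationSubring Qb) (hA : A.LiesOverPrime ℓ) (σ : GQ) (hσ : A.IsFrobeniusAt σ ℓ)
    (w : k ⊗[ℤ] Y) :
    rhoM gal k σ (rhoM gal k σ w) - (T ⟨ℓ, hℓ⟩).baseChange k (rhoM gal k σ w) + (ℓ : k) • w
      = 0 := by
  have h1 := congrArg (fun f : Module.End ℤ Y => f.baseChange k) (h.quad ℓ hℓ hℓN A hA σ hσ)
  simp only [LinearMap.baseChange_add, LinearMap.baseChange_sub, LinearMap.baseChange_mul,
    LinearMap.baseChange_smul, LinearMap.baseChange_one, LinearMap.baseChange_zero] at h1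
  have h2 := congrArg (fun f : Module.End k (k ⊗[ℤ] Y) => f w) h1
  simp only [LinearMap.add_apply, LinearMap.sub_apply, Module.End.mul_apply,
    LinearMap.smul_apply, Module.End.one_apply, LinearMap.zero_apply] at h2
  rw [rhoM_apply]
  rw [← h2]
  congr 1
  rw [← Int.cast_smul_eq_zsmul k (ℓ : ℤ) w, Int.cast_natCast]

end Core

end Fermat.Agent.S29Asm
end
end MergeWrap_S29_AsmCore

section MergeWrap_S29_AsmMain -- from S29/AsmMain.lean

/-!
# S29 assembly, part 3: the abstract main theorem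
-/

set_option autoImplicit false
set_option linter.style.haveILetI false
set_option linter.unusedSectionVars false

noncomputable section

namespace Fermat.Agent.S29Asm

open Fermat.Agent.F3 (GQ FrobDensityLite)
open Fermat.Agent.S29Core
open scoped TensorProduct
open Polynomial

local notation "Qb" => AlgebraicClosure ℚ

variable {Y : Type} [AddCommGroup Y] {gal : GQ →* Module.End ℤ Y}
  {T : Nat.Primes → Module.End ℤ Y}
variable {k : Type} [Field k] {N p : ℕ}
variable {ω : GQ →* kˣ} {x : k ⊗[ℤ] Y} {a : Nat.Primes → k}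

/-- The restricted representation on the orbit span. -/
def rhoW (gal : GQ →* Module.End ℤ Y) (x : k ⊗[ℤ] Y) :
    GQ →* Module.End k (orbitSpan gal x) :=
  restrictRep (rhoM gal k) (orbitSpan gal x) (orbitSpan_invariant x)

lemma coe_rhoW_apply (σ : GQ) (w : orbitSpan gal x) :
    ((rhoW gal x σ w : orbitSpan gal x) : k ⊗[ℤ] Y) = rhoM gal k σ (w : k ⊗[ℤ] Y) := rfl

/-- `rhoW` is trivial on elements fixing a normal level of `x`. -/
lemma rhoW_eq_one_of_fixes {L : IntermediateField ℚ Qb} [Normal ℚ L]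
    (hL : ∀ σ : GQ, Fixes L σ → rhoM gal k σ x = x) {σ : GQ} (hσ : Fixes L σ) :
    rhoW gal x σ = 1 := by
  ext ⟨w, hw⟩
  show rhoM gal k σ w = w
  induction hw using Submodule.span_induction with
  | mem w hw =>
    obtain ⟨τ, rfl⟩ := hw
    show rhoM gal k σ (rhoM gal k τ x) = rhoM gal k τ x
    have e : rhoM gal k σ (rhoM gal k τ x) = rhoM gal k τ (rhoM gal k (τ⁻¹ * σ * τ) x) := by
      rw [← Module.End.mul_apply, ← Module.End.mul_apply, ← map_mul, ← map_mul]
      congr 2
      group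
    rw [e, hL _ (hσ.conj τ)]
  | zero => rw [map_zero]
  | add u v _ _ hu hv => rw [map_add, hu, hv]
  | smul c u _ hu => rw [map_smul, hu]

lemma rhoW_eq_one_of_gal_eq_one {σ : GQ} (hσ : gal σ = 1) : rhoW gal x σ = 1 := by
  ext ⟨w, hw⟩
  show rhoM gal k σ w = w
  rw [rhoM_apply, hσ, LinearMap.baseChange_one]
  rfl

/-- The split quadratic relation for Frobenius elements on the orbit span. -/
lemma rhoW_quad (h : Inputs gal T N p ω x a) (ℓ : ℕ) (hℓ : ℓ.Prime) (hℓN : ¬ ℓ ∣ N * p)
    (A : ValuationSubring Qb) (hA : A.LiesOverPrime ℓ) (σ : GQ) (hσ : A.IsFrobeniusAt σ ℓ)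
    {c d : k} (hcd : c + d = a ⟨ℓ, hℓ⟩) (hcd' : c * d = (ℓ : k)) :
    (rhoW gal x σ - c • (1 : Module.End k (orbitSpan gal x))) *
      (rhoW gal x σ - d • (1 : Module.End k (orbitSpan gal x))) = 0 := by
  ext ⟨w, hw⟩
  have h1 := quad_baseChange h ℓ hℓ hℓN A hA σ hσ w
  have hσw : rhoM gal k σ w ∈ orbitSpan gal x := orbitSpan_invariant x σ w hw
  rw [eigen_on_orbitSpan h ⟨ℓ, hℓ⟩ hℓN hσw] at h1
  simp only [Module.End.mul_apply, LinearMap.sub_apply, LinearMap.smul_apply,
    Module.End.one_apply, LinearMap.zero_apply, Submodule.coe_sub, Submodule.coe_smul,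
    coe_rhoW_apply, Submodule.coe_zero, map_sub, map_smul]
  rw [← h1, ← hcd, ← hcd']
  module

/-- **Abstract S29 assembly.** -/
theorem exists_residualRep (h : Inputs gal T N p ω x a) :
    ∃ ρ : ResidualGaloisRep k,
      (∀ (ℓ : ℕ) (hℓ : ℓ.Prime), ¬ ℓ ∣ N * p → ∀ A : ValuationSubring Qb, A.LiesOverPrime ℓ →
        ∀ σ : GQ, A.IsFrobeniusAt σ ℓ →
          LinearMap.charpoly (ρ.ρ σ) = X ^ 2 - C (a ⟨ℓ, hℓ⟩) * X + C ((ℓ : k))) ∧
      ∀ ℓ : ℕ, ℓ.Prime → ¬ ℓ ∣ N * p → ρ.IsUnramifiedAt ℓ := by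
  classical
  obtain ⟨Lω, hLω, hωL⟩ := h.ω_level
  obtain ⟨L, hLfd, hLn, hLω_le, hLfix⟩ := exists_normal_level_fix k h.openStab x Lω hLω
  haveI := hLfd
  haveI := hLn
  -- the orbit span
  haveI : FiniteDimensional k (orbitSpan gal x) :=
    FiniteDimensional.span_of_finite k (finite_orbit k x L hLfix)
  haveI : Nontrivial (orbitSpan gal x) :=
    ⟨⟨⟨x, mem_orbitSpan_self x⟩, 0, fun h0 => h.x_ne (congrArg Subtype.val h0)⟩⟩
  have hρL : ∀ σ : GQ, Fixes L σ → rhoW gal x σ = 1 := fun σ hσ =>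
    rhoW_eq_one_of_fixes hLfix hσ
  have hωL' : ∀ σ : GQ, Fixes L σ → ω σ = 1 := fun σ hσ => hωL σ (hσ.mono hLω_le)
  -- Frobenius pairs
  let P : Set (GQ × k) := {q | ∃ (ℓ : ℕ) (hℓ : ℓ.Prime), ¬ ℓ ∣ N * p ∧
    ∃ A : ValuationSubring Qb, A.LiesOverPrime ℓ ∧ A.IsFrobeniusAt q.1 ℓ ∧ q.2 = a ⟨ℓ, hℓ⟩}
  have hP : ∀ σ b, (σ, b) ∈ P → ∃ c d : k, c + d = b ∧ c * d = (ω σ : k) ∧
      (rhoW gal x σ - c • (1 : Module.End k (orbitSpan gal x))) *
        (rhoW gal x σ - d • (1 : Module.End k (orbitSpan gal x))) = 0 := by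
    rintro σ b ⟨ℓ, hℓ, hℓN, A, hA, hσ, rfl⟩
    obtain ⟨c, d, hcd, hcd'⟩ := h.split ⟨ℓ, hℓ⟩ hℓN
    refine ⟨c, d, hcd, ?_, rhoW_quad h ℓ hℓ hℓN A hA σ hσ hcd hcd'⟩
    rw [hcd', h.ω_frob ℓ hℓ hℓN A hA σ hσ]
  have hdense : ∀ g : GQ, ∃ σ b, (σ, b) ∈ P ∧ ∃ m : ℕ,
      rhoW gal x g = rhoW gal x σ ^ m ∧ ω g = ω σ ^ m := by
    intro g
    obtain ⟨ℓ, A, τ, j, hℓ, hℓN, hA, hτ, hpow⟩ := exists_frob_pow h.dense h.Np_ne L hLfd hLn g
    exact ⟨τ, a ⟨ℓ, hℓ⟩, ⟨ℓ, hℓ, hℓN, A, hA, hτ, rfl⟩, j, hpow (rhoW gal x) hρL, hpow ω hωL'⟩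
  obtain ⟨V, i1, i2, i3, ρV, hfin2, hker, hchar⟩ :=
    exists_two_dim_rep (rhoW gal x) ω P hP hdense
  letI := i1
  letI := i2
  refine ⟨{ V := V, finrank_eq := hfin2, ρ := ρV,
            factorsThroughFiniteLevel := ⟨L, hLfd, fun σ hσ => hker σ (hρL σ hσ) (hωL' σ hσ)⟩ },
    ?_, ?_⟩
  · intro ℓ hℓ hℓN A hA σ hσ
    have := hchar σ (a ⟨ℓ, hℓ⟩) ⟨ℓ, hℓ, hℓN, A, hA, hσ, rfl⟩
    rw [h.ω_frob ℓ hℓ hℓN A hA σ hσ] at this
    exact this
  · intro ℓ hℓ hℓN A hA σ hσ
    exact hker σ (rhoW_eq_one_of_gal_eq_one (h.unram ℓ hℓ hℓN A hA σ hσ))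
      (h.ω_inertia ℓ hℓ hℓN A hA σ hσ)

end Fermat.Agent.S29Asm
end
end MergeWrap_S29_AsmMain

section MergeWrap_S29_AsmWire -- from S29/AsmWire.lean

/-!
# S29 assembly, part 4: wiring the F3 interface propositions

`s29At_of_inputs`: the interface propositions of cluster A (`FrobDensityLite`, `TorsionUnramified`,
`TorsionFrobQuadratic`, `TorsionOpenStab`, `HeckeGaloisComm`, `EigenclassModP`) together with the
existence of a mod `p` cyclotomic character (`HasCyclo`) imply the frozen statement S29 at level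
`N ≠ 0`.  The case `N = 0` is vacuous (`s29At_zero`).
-/

set_option autoImplicit false
set_option linter.style.haveILetI false
set_option linter.unusedSectionVars false

noncomputable section

namespace Fermat.Agent.S29Asm

open Fermat.Agent.F3
open ModularCurve
open scoped TensorProduct
open Polynomial

local notation "Qb" => AlgebraicClosure ℚ

/-- Existence of a character `ω : G_ℚ → kˣ` with the properties of the mod `p` cyclotomic
character. -/
def HasCyclo (p : ℕ) (k : Type) [Field k] : Prop :=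
  ∃ ω : GQ →* kˣ,
    (∀ ℓ : ℕ, ℓ.Prime → ℓ ≠ p → ∀ A : ValuationSubring Qb, A.LiesOverPrime ℓ →
      ∀ σ : GQ, A.IsFrobeniusAt σ ℓ → ((ω σ : kˣ) : k) = (ℓ : k)) ∧
    (∀ ℓ : ℕ, ℓ.Prime → ℓ ≠ p → ∀ A : ValuationSubring Qb, A.LiesOverPrime ℓ →
      ∀ σ ∈ A.inertiaSubgroupIn ℚ, ω σ = 1) ∧
    (∃ L : IntermediateField ℚ Qb, FiniteDimensional ℚ L ∧
      ∀ σ : GQ, (∀ x ∈ L, σ x = x) → ω σ = 1)

section Split

/-- A monic quadratic with coefficients in `ℤ̄` splits over `ℤ̄`. -/
lemma exists_split (a : integralClosure ℤ ℂ) (n : ℤ) :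
    ∃ α β : integralClosure ℤ ℂ, α + β = a ∧ α * β = (n : integralClosure ℤ ℂ) := by
  -- a root in `ℂ`
  obtain ⟨s, hs⟩ := IsAlgClosed.exists_eq_mul_self (discrim (1 : ℂ) (-(a : ℂ)) (n : ℂ))
  obtain ⟨z, hz⟩ := exists_quadratic_eq_zero (one_ne_zero) ⟨s, hs⟩
  have hz' : z * z - (a : ℂ) * z + (n : ℂ) = 0 := by linear_combination hz
  -- integrality
  have hint : IsIntegral (integralClosure ℤ ℂ) z := by
    refine ⟨X ^ 2 - C a * X + C (n : integralClosure ℤ ℂ), ?_, ?_⟩
    · have h1 : (X ^ 2 - C a * X + C (n : integralClosure ℤ ℂ) : (integralClosure ℤ ℂ)[X])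
          = X ^ 2 - (C a * X - C (n : integralClosure ℤ ℂ)) := by ring
      rw [h1]
      apply Polynomial.monic_X_pow_sub
      refine lt_of_le_of_lt (Polynomial.degree_sub_le _ _) ?_
      refine max_lt ?_ ?_
      · exact lt_of_le_of_lt (Polynomial.degree_C_mul_X_le a) (by norm_num)
      · exact lt_of_le_of_lt Polynomial.degree_C_le (by norm_num)
    · simp only [Polynomial.eval₂_add, Polynomial.eval₂_sub, Polynomial.eval₂_mul,
        Polynomial.eval₂_pow, Polynomial.eval₂_X, Polynomial.eval₂_C]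
      have e1 : algebraMap (integralClosure ℤ ℂ) ℂ a = (a : ℂ) := rfl
      have e2 : algebraMap (integralClosure ℤ ℂ) ℂ (n : integralClosure ℤ ℂ) = (n : ℂ) := by
        rw [map_intCast]
      rw [e1, e2]
      linear_combination hz'
  have hintZ : IsIntegral ℤ z := isIntegral_trans z hint
  refine ⟨⟨z, hintZ⟩, a - ⟨z, hintZ⟩, by ring, ?_⟩
  apply Subtype.ext
  have : (z : ℂ) * ((a : ℂ) - z) = (n : ℂ) := by linear_combination -hz'
  simpa using this

end Split

section Wire

variable (N n : ℕ) [NeZero N]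

/-- The Galois representation on the `n`-torsion of `J₀(N)`. -/
def galRep : GQ →* Module.End ℤ (Jtors N n) where
  toFun σ := galTors N n σ
  map_one' := by
    ext x
    show (1 : GQ) • (x : JZero N) = x
    rw [one_smul]
  map_mul' σ τ := by
    ext x
    show (σ * τ) • (x : JZero N) = σ • τ • (x : JZero N)
    rw [mul_smul]

lemma coe_galRep_apply (σ : GQ) (x : Jtors N n) :
    ((galRep N n σ x : Jtors N n) : JZero N) = σ • (x : JZero N) := rfl

lemma coe_heckeTors_apply (ℓ : Nat.Primes) (x : Jtors N n) :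
    ((heckeTors N n ℓ x : Jtors N n) : JZero N) = heckeOperatorBar N ℓ (x : JZero N) := rfl

lemma nsmul_coe_eq_zero (x : Jtors N n) : n • (x : JZero N) = 0 := by
  have := x.2
  rw [Submodule.mem_torsionBy_iff] at this
  rwa [natCast_zsmul] at this

end Wire

/-- **S29 at level `N ≠ 0` from the interface propositions.** -/
theorem s29At_of_inputs (N : ℕ) [NeZero N]
    (hF : FrobDensityLite) (hU : TorsionUnramified N) (hQ : TorsionFrobQuadratic N)
    (hO : TorsionOpenStab N) (hC : HeckeGaloisComm N) (hE : EigenclassModP N)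
    (hω : ∀ (p : ℕ), p.Prime → ∀ (k : Type) [Field k] [CharP k p], HasCyclo p k) :
    S29At N := by
  intro g hg p hp k _ _ φ
  classical
  obtain ⟨x, hx0, hx⟩ := hE g hg p hp k φ
  obtain ⟨ω, hωF, hωI, hωL⟩ := hω p hp k
  have hNp : N * p ≠ 0 := mul_ne_zero (NeZero.ne N) hp.ne_zero
  have hne : ∀ ℓ : ℕ, ℓ.Prime → ¬ ℓ ∣ N * p → ℓ ≠ p := by
    rintro ℓ - h rfl
    exact h (dvd_mul_left _ _)
  -- the eigenvalues
  let aZ : Nat.Primes → integralClosure ℤ ℂ := fun ℓ =>
    if h : ¬ (ℓ : ℕ) ∣ N * p then (hx ℓ h).choose else 0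
  have haZ : ∀ (ℓ : Nat.Primes), ¬ (ℓ : ℕ) ∣ N * p →
      ((aZ ℓ : integralClosure ℤ ℂ) : ℂ) = ModularFormClass.qCoeff g ℓ ∧
        (heckeTors N p ℓ).baseChange k x = φ (aZ ℓ) • x := by
    intro ℓ h
    simp only [aZ, dif_pos h]
    exact (hx ℓ h).choose_spec
  have hin : Inputs (galRep N p) (heckeTors N p) N p ω x (fun ℓ => φ (aZ ℓ)) :=
    { dense := hF
      openStab := by
        intro y
        obtain ⟨L, hL, h⟩ := hO p hp.pos (y : JZero N) (nsmul_coe_eq_zero N p y)
        exact ⟨L, hL, fun σ hσ => Subtype.ext (h σ hσ)⟩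
      comm := by
        intro ℓ σ
        ext y
        exact hC ℓ σ (y : JZero N)
      unram := by
        intro ℓ hℓ hℓN A hA σ hσ
        ext y
        exact hU p ℓ hℓ hℓN A hA σ hσ (y : JZero N) (nsmul_coe_eq_zero N p y)
      quad := by
        intro ℓ hℓ hℓN A hA σ hσ
        ext y
        have := hQ p ℓ hℓ hℓN A hA σ hσ (y : JZero N) (nsmul_coe_eq_zero N p y)
        simp only [LinearMap.add_apply, LinearMap.sub_apply, Module.End.mul_apply,
          LinearMap.smul_apply, Module.End.one_apply, LinearMap.zero_apply, Submodule.coe_add,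
          Submodule.coe_sub, Submodule.coe_smul, Submodule.coe_zero, coe_galRep_apply,
          coe_heckeTors_apply, natCast_zsmul]
        exact this
      x_ne := hx0
      eigen := fun ℓ h => (haZ ℓ h).2
      split := by
        intro ℓ _
        obtain ⟨α, β, h1, h2⟩ := exists_split (aZ ℓ) ((ℓ : ℕ) : ℤ)
        refine ⟨φ α, φ β, by rw [← map_add, h1], ?_⟩
        rw [← map_mul, h2, map_intCast, Int.cast_natCast]
      ω_frob := fun ℓ hℓ hℓN A hA σ hσ => hωF ℓ hℓ (hne ℓ hℓ hℓN) A hA σ hσ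
      ω_inertia := fun ℓ hℓ hℓN A hA σ hσ => hωI ℓ hℓ (hne ℓ hℓ hℓN) A hA σ hσ
      ω_level := hωL
      Np_ne := hNp }
  obtain ⟨ρ, hρ1, hρ2⟩ := exists_residualRep hin
  refine ⟨ρ, ?_, hρ2⟩
  intro ℓ hℓ hℓN hℓk A hA σ hσ
  have hℓp : ¬ ℓ ∣ p := by
    intro hdvd
    have : ℓ = p := (Nat.prime_dvd_prime_iff_eq hℓ hp).mp hdvd
    rw [this] at hℓk
    exact hℓk (CharP.cast_eq_zero k p)
  have hℓNp : ¬ ℓ ∣ N * p := fun hdvd => (hℓ.dvd_mul.mp hdvd).elim hℓN hℓp
  exact ⟨aZ ⟨ℓ, hℓ⟩, (haZ ⟨ℓ, hℓ⟩ hℓNp).1, hρ1 ℓ hℓ hℓNp A hA σ hσ⟩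

/-- **S29 at level `0` is vacuous.** -/
theorem s29At_zero : S29At 0 := by
  intro g _ p _ k _ _ φ
  refine ⟨{ V := Fin 2 → k
            finrank_eq := by simp
            ρ := 1
            factorsThroughFiniteLevel := ⟨⊥, inferInstance, fun _ _ => rfl⟩ }, ?_, ?_⟩
  · intro ℓ _ hℓ0
    exact absurd (dvd_zero ℓ) hℓ0
  · intro ℓ _ hℓ0
    rw [zero_mul] at hℓ0
    exact absurd (dvd_zero ℓ) hℓ0

end Fermat.Agent.S29Asm
end
end MergeWrap_S29_AsmWire

section MergeWrap_Lib_Cyclo_OmegaK -- from Lib/Cyclo/OmegaK.lean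

set_option autoImplicit false

/-!
# Lib/Cyclo, part 4: the mod `p` cyclotomic character with values in a field of characteristic `p`

`omegaK p k : G_ℚ →* kˣ` with `omegaK_frobenius`, `omegaK_inertia`, `omegaK_finiteLevel`,
`omegaK_complexConjugation` (shape fixed with helper30 for the S29 assembly).
-/

namespace Fermat.Agent.Cyclo

open ValuationSubring

variable (p : ℕ) [Fact p.Prime] (k : Type) [Field k] [CharP k p]

theorem neZero_of_fact_prime : NeZero p := ⟨(Fact.out : p.Prime).ne_zero⟩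

/-- The mod `p` cyclotomic character with values in `kˣ`, `k` a field of characteristic `p`. -/
noncomputable def omegaK : GQ →* kˣ :=
  have : NeZero p := neZero_of_fact_prime p
  (Units.map ((ZMod.castHom (dvd_refl p) k : ZMod p →+* k) : ZMod p →* k)).comp (modChar p)

theorem omegaK_apply (σ : GQ) :
    haveI : NeZero p := neZero_of_fact_prime p
    ((omegaK p k σ : kˣ) : k) = ZMod.castHom (dvd_refl p) k ((modChar p σ : (ZMod p)ˣ) : ZMod p) :=
  rfl

theorem not_dvd_of_prime_ne {ℓ : ℕ} (hℓ : ℓ.Prime) (hℓp : ℓ ≠ p) : ¬ ℓ ∣ p := fun h =>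
  hℓp ((Nat.prime_dvd_prime_iff_eq hℓ (Fact.out : p.Prime)).mp h)

theorem omegaK_frobenius {ℓ : ℕ} (hℓ : ℓ.Prime) (hℓp : ℓ ≠ p)
    (A : ValuationSubring (AlgebraicClosure ℚ)) (hA : A.LiesOverPrime ℓ)
    (σ : GQ) (hσ : A.IsFrobeniusAt σ ℓ) : ((omegaK p k σ : kˣ) : k) = (ℓ : k) := by
  have : NeZero p := neZero_of_fact_prime p
  rw [omegaK_apply, modChar_frobenius p hℓ (not_dvd_of_prime_ne p hℓ hℓp) A hA σ hσ, map_natCast]

theorem omegaK_inertia {ℓ : ℕ} (hℓ : ℓ.Prime) (hℓp : ℓ ≠ p)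
    (A : ValuationSubring (AlgebraicClosure ℚ)) (hA : A.LiesOverPrime ℓ)
    (σ : GQ) (hσ : σ ∈ A.inertiaSubgroupIn ℚ) : omegaK p k σ = 1 := by
  have : NeZero p := neZero_of_fact_prime p
  unfold omegaK
  rw [MonoidHom.comp_apply, modChar_inertia p hℓ (not_dvd_of_prime_ne p hℓ hℓp) A hA σ hσ,
    map_one]

theorem omegaK_eq_one_of_fix (σ : GQ)
    (h : haveI : NeZero p := neZero_of_fact_prime p; ∀ x ∈ cycloField p, σ x = x) :
    omegaK p k σ = 1 := by
  have : NeZero p := neZero_of_fact_prime p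
  unfold omegaK
  rw [MonoidHom.comp_apply, modChar_eq_one_of_fix_cycloField p σ h, map_one]

theorem omegaK_finiteLevel : ∃ L : IntermediateField ℚ (AlgebraicClosure ℚ),
    FiniteDimensional ℚ L ∧ ∀ σ : GQ, (∀ x ∈ L, σ x = x) → omegaK p k σ = 1 :=
  have : NeZero p := neZero_of_fact_prime p
  ⟨cycloField p, inferInstance, fun σ h => omegaK_eq_one_of_fix p k σ h⟩

theorem omegaK_finiteLevel_normal : ∃ L : IntermediateField ℚ (AlgebraicClosure ℚ),
    FiniteDimensional ℚ L ∧ Normal ℚ L ∧ ∀ σ : GQ, (∀ x ∈ L, σ x = x) → omegaK p k σ = 1 :=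
  have : NeZero p := neZero_of_fact_prime p
  ⟨cycloField p, inferInstance, inferInstance, fun σ h => omegaK_eq_one_of_fix p k σ h⟩

theorem omegaK_complexConjugation : omegaK p k complexConjugation = -1 := by
  have : NeZero p := neZero_of_fact_prime p
  unfold omegaK
  rw [MonoidHom.comp_apply, modChar_complexConjugation p]
  apply Units.ext
  simp

end Fermat.Agent.Cyclo
end MergeWrap_Lib_Cyclo_OmegaK

section MergeWrap_S29_AsmCyclo -- from S29/AsmCyclo.lean

/-!
# S29 assembly: the cyclotomic input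

`hasCyclo`: the mod `p` cyclotomic character of `Fermat.Agent.Cyclo` (helper29) supplies the
hypothesis `HasCyclo p k` of `s29At_of_inputs`, for every prime `p` and every field `k` of
characteristic `p`.
-/

set_option autoImplicit false
set_option linter.style.haveILetI false

namespace Fermat.Agent.S29Asm

/-- The mod `p` cyclotomic character exists with values in every field of characteristic `p`. -/
theorem hasCyclo (p : ℕ) (hp : p.Prime) (k : Type) [Field k] [CharP k p] : HasCyclo p k := by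
  haveI : Fact p.Prime := ⟨hp⟩
  refine ⟨Fermat.Agent.Cyclo.omegaK p k, ?_, ?_, ?_⟩
  · intro ℓ hℓ hℓp A hA σ hσ
    exact Fermat.Agent.Cyclo.omegaK_frobenius p k hℓ hℓp A hA σ hσ
  · intro ℓ hℓ hℓp A hA σ hσ
    exact Fermat.Agent.Cyclo.omegaK_inertia p k hℓ hℓp A hA σ hσ
  · exact Fermat.Agent.Cyclo.omegaK_finiteLevel p k

/-- `s29At_of_inputs` with the cyclotomic input discharged. -/
theorem s29At_of_torsion (N : ℕ) [NeZero N]
    (hF : Fermat.Agent.F3.FrobDensityLite) (hU : Fermat.Agent.F3.TorsionUnramified N)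
    (hQ : Fermat.Agent.F3.TorsionFrobQuadratic N) (hO : Fermat.Agent.F3.TorsionOpenStab N)
    (hC : Fermat.Agent.F3.HeckeGaloisComm N) (hE : Fermat.Agent.F3.EigenclassModP N) :
    Fermat.Agent.F3.S29At N :=
  s29At_of_inputs N hF hU hQ hO hC hE (fun p hp k _ _ => hasCyclo p hp k)

end Fermat.Agent.S29Asm
end MergeWrap_S29_AsmCyclo

section MergeWrap_S29_AsmFinal -- from S29/AsmFinal.lean

/-!
# S29 assembly: all unconditional inputs discharged

`s29At_of_three`: the frozen statement S29 at level `N ≠ 0` follows from the three interface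
propositions that are still open (`TorsionUnramified N`, `TorsionFrobQuadratic N`: cluster B;
`EigenclassModP N`: cluster A, analytic side).  The other inputs of `s29At_of_inputs` are
unconditional theorems: Frobenius density (`F3.frobDensityLite`), open stabilisers
(`F3.torsionOpenStab`), Hecke/Galois commutation (`heckeGaloisComm`) and the cyclotomic
character (`hasCyclo`).

`s29At_all`: the same for every level, the level `0` being vacuous.
-/

set_option autoImplicit false
set_option linter.style.haveILetI false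

namespace Fermat.Agent.S29Asm

open Fermat.Agent.F3

/-- S29 at level `N ≠ 0` from the three open interface propositions. -/
theorem s29At_of_three (N : ℕ) [NeZero N]
    (hU : TorsionUnramified N) (hQ : TorsionFrobQuadratic N) (hE : EigenclassModP N) :
    S29At N :=
  s29At_of_torsion N frobDensityLite hU hQ (torsionOpenStab N)
    (Fermat.Agent.F3G.heckeGaloisComm N) hE

/-- S29 at every level from the three open interface propositions at the nonzero levels. -/
theorem s29At_all
    (h : ∀ (N : ℕ) [NeZero N],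
      TorsionUnramified N ∧ TorsionFrobQuadratic N ∧ EigenclassModP N) (N : ℕ) :
    S29At N := by
  rcases Nat.eq_zero_or_pos N with rfl | hN
  · exact s29At_zero
  · haveI : NeZero N := ⟨hN.ne'⟩
    obtain ⟨hU, hQ, hE⟩ := h N
    exact s29At_of_three N hU hQ hE

end Fermat.Agent.S29Asm
end MergeWrap_S29_AsmFinal

section MergeWrap_Lib_GaussInt_UnramifiedFinal -- from Lib/GaussInt/UnramifiedFinal.lean

set_option autoImplicit false

namespace Fermat.Agent.GaussInt

open Fermat.Agent.F3 Fermat.Agent.F3G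

variable {N : ℕ} [NeZero N]

/-- Chain step (1): the KEY LEMMA implies the function form of "inertia acts trivially". -/
theorem inertiaPow_of_keyLemmaAt (hKL : KeyLemmaAt N) : InertiaPow N :=
  inertiaPow_of_keyLemma hKL (valueGroupAt N)

/-- The KEY LEMMA implies that inertia at `ℓ ∤ N n` acts trivially on `J₀(N)[n]`. -/
theorem torsionUnramified_of_keyLemmaAt (hKL : KeyLemmaAt N) : TorsionUnramified N :=
  torsionUnramified_of_keyLemma hKL (valueGroupAt N)

end Fermat.Agent.GaussInt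
end MergeWrap_Lib_GaussInt_UnramifiedFinal

section MergeWrap_S29_AsmStatus -- from S29/AsmStatus.lean

/-!
# S29 assembly: current status

`s29At_of_remaining`: the frozen statement S29 (at every level) follows from the three inputs
that are still open:

* `KeyLemmaAt N` (cluster B: prime-to-`ℓ` torsion injects under reduction),
* `HeckeInputsAlong ℚ̄ N ℓ` (the Hecke correspondence `T_ℓ` is defined on `J₀(N)`),
* `KappaModP N` (cluster A, analytic side: `Hom_par(Γ₀(N), ℤ) / p → J₀(N)(ℚ̄)[p]`).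

Everything else is discharged by theorems of the team that are already proved.
-/

set_option autoImplicit false
set_option linter.style.haveILetI false

namespace Fermat.Agent.S29Asm

open Fermat.Agent.F3 ModularCurve

/-- S29 at level `N ≠ 0` from the inputs that are still open. -/
theorem s29At_of_remaining_at (N : ℕ) [NeZero N]
    (hKL : Fermat.Agent.GaussInt.KeyLemmaAt N)
    (hin : ∀ ℓ : Nat.Primes,
      (haveI : NeZero (ℓ : ℕ) := ⟨ℓ.2.ne_zero⟩; HeckeInputsAlong (AlgebraicClosure ℚ) N ℓ))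
    (hκ : KappaModP N) : S29At N :=
  s29At_of_three N
    (Fermat.Agent.GaussInt.torsionUnramified_of_keyLemmaAt hKL)
    (Fermat.Agent.GaussIntFP.torsionFrobQuadratic_of_keyLemmaAt hKL hin)
    (eigenclassModP_of N (Fermat.Agent.F3EC.periodEigen N) hκ)

/-- S29 at every level from the inputs that are still open. -/
theorem s29At_of_remaining
    (hKL : ∀ (N : ℕ) [NeZero N], Fermat.Agent.GaussInt.KeyLemmaAt N)
    (hin : ∀ (N : ℕ) [NeZero N] (ℓ : Nat.Primes),
      (haveI : NeZero (ℓ : ℕ) := ⟨ℓ.2.ne_zero⟩; HeckeInputsAlong (AlgebraicClosure ℚ) N ℓ))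
    (hκ : ∀ (N : ℕ) [NeZero N], KappaModP N) (N : ℕ) : S29At N := by
  rcases Nat.eq_zero_or_pos N with rfl | hN
  · exact s29At_zero
  · haveI : NeZero N := ⟨hN.ne'⟩
    exact s29At_of_remaining_at N (hKL N) (hin N) (hκ N)

/-- S29 at every level from the KEY LEMMA and `KappaModP` (the Hecke inputs are a theorem of
helper76). -/
theorem s29At_of_two
    (hKL : ∀ (N : ℕ) [NeZero N], Fermat.Agent.GaussInt.KeyLemmaAt N)
    (hκ : ∀ (N : ℕ) [NeZero N], KappaModP N) (N : ℕ) : S29At N :=
  s29At_of_remaining hKL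
    (fun N _ ℓ =>
      haveI : NeZero (ℓ : ℕ) := ⟨ℓ.2.ne_zero⟩
      Fermat.Agent.HeckeInputs.hi_heckeInputsAlong_Qbar N ℓ)
    hκ N

end Fermat.Agent.S29Asm
end MergeWrap_S29_AsmStatus

section MergeWrap_S42_CharpolyTwo -- from S42/CharpolyTwo.lean

set_option autoImplicit false

/-!
# Trace and determinant from the characteristic polynomial in dimension two
-/

namespace Fermat.Agent.S42Red

open Polynomial Module

variable {F : Type*} [Field F] {V : Type*} [AddCommGroup V] [Module F V] [FiniteDimensional F V]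

theorem quad_coeffs_eq {a b a' b' : F}
    (h : (X ^ 2 - C a * X + C b : F[X]) = X ^ 2 - C a' * X + C b') : a = a' ∧ b = b' := by
  have h0 := congrArg (fun q : F[X] => q.coeff 0) h
  have h1 := congrArg (fun q : F[X] => q.coeff 1) h
  simp only [coeff_add, coeff_sub, coeff_X_pow, coeff_C_mul, coeff_X_zero, coeff_C_zero,
    mul_zero, sub_zero] at h0
  simp only [coeff_add, coeff_sub, coeff_X_pow, coeff_C_mul, coeff_X_one, coeff_C, mul_one] at h1
  norm_num at h0 h1
  exact ⟨h1, h0⟩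

/-- In dimension two, `charpoly f = X² - t X + d` gives `trace f = t` and `det f = d`. -/
theorem trace_det_of_charpoly (hV : finrank F V = 2) (f : Module.End F V) (t d : F)
    (h : LinearMap.charpoly f = X ^ 2 - C t * X + C d) :
    LinearMap.trace F V f = t ∧ LinearMap.det f = d := by
  classical
  let b : Basis (Fin 2) F V := (Module.finBasis F V).reindex (finCongr hV)
  have h1 : (LinearMap.toMatrix b b f).charpoly = LinearMap.charpoly f :=
    LinearMap.charpoly_toMatrix f b
  rw [Matrix.charpoly_fin_two, h] at h1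
  obtain ⟨ht, hd⟩ := quad_coeffs_eq h1
  refine ⟨?_, ?_⟩
  · rw [LinearMap.trace_eq_matrix_trace F b f, ht]
  · rw [← LinearMap.det_toMatrix b f, hd]

end Fermat.Agent.S42Red
end MergeWrap_S42_CharpolyTwo

section MergeWrap_S42_Reduction -- from S42/Reduction.lean

set_option autoImplicit false

/-!
# S42 from S29

`EigenformResidualAttachmentAt M` for the prime of a Frey package follows from the statement of
S29 at level `M` (residual representation attached to a normalised eigenform), applied to the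
residue field `ℤ̄ ⧸ 𝔪`, together with the fact that the `p`-torsion representation of the Frey
curve has open kernel.
-/

namespace Fermat.Agent.S42Red

open WeierstrassCurve WeierstrassCurve.Affine WeierstrassCurve.Affine.Point Polynomial

local notation "Qb" => AlgebraicClosure ℚ
local notation "GQ" => (AlgebraicClosure ℚ ≃ₐ[ℚ] AlgebraicClosure ℚ)

/-- An open normal subgroup of `Gal(ℚ̄/ℚ)` is the fixing subgroup of a finite Galois subfield. -/
theorem exists_galois_field_of_open_normal (H : Subgroup GQ) (hn : H.Normal)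
    (hopen : IsOpen (H : Set GQ)) :
    ∃ L : IntermediateField ℚ Qb, FiniteDimensional ℚ L ∧ IsGalois ℚ L ∧ L.fixingSubgroup = H := by
  have hGal : IsGalois ℚ Qb := Fermat.Agent.FrobExists.isGalois_Qb
  let N : ClosedSubgroup GQ :=
    { toSubgroup := H
      isClosed' := Subgroup.isClosed_of_isOpen _ hopen }
  let L : IntermediateField ℚ Qb := IntermediateField.fixedField H
  have hfix : L.fixingSubgroup = H := InfiniteGalois.fixingSubgroup_fixedField N
  have hfin : FiniteDimensional ℚ L := by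
    rw [← InfiniteGalois.isOpen_iff_finite, hfix]
    exact hopen
  have hgal : IsGalois ℚ L := by
    have hnormal : L.fixingSubgroup.Normal := by
      rw [hfix]
      exact hn
    exact (InfiniteGalois.normal_iff_isGalois L).mp hnormal
  exact ⟨L, hfin, hgal, hfix⟩

/-- A subgroup containing the fixing subgroup of a finite subextension is open. -/
theorem isOpen_of_fixingSubgroup_le (H : Subgroup GQ) (L : IntermediateField ℚ Qb)
    (hL : FiniteDimensional ℚ L) (hle : L.fixingSubgroup ≤ H) : IsOpen (H : Set GQ) :=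
  Subgroup.isOpen_mono hle (IntermediateField.fixingSubgroup_isOpen L)

/-- The kernel of the mod `p` representation of the Frey curve is open. -/
theorem isOpen_ker_frey (P : FreyPackage) :
    IsOpen ((galoisRepModuleEnd (S := ℚ) (K := AlgebraicClosure ℚ) P.freyCurve P.p).ker :
      Set GQ) := by
  have hfin := Fermat.Agent.S13Count.frey_torsion_finite P
  have : ((galoisRepModuleEnd (S := ℚ) (K := AlgebraicClosure ℚ) P.freyCurve P.p).ker : Set GQ)
      = ⋂ x : Submodule.torsionBy ℤ (P.freyCurve⁄(AlgebraicClosure ℚ)).Point P.p,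
          {σ : GQ | σ • x = x} := by
    ext σ
    simp only [SetLike.mem_coe, MonoidHom.mem_ker, Set.mem_iInter, Set.mem_ofPred_eq]
    constructor
    · intro h x
      have := congrArg (fun f => f x) h
      simpa using this
    · intro h
      ext x
      simpa using congrArg Subtype.val (h x)
  rw [this]
  exact isOpen_iInter_of_finite fun x => Fermat.Agent.S13Open.frey_isOpen_stabilizer P x

/-- **S42 from S29.** -/
theorem eigenformResidualAttachmentAt_of_S29At (P : FreyPackage) (M : ℕ)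
    (h29 : Fermat.Agent.F3.S29At M) : P.EigenformResidualAttachmentAt M := by
  intro g hg 𝔪 hmax hp𝔪
  letI : Field (integralClosure ℤ ℂ ⧸ 𝔪) := Ideal.Quotient.field 𝔪
  have hp0 : ((P.p : ℕ) : integralClosure ℤ ℂ ⧸ 𝔪) = 0 := by
    have : (Ideal.Quotient.mk 𝔪) (P.p : integralClosure ℤ ℂ) = 0 :=
      Ideal.Quotient.eq_zero_iff_mem.mpr hp𝔪
    simpa using this
  haveI hchar : CharP (integralClosure ℤ ℂ ⧸ 𝔪) P.p :=
    (CharP.ringChar_of_prime_eq_zero P.pp hp0) ▸ ringChar.charP _
  letI : Algebra (ZMod P.p) (integralClosure ℤ ℂ ⧸ 𝔪) := ZMod.algebra _ P.p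
  obtain ⟨ρ, hatt, -⟩ := h29 g hg P.p P.pp (integralClosure ℤ ℂ ⧸ 𝔪) (Ideal.Quotient.mk 𝔪)
  -- the finite Galois field
  obtain ⟨L₁, hL₁fin, hL₁⟩ := ρ.factorsThroughFiniteLevel
  have hρopen : IsOpen ((ρ.ρ.ker : Subgroup GQ) : Set GQ) :=
    isOpen_of_fixingSubgroup_le _ L₁ hL₁fin (fun σ hσ => by
      rw [MonoidHom.mem_ker]
      exact hL₁ σ (fun x hx => hσ ⟨x, hx⟩))
  have hopen : IsOpen ((((galoisRepModuleEnd (S := ℚ) (K := AlgebraicClosure ℚ) P.freyCurve
      P.p).ker ⊓ ρ.ρ.ker : Subgroup GQ)) : Set GQ) := by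
    rw [Subgroup.coe_inf]
    exact (isOpen_ker_frey P).inter hρopen
  obtain ⟨L, hLfin, hLgal, hLfix⟩ := exists_galois_field_of_open_normal _ inferInstance hopen
  have hnf : NumberField L := { to_charZero := inferInstance, to_finiteDimensional := hLfin }
  refine ⟨integralClosure ℤ ℂ ⧸ 𝔪, inferInstance, inferInstance, ρ.V, inferInstance, inferInstance,
    ρ.ρ, Ideal.Quotient.mk 𝔪, L, inferInstance, hnf, hLgal, inferInstance, inferInstance,
    ?_, ρ.finrank_eq, ?_, ?_, ?_⟩
  · rw [Ideal.mk_ker]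
  · intro σ hσ
    rw [← hLfix]
    intro x
    have h1 := AlgEquiv.restrictNormal_commutes σ L x
    have h2 : σ.restrictNormal L = 1 := hσ
    rw [h2] at h1
    exact h1.symm
  · intro ℓ hℓ hℓM hℓp A hA τ hτ
    have hℓ0 : ((ℓ : ℕ) : integralClosure ℤ ℂ ⧸ 𝔪) ≠ 0 := by
      intro h0
      have := (CharP.cast_eq_zero_iff (integralClosure ℤ ℂ ⧸ 𝔪) P.p ℓ).mp h0
      exact hℓp ((Nat.prime_dvd_prime_iff_eq P.pp hℓ).mp this).symm
    obtain ⟨a, ha, hcp⟩ := hatt ℓ hℓ hℓM hℓ0 A hA τ hτ
    exact ⟨a, ha, (trace_det_of_charpoly ρ.finrank_eq (ρ.ρ τ) _ _ hcp).1⟩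
  · intro ℓ hℓ hℓM hℓp A hA τ hτ
    have hℓ0 : ((ℓ : ℕ) : integralClosure ℤ ℂ ⧸ 𝔪) ≠ 0 := by
      intro h0
      have := (CharP.cast_eq_zero_iff (integralClosure ℤ ℂ ⧸ 𝔪) P.p ℓ).mp h0
      exact hℓp ((Nat.prime_dvd_prime_iff_eq P.pp hℓ).mp this).symm
    obtain ⟨a, ha, hcp⟩ := hatt ℓ hℓ hℓM hℓ0 A hA τ hτ
    exact (trace_det_of_charpoly ρ.finrank_eq (ρ.ρ τ) _ _ hcp).2

/-- **S42 from the frozen statement of S29** (exact shapes).  The final `S42.lean` is
`s42_of_s29 (fun hg hp φ => Fermat.Agent.S29.result hg hp φ) P`. -/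
theorem s42_of_s29
    (h29 : ∀ {N : ℕ} {g : CuspForm (CongruenceSubgroup.Gamma0 N) 2}
      (_ : g.IsNormalizedEigenform) {p : ℕ} (_ : p.Prime) {k : Type} [Field k] [CharP k p]
      (φ : integralClosure ℤ ℂ →+* k),
      ∃ ρ : ResidualGaloisRep k, ρ.IsAttachedTo g φ ∧
        ∀ ℓ : ℕ, ℓ.Prime → ¬ ℓ ∣ N * p → ρ.IsUnramifiedAt ℓ)
    (P : FreyPackage) : ∀ M : ℕ, 0 < M → P.EigenformResidualAttachmentAt M :=
  fun M _ => eigenformResidualAttachmentAt_of_S29At P M
    (fun _ hg _ hp k _ _ φ => h29 hg hp φ)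

end Fermat.Agent.S42Red
end MergeWrap_S42_Reduction

section MergeWrap_S31_Assembly -- from S31/Assembly.lean

/-!
# S31 from the interface propositions of cluster A
(owner: helper62)

`s31Statement_of_S30At`: the frozen statement of S31 from `S30At N` for all `N`.
`s31Statement_of_interfaces`: the frozen statement of S31 from the six interface propositions of
cluster A at all levels (the same hypotheses as `Fermat.Agent.S30.s30At_of_interfaces`).
-/

namespace Fermat.Agent.S31

/-- the frozen S30 statement from the level-wise statements -/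
theorem s30Statement_of_S30At (h : ∀ (N : ℕ) [NeZero N], Fermat.Agent.S30.S30At N) :
    S30Statement :=
  fun p _ N _ S hpS hNS 𝒪' _ _ _ _ _ _ hp𝒪' χ => h N p S hpS hNS 𝒪' hp𝒪' χ

/-- **S31 from S30 at all levels.** -/
theorem s31Statement_of_S30At (h : ∀ (N : ℕ) [NeZero N], Fermat.Agent.S30.S30At N) :
    S31Statement :=
  S31Statement_of_S30Statement (s30Statement_of_S30At h)

/-- **S31 from the interface propositions of cluster A.** -/
theorem s31Statement_of_interfaces
    (hE : ∀ (N : ℕ) [NeZero N], Fermat.Agent.S30.EigenclassPadic N)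
    (hFin : ∀ (N : ℕ) [NeZero N], F3.TorsionFinite N)
    (hUnr : ∀ (N : ℕ) [NeZero N], F3.TorsionUnramified N)
    (hFrob : ∀ (N : ℕ) [NeZero N], F3.TorsionFrobQuadratic N)
    (hOpen : ∀ (N : ℕ) [NeZero N], F3.TorsionOpenStab N)
    (hComm : ∀ (N : ℕ) [NeZero N], F3.HeckeGaloisComm N) :
    S31Statement :=
  s31Statement_of_S30At fun N _ =>
    Fermat.Agent.S30.s30At_of_interfaces N (hE N) (hFin N) (hUnr N) (hFrob N) (hOpen N) (hComm N)

end Fermat.Agent.S31
end MergeWrap_S31_Assembly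

section MergeWrap_F3_FinalWire -- from F3/FinalWire.lean

/-!
# Cluster A (F3): final wiring of S29, S42, S30, S31  (owner: helper11)

The four frozen statements S29, S42, S30, S31, in their EXACT frozen shapes, from the two
inputs that are still open:

* `hKey : ∀ N [NeZero N], GaussInt.KeyLemmaAt N`   (cluster B),
* `hKap : ∀ N [NeZero N], KappaAllW N`             (cluster A, analytic side `(K1)`).

Everything else (Frobenius density, cyclotomic character, open stabilisers, Hecke/Galois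
commutation, Hecke inputs, finiteness of torsion, period eigenclasses, trace rigidity and DVR
points) is discharged by theorems of the team that are on `main`.

With `keyLemmaAt` and `kappaAll` proved, the files `S29.lean`, `S42.lean`, `S30.lean`,
`S31.lean` are the one-liners

  `Fermat.Agent.F3W.s29_final keyLemmaAt kappaAll hg hp φ`
  `Fermat.Agent.F3W.s42_final keyLemmaAt kappaAll P`
  `Fermat.Agent.F3W.s30_final keyLemmaAt kappaAll`
  `Fermat.Agent.F3W.s31_final keyLemmaAt kappaAll hp hp𝒪 hpS hNS H q hq hqS`.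
-/

set_option autoImplicit false
set_option linter.style.haveILetI false
set_option linter.overlappingInstances false

open Polynomial

namespace Fermat.Agent.F3W

open Fermat.Agent.F3 ModularCurve Fermat.Agent.F3EC

/-- `(K1)` in the architect's final shape: `κ_n : Hom_par(Γ₀(N), ℤ) → J₀(N)(ℚ̄)[n]` for ALL `n`,
with kernel in `n · Hom_par`, `d • κ_{dn} = κ_n`, and Hecke-equivariant for all `ℓ ∤ N`. -/
def KappaAllW (N : ℕ) [NeZero N] : Prop :=
  ∃ κ : (n : ℕ) → HomPar N →ₗ[ℤ] Jtors N n,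
    (∀ n : ℕ, 0 < n → ∀ c : HomPar N, κ n c = 0 → ∃ c' : HomPar N, c = (n : ℤ) • c') ∧
    (∀ (n d : ℕ) (c : HomPar N), 0 < n → 0 < d →
      (d : ℤ) • ((κ (d * n) c : Jtors N (d * n)) : JZero N) = (κ n c : JZero N)) ∧
    (∀ (n : ℕ) (ℓ : Nat.Primes), ¬ (ℓ : ℕ) ∣ N → ∀ c : HomPar N,
      κ n (heckeHom N ℓ c) = heckeTors N n ℓ (κ n c))

/-- `(K1)` gives the mod `p` family used by S29 and S42. -/
theorem kappaModP_of_kappaAllW {N : ℕ} [NeZero N] (h : KappaAllW N) : KappaModP N := by
  obtain ⟨κ, hker, -, hT⟩ := h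
  intro p hp
  refine ⟨κ p, fun c hc => ?_, fun ℓ hℓ c => hT p ℓ (fun hd => hℓ (Dvd.dvd.mul_right hd p)) c⟩
  obtain ⟨c', hc'⟩ := hker p hp.pos c hc
  exact ⟨c', by rw [hc', natCast_zsmul]⟩

/-- `(K1)` gives the `p`-adic eigenclasses used by S30 and S31. -/
theorem eigenclassPadic_of_kappaAllW {N : ℕ} [NeZero N] (h : KappaAllW N) :
    Fermat.Agent.S30.EigenclassPadic N := by
  obtain ⟨κ, hker, hcompat, hT⟩ := h
  exact Fermat.Agent.F3EP.eigenclassPadic_of_kappa N κ hker hcompat hT

/-- The Hecke inputs along `ℚ̄` at every level and every prime (helper76). -/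
theorem heckeInputs_all (N : ℕ) [NeZero N] (ℓ : Nat.Primes) :
    (haveI : NeZero (ℓ : ℕ) := ⟨ℓ.2.ne_zero⟩; HeckeInputsAlong (AlgebraicClosure ℚ) N ℓ) :=
  haveI : NeZero (ℓ : ℕ) := ⟨ℓ.2.ne_zero⟩
  Fermat.Agent.HeckeInputs.hi_heckeInputsAlong_Qbar N ℓ

/-- `S30At N` from the two open inputs. -/
theorem s30At_of_two (N : ℕ) [NeZero N]
    (hKey : Fermat.Agent.GaussInt.KeyLemmaAt N) (hKap : KappaAllW N) :
    Fermat.Agent.S30.S30At N :=
  Fermat.Agent.S30.s30At_of_interfaces N (eigenclassPadic_of_kappaAllW hKap)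
    (Fermat.Agent.F3TF.torsionFinite N)
    (Fermat.Agent.GaussInt.torsionUnramified_of_keyLemmaAt hKey)
    (Fermat.Agent.GaussIntFP.torsionFrobQuadratic_of_keyLemmaAt hKey (heckeInputs_all N))
    (torsionOpenStab N) (Fermat.Agent.F3G.heckeGaloisComm N)

section Finals

/-- **S29**, exact frozen shape, from the two open inputs. -/
theorem s29_final
    (hKey : ∀ (N : ℕ) [NeZero N], Fermat.Agent.GaussInt.KeyLemmaAt N)
    (hKap : ∀ (N : ℕ) [NeZero N], KappaAllW N)
    {N : ℕ} {g : CuspForm (CongruenceSubgroup.Gamma0 N) 2} (hg : g.IsNormalizedEigenform)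
    {p : ℕ} (hp : p.Prime) {k : Type} [Field k] [CharP k p]
    (φ : integralClosure ℤ ℂ →+* k) :
    ∃ ρ : ResidualGaloisRep k, ρ.IsAttachedTo g φ ∧
      ∀ ℓ : ℕ, ℓ.Prime → ¬ ℓ ∣ N * p → ρ.IsUnramifiedAt ℓ :=
  Fermat.Agent.S29Asm.s29At_of_two hKey (fun N _ => kappaModP_of_kappaAllW (hKap N)) N
    g hg p hp k φ

/-- **S42**, exact frozen shape, from the two open inputs. -/
theorem s42_final
    (hKey : ∀ (N : ℕ) [NeZero N], Fermat.Agent.GaussInt.KeyLemmaAt N)
    (hKap : ∀ (N : ℕ) [NeZero N], KappaAllW N) (P : FreyPackage) :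
    ∀ M : ℕ, 0 < M → P.EigenformResidualAttachmentAt M :=
  Fermat.Agent.S42Red.s42_of_s29 (@s29_final hKey hKap) P

/-- **S30**, exact frozen shape, from the two open inputs. -/
theorem s30_final
    (hKey : ∀ (N : ℕ) [NeZero N], Fermat.Agent.GaussInt.KeyLemmaAt N)
    (hKap : ∀ (N : ℕ) [NeZero N], KappaAllW N) :
    ∀ (p : ℕ) [Fact p.Prime] (N : ℕ) [NeZero N] (S : Finset ℕ)
      (_hpS : p ∈ S) (_hNS : ∀ q : ℕ, q.Prime → q ∣ N → q ∈ S)
      (𝒪' : Type) [CommRing 𝒪'] [IsDomain 𝒪'] [IsDiscreteValuationRing 𝒪']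
      [IsAdicComplete (IsLocalRing.maximalIdeal 𝒪') 𝒪'] [Finite (IsLocalRing.ResidueField 𝒪')]
      [CharZero 𝒪'] (_hp𝒪' : (p : 𝒪') ∈ IsLocalRing.maximalIdeal 𝒪')
      (χ : CuspForm.heckeAlgebra N 2 (↑S : Set ℕ) →+* 𝒪'),
      ∃ (𝒪'' : Type) (_ : CommRing 𝒪'') (_ : IsDomain 𝒪'') (_ : IsDiscreteValuationRing 𝒪'')
        (_ : IsAdicComplete (IsLocalRing.maximalIdeal 𝒪'') 𝒪'')
        (_ : Finite (IsLocalRing.ResidueField 𝒪'')) (_ : CharZero 𝒪'')
        (_ : Algebra 𝒪' 𝒪'') (_ : Module.Finite 𝒪' 𝒪'') (_ : IsLocalHom (algebraMap 𝒪' 𝒪'')),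
      Function.Injective (algebraMap 𝒪' 𝒪'') ∧
      ∃ ρ : GaloisRepAdic 𝒪'',
        (∀ (ℓ : ℕ) (hℓ : ℓ.Prime) (hℓN : ¬ ℓ ∣ N) (hℓS : ℓ ∉ (↑S : Set ℕ)),
          ∀ A : ValuationSubring (AlgebraicClosure ℚ), A.LiesOverPrime ℓ →
            ∀ σ : AlgebraicClosure ℚ ≃ₐ[ℚ] AlgebraicClosure ℚ, A.IsFrobeniusAt σ ℓ →
              LinearMap.charpoly (ρ.ρ σ) =
                X ^ 2 - C (algebraMap 𝒪' 𝒪'' (χ (CuspForm.heckeAlgebra.T hℓ hℓN hℓS))) * X
                  + C ((ℓ : 𝒪''))) ∧
        (∀ q : ℕ, q.Prime → ¬ q ∣ N → q ≠ p → ρ.IsUnramifiedAt q) :=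
  Fermat.Agent.S31.s30Statement_of_S30At (fun N _ => s30At_of_two N (hKey N) (hKap N))

end Finals

section S31

variable {p : ℕ} {N : ℕ} [NeZero N] {S : Finset ℕ}
  {𝒪 : Type} [CommRing 𝒪] [IsDomain 𝒪] [IsDiscreteValuationRing 𝒪]
  [IsAdicComplete (IsLocalRing.maximalIdeal 𝒪) 𝒪]
  {θ : CuspForm.heckeAlgebra N 2 (↑S : Set ℕ) →+* IsLocalRing.ResidueField 𝒪}
  {T : Type} [CommRing T] [IsLocalRing T] [IsNoetherianRing T]
  [IsAdicComplete (IsLocalRing.maximalIdeal T) T] [Algebra 𝒪 T] [IsLocalHom (algebraMap 𝒪 T)]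
  [Module.Finite 𝒪 T] [Module.Free 𝒪 T]

/-- **S31**, exact frozen shape, from the two open inputs. -/
theorem s31_final
    (hKey : ∀ (N : ℕ) [NeZero N], Fermat.Agent.GaussInt.KeyLemmaAt N)
    (hKap : ∀ (N : ℕ) [NeZero N], KappaAllW N)
    (hp : p.Prime)
    (hp𝒪 : (p : 𝒪) ∈ IsLocalRing.maximalIdeal 𝒪) (hpS : p ∈ S)
    (hNS : ∀ q : ℕ, q.Prime → q ∣ N → q ∈ S)
    (H : CuspForm.HeckeGaloisRepDatum N (↑S : Set ℕ) 𝒪 θ T)
    (q : ℕ) (hq : q.Prime) (hqS : q ∉ S) :
    H.ρ.IsUnramifiedAt q :=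
  Fermat.Agent.S31.s31Statement_of_S30At (fun N _ => s30At_of_two N (hKey N) (hKap N))
    hp hp𝒪 hpS hNS H q hq hqS

end S31

end Fermat.Agent.F3W
end MergeWrap_F3_FinalWire

section MergeWrap_Lib_BadRed_Bridge_S34Final -- from Lib/BadRed/Bridge/S34Final.lean

set_option autoImplicit false

/-!
# Cluster T, final bridge: S34 from the modular nodal package  (architect helper81)

`s34Statement_of_modularNodal` : the statement S34 (unipotent inertia at `q ‖ N`, `q ≠ p`) follows
from ONE hypothesis: for every Atkin-Lehner datum `D` with `D.Q` prime and every place `A` of `ℚ̄`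
over `D.Q` there is a modular nodal package `M : ModularNodal D A` with the abstract toric key
statement `AbstractToricKeyStatement M.N`.

All the other inputs are unconditional on main: the interface propositions of cluster A
(`EigenclassPadic`, `TorsionFinite`, `TorsionUnramified`, `TorsionFrobQuadratic`, `TorsionOpenStab`,
`HeckeGaloisComm`, all levels), the separating element (`gaussSepAt`, helper16), `(E1)`
(`inertiaPowSq_of_toricKey`, helper16) and `T1ofPow`.
-/

noncomputable section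

namespace Fermat.Agent.BadRed

open ModularCurve AlgebraicCurve Fermat.Agent.F3 Fermat.Agent.F3G Fermat.Agent.GaussInt
  Fermat.Agent.AtkinLehner

local notation "Qb" => AlgebraicClosure ℚ

/-- `T1` at level `N` from the modular nodal packages. -/
theorem torsionInertiaUnipotent_of_modularNodal (N : ℕ) [NeZero N]
    (h : ∀ D : ALData, D.Q * D.R = N → D.Q.Prime → ∀ A : ValuationSubring Qb,
      A.LiesOverPrime D.Q → ∃ M : ModularNodal D A, AbstractToricKeyStatement M.N) :
    TorsionInertiaUnipotent N :=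
  torsionInertiaUnipotent_of_inertiaPowSq
    (inertiaPowSq_of_toricKey N (fun D hD => toricKeyAt_of_modularNodal D (h D hD)))

/-- **S34 from the modular nodal packages.** -/
theorem s34Statement_of_modularNodal
    (h : ∀ D : ALData, D.Q.Prime → ∀ A : ValuationSubring Qb, A.LiesOverPrime D.Q →
      ∃ M : ModularNodal D A, AbstractToricKeyStatement M.N) :
    Fermat.Agent.S34.S34Statement :=
  s34Statement_of_interfaces (fun N _ =>
    ⟨Fermat.Agent.F3W.eigenclassPadic_of_kappaAllW (Fermat.Agent.F3I2.kappaAll N),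
      Fermat.Agent.F3TF.torsionFinite N,
      Fermat.Agent.GaussInt.torsionUnramified_of_keyLemmaAt (Fermat.Agent.GaussInt.keyLemmaAt_all N),
      Fermat.Agent.GaussIntFP.torsionFrobQuadratic_of_keyLemmaAt
        (Fermat.Agent.GaussInt.keyLemmaAt_all N) (Fermat.Agent.F3W.heckeInputs_all N),
      Fermat.Agent.F3.torsionOpenStab N, Fermat.Agent.F3G.heckeGaloisComm N,
      torsionInertiaUnipotent_of_modularNodal N (fun D _ => h D)⟩)

end Fermat.Agent.BadRed
end
end MergeWrap_Lib_BadRed_Bridge_S34Final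

section MergeWrap_Lib_BadRed_Final_Main -- from Lib/BadRed/Final/Main.lean

set_option autoImplicit false
set_option linter.style.haveILetI false
set_option linter.unusedSectionVars false
set_option linter.unusedVariables false
set_option synthInstance.maxHeartbeats 400000
set_option maxHeartbeats 1000000

/-!
# Cluster T, final wiring (helper81), part 6: the toric key lemma, `T1` and S34, UNCONDITIONAL

* `exists_modularNodal` : for every Atkin-Lehner datum `D` with `D.Q` prime and `AuxOK D`, and every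
  place `A` of `ℚ̄` over `D.Q`, the modular nodal package with its toric key statement;
* `toricKeyAt_of_auxOK : AuxOK D → ToricKeyAt D`;
* `inertiaPowSq_all N : InertiaPowSq N`,  `torsionInertiaUnipotent_all N : TorsionInertiaUnipotent N`
  (**T1**: inertia at `q ‖ N` acts unipotently on `J₀(N)[n]`, `q ∤ n`);
* `s34Statement_final : S34.S34Statement`.
-/

noncomputable section

namespace Fermat.Agent.BadRed

open IntermediateField ModularCurve AlgebraicCurve Fermat.Agent.F3 Fermat.Agent.F3G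
  Fermat.Agent.GaussInt Fermat.Agent.AtkinLehner Fermat.Agent.Deuring Fermat.Agent.RR

local notation "Qb" => AlgebraicClosure ℚ

/-- `Q ∤ R` for an Atkin-Lehner datum with `Q` prime. -/
theorem ALData_not_dvd (D : ALData) (hQ : D.Q.Prime) : ¬ D.Q ∣ D.R := by
  intro h
  have h1 : (D.Q : ℤ) ∣ (D.R : ℤ) := Int.natCast_dvd_natCast.mpr h
  have h2 : (D.Q : ℤ) ∣ (D.Q : ℤ) * D.a - (D.R : ℤ) * D.b :=
    dvd_sub (dvd_mul_right _ _) (Dvd.dvd.mul_right h1 _)
  rw [D.hdet] at h2
  have h3 : D.Q ∣ 1 := Int.natCast_dvd_natCast.mp (by simpa using h2)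
  exact hQ.one_lt.ne' (Nat.dvd_one.mp h3)

/-- **the modular nodal package exists**, with its toric key statement. -/
theorem exists_modularNodal (D : ALData) (hQ : D.Q.Prime) (haux : AuxLevel.AuxOK D)
    (A : ValuationSubring Qb) (hA : A.LiesOverPrime D.Q) :
    ∃ M : ModularNodal D A, AbstractToricKeyStatement M.N := by
  haveI : NeZero D.Q := ⟨hQ.ne_zero⟩
  haveI : NeZero D.R := ⟨D.hR.ne'⟩
  haveI : NeZero (D.Q * D.R) := ⟨mul_ne_zero hQ.ne_zero D.hR.ne'⟩
  haveI : Fact D.Q.Prime := ⟨hQ⟩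
  haveI : CharP (IsLocalRing.ResidueField A) D.Q :=
    Fermat.Agent.FrobTrace.charP_residueField A hA
  haveI : IsAlgClosed (IsLocalRing.ResidueField A) := Fermat.Agent.GaussInt.isAlgClosed_residue A
  haveI : PerfectRing (IsLocalRing.ResidueField A) D.Q := inferInstance
  have hqR := ALData_not_dvd D hQ
  have hS := isGaussSetup_gaussSetupBad D hQ hqR A hA
  have hL := hasLattice_gaussSetupBad D hQ hqR A hA
  have haux' : AuxLevelOK D.Q D.R := haux
  have hsep := fw_sep D A hQ hA hqR _ hS haux'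
  exact ⟨fwModularNodal D A hQ hA hqR _ hS hL haux' hsep,
    fw_abstractToricKey D A hQ hA hqR _ hS hL haux' hsep⟩

/-- **the toric key lemma** at the Atkin-Lehner data with auxiliary level. -/
theorem toricKeyAt_of_auxOK (D : ALData) (haux : AuxLevel.AuxOK D) : ToricKeyAt D :=
  toricKeyAt_of_modularNodal D (fun hQ A hA => exists_modularNodal D hQ haux A hA)

/-- **(E1), function form, all levels.** -/
theorem inertiaPowSq_all (N : ℕ) [NeZero N] : InertiaPowSq N :=
  AuxLevel.inertiaPowSq_of_toricKeyAt_aux (fun D _ => gaussSepAt D)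
    (fun D h => toricKeyAt_of_auxOK D h) N

/-- **T1**: for `q ‖ N`, `q ∤ n`, the inertia group at `q` acts unipotently on `J₀(N)[n]`. -/
theorem torsionInertiaUnipotent_all (N : ℕ) [NeZero N] : TorsionInertiaUnipotent N :=
  torsionInertiaUnipotent_of_inertiaPowSq (inertiaPowSq_all N)

/-- **S34** (the frozen statement, as a proposition). -/
theorem s34Statement_final : Fermat.Agent.S34.S34Statement :=
  s34Statement_of_interfaces (fun N _ =>
    ⟨Fermat.Agent.F3W.eigenclassPadic_of_kappaAllW (Fermat.Agent.F3I2.kappaAll N),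
      Fermat.Agent.F3TF.torsionFinite N,
      Fermat.Agent.GaussInt.torsionUnramified_of_keyLemmaAt (Fermat.Agent.GaussInt.keyLemmaAt_all N),
      Fermat.Agent.GaussIntFP.torsionFrobQuadratic_of_keyLemmaAt
        (Fermat.Agent.GaussInt.keyLemmaAt_all N) (Fermat.Agent.F3W.heckeInputs_all N),
      Fermat.Agent.F3.torsionOpenStab N, Fermat.Agent.F3G.heckeGaloisComm N,
      torsionInertiaUnipotent_all N⟩)

end Fermat.Agent.BadRed
end
end MergeWrap_Lib_BadRed_Final_Main
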