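import Mathlib
import Fermat.Agent.MU.Lib.BadRed.Bridge.P1
import Fermat.Agent.MU.Lib.BadRed.Nodal.Deuring2.Main
import Fermat.Agent.MU.Lib.BadRed.Mod.GaloisSemi
import Fermat.Agent.MU.Lib.BadRed.Mod.FrobFix
import Fermat.Agent.MU.Lib.BadRed.Final.Sep
import Fermat.Agent.MU.Lib.BadRed.Mod.OldSep
import Fermat.Agent.MU.Lib.BadRed.Mod.UHyp
import Fermat.Agent.MU.Lib.BadRed.Mod.SSDeg
import Fermat.Agent.MU.Lib.BadRed.Mod.UCuspDegFinal
import Fermat.Agent.MU.Lib.BadRed.Mod.SeedOfU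
import Fermat.Agent.MU.Lib.BadRed.Mod.GaussSetupFinal
import Fermat.Agent.MU.Lib.BadRed.Bridge.AuxLevel

section MergeWrap_Lib_BadRed_Bridge_P2Mod -- from Lib/BadRed/Bridge/P2Mod.lean

set_option autoImplicit false
set_option linter.style.haveILetI false
set_option linter.unusedSectionVars false
set_option linter.unusedVariables false
set_option synthInstance.maxHeartbeats 400000
set_option maxHeartbeats 1000000

/-!
# Cluster T / S35, WP P2m: the square of a Frobenius element is Frobenius-like for the modular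
nodal package  (helper18)

Setting: `N = Q R`, `Q = q` prime, `q ∤ R`, `A` a place of `ℚ̄` over `q`, `k` its residue field,
`Fk = F_k(R)`.  `N` is ANY seed (`NodalSeed`) on `F_N / ℚ̄` such that

* `N.S₁` is the Gauss constant reduction `v_∞` (`IsGaussSetup`), `N.S₂` is its transport by the
  Atkin-Lehner involution (`hmem₂`, `hred₂`; `rfl` for `valSetupZero D S`);
* `D₀ = (x)_∞`, `R₁ = (red₁ x)_∞`, `R₂ = (red₂ x)_∞` for the seed function `x = u + q¹² / u`
  (`rfl` for `seedOfU`);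
* the nodes are the zeros of `ū = red₁ u` (the supersingular points), and `s₂ i = Φ⁻¹ • s₁ i`,
  `Φ = frobAut` the coefficientwise Frobenius of `Fk`;
* the genus of `X₀(R)` is the genus of its reduction (as in `Mod/OldSep.lean`).

Results, for a Frobenius element `φ` at `A`:

* `p2m_isSemiAut` : `arithmeticGalois φ` is a semilinear automorphism of the seed over `(Φ, Φ)`;
* `p2m_frob_sq_node₁/₂` : `Φ²` fixes every node (the node condition for the old functions
  `w (α g₀)` + separation of the non-cuspidal places by old functions, `Mod/FrobFix.lean`);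
* `p2m_isFrobLike` : `Gluing.IsFrobLike N.nodalSetup (arithmeticGalois (φ * φ)) (q ^ 2) Φ² Φ²`;
* `p2m_isInertial` : the inertia group at `A` is inertial for `N.nodalSetup`.
-/

noncomputable section

open AlgebraicCurve ModularCurve Fermat.Agent.RR Fermat.Agent.Deuring Fermat.Agent.GaussInt
  Fermat.Agent.AtkinLehner Fermat.Agent.F3 Fermat.Agent.F3G

namespace Fermat.Agent.BadRed

/-! ### a general lemma on Riemann-Roch spaces -/

section Abstract

variable {K F : Type*} [Field K] [Field F] [Algebra K F]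

/-- a function whose poles lie in the support of `D₀ ≥ 0` belongs to `L(m D₀)`, `m ≫ 0`. -/
theorem p2m_exists_mem_smul (h : IsRRField K F) {D₀ : Divisor K F} (hD₀ : 0 ≤ D₀) (f : F)
    (hf : ∀ v : Place K F, D₀ v = 0 → 0 ≤ v.ord f) :
    ∃ m : ℕ, f ∈ riemannRochSpace (m • D₀) := by
  classical
  obtain ⟨m, hm⟩ : ∃ m : ℕ, ∀ v : Place K F, -(m : ℤ) ≤ v.ord f := by
    refine ⟨∑ v ∈ (divOf h f).support, (v.ord f).natAbs, fun v => ?_⟩
    by_cases hs : v ∈ (divOf h f).support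
    · have h2 : (v.ord f).natAbs ≤ ∑ w ∈ (divOf h f).support, (w.ord f).natAbs :=
        Finset.single_le_sum (f := fun w : Place K F => (w.ord f).natAbs)
          (fun _ _ => Nat.zero_le _) hs
      have h3 : ((v.ord f).natAbs : ℤ) ≤
          ((∑ w ∈ (divOf h f).support, (w.ord f).natAbs : ℕ) : ℤ) := Int.ofNat_le.mpr h2
      have h5 : -((v.ord f).natAbs : ℤ) ≤ v.ord f := by
        have := neg_abs_le (v.ord f)
        rwa [Int.abs_eq_natAbs] at this
      exact le_trans (neg_le_neg h3) h5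
    · have h2 : v.ord f = 0 := by
        rw [Finsupp.mem_support_iff, divOf_apply, not_not] at hs
        exact hs
      rw [h2]
      exact neg_nonpos.mpr (Int.natCast_nonneg _)
  refine ⟨m, ?_⟩
  rw [mem_riemannRochSpace_iff]
  intro v
  right
  rw [Finsupp.smul_apply, nsmul_eq_mul]
  by_cases hv : D₀ v = 0
  · rw [hv, mul_zero, neg_zero]
    exact hf v hv
  · have h0 : 0 ≤ D₀ v := by
      have := (Finsupp.le_def.mp hD₀) v
      simpa using this
    have h1 : 1 ≤ D₀ v := by omega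
    have h4 : (m : ℤ) ≤ (m : ℤ) * D₀ v := le_mul_of_one_le_right (Int.natCast_nonneg _) h1
    have h6 := hm v
    generalize D₀ v = d at h4 ⊢
    generalize v.ord f = o at h6 ⊢
    generalize (m : ℤ) * d = e at h4 ⊢
    omega

/-- a group identity. -/
theorem p2m_group_id {G : Type*} [Group G] (a : G) : a * a * a⁻¹ = a⁻¹ * (a * a) := by
  group

end Abstract

/-! ### the modular setting -/

section Modular

local notation "Qb" => AlgebraicClosure ℚ

variable (D : ALData) [NeZero D.Q] [NeZero D.R] [NeZero (D.Q * D.R)]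
  {A : ValuationSubring Qb}

/-- the seed function `x = u + q¹² / u`. -/
def p2mX : FBar (D.Q * D.R) :=
  uF (D.Q * D.R) D.Q (Dvd.intro _ rfl) +
    algebraMap Qb (FBar (D.Q * D.R)) ((D.Q : Qb) ^ 12) / uF (D.Q * D.R) D.Q (Dvd.intro _ rfl)

theorem p2mX_def : p2mX D = uF (D.Q * D.R) D.Q (Dvd.intro _ rfl) +
    algebraMap Qb (FBar (D.Q * D.R)) ((D.Q : Qb) ^ 12) / uF (D.Q * D.R) D.Q (Dvd.intro _ rfl) :=
  rfl

/-- the seed function is invariant under `w_Q`. -/
theorem atkinLehner_p2mX : atkinLehner D (p2mX D) = p2mX D := by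
  have hc : algebraMap Qb (FBar (D.Q * D.R)) ((D.Q : Qb) ^ 12) =
      (D.Q : modularFunctionFieldBar (D.Q * D.R)) ^ 12 := by
    rw [map_pow, map_natCast]
  rw [p2mX_def, map_add, atkinLehner_varpi_div_uF, atkinLehner_uF, hc, add_comm]

/-- the seed function is fixed by the Galois action. -/
theorem arithmeticGalois_smul_p2mX (σ : Qb ≃ₐ[ℚ] Qb) :
    arithmeticGalois (modularFunctionFieldFull (D.Q * D.R)) σ • p2mX D = p2mX D :=
  arithmeticGalois_smul_seedFun_pow (D.Q * D.R) D.Q (Dvd.intro _ rfl) σ 12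

/-- `w_Q u = q¹² / u`, with the constant written as `algebraMap`. -/
theorem atkinLehner_uF_algebraMap :
    atkinLehner D (uF (D.Q * D.R) D.Q (Dvd.intro _ rfl)) =
      algebraMap Qb (FBar (D.Q * D.R)) ((D.Q : Qb) ^ 12) /
        uF (D.Q * D.R) D.Q (Dvd.intro _ rfl) := by
  have h := congrArg (atkinLehner D) (atkinLehner_varpi_div_uF D)
  rw [atkinLehner_atkinLehner] at h
  exact h.symm

/-- `w_Q` preserves the set of places where `u` is a unit. -/
theorem ord_uF_wAut_smul (v : Place Qb (FBar (D.Q * D.R))) :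
    (wAut D • v).ord (uF (D.Q * D.R) D.Q (Dvd.intro _ rfl)) =
      -v.ord (uF (D.Q * D.R) D.Q (Dvd.intro _ rfl)) := by
  have hc : algebraMap Qb (FBar (D.Q * D.R)) ((D.Q : Qb) ^ 12) ≠ 0 :=
    (_root_.map_ne_zero _).mpr (natCast_pow_ne_zero D.Q 12)
  rw [ord_wAut_smul, atkinLehner_uF_algebraMap, div_eq_mul_inv,
    v.ord_mul hc (inv_ne_zero (uF_ne_zero _ _ _)), Fermat.Agent.S24Res.ord_algebraMap, zero_add,
    v.ord_inv]

variable (hq : D.Q.Prime) (hA : A.LiesOverPrime D.Q) (hqR : ¬ D.Q ∣ D.R)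
  {ι : Type*} [Fintype ι]
  (N : NodalSeed Qb (FBar (D.Q * D.R)) (IsLocalRing.ResidueField A)
    (modularFunctionFieldFullC (IsLocalRing.ResidueField A) D.R)
    (modularFunctionFieldFullC (IsLocalRing.ResidueField A) D.R) ι)
  (hS : IsGaussSetup (D.Q * D.R) D.R A N.S₁)
  (hmem₂ : ∀ f : FBar (D.Q * D.R), f ∈ N.S₂.Ov ↔ atkinLehner D f ∈ N.S₁.Ov)
  (hred₂ : ∀ f : FBar (D.Q * D.R), f ∈ N.S₂.Ov → N.S₂.red f = N.S₁.red (atkinLehner D f))
  (hD : N.D₀ = poleDiv N.S₁.hF (p2mX D))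
  (hR₁ : N.R₁ = poleDiv N.S₁.hFk (N.S₁.red (p2mX D)))
  (hR₂ : N.R₂ = poleDiv N.S₂.hFk (N.S₂.red (p2mX D)))

include hq hA hS in
/-- the seed function is integral for `v_∞`. -/
theorem p2mX_mem₁ : p2mX D ∈ N.S₁.Ov :=
  (SeedPoles.red_add_div N.S₁ (natCast_pow_mem D.Q N.S₁.A 12)
    (res_natCast_pow hS D.Q hA (by norm_num) _)
    (red_uF_ne_zero hS D.Q (Dvd.intro _ rfl) hq.two_le)).2.2.1

include hq hA hS hmem₂ in
/-- the seed function is integral for `v_0`. -/
theorem p2mX_mem₂ : p2mX D ∈ N.S₂.Ov := by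
  rw [hmem₂, atkinLehner_p2mX]
  exact p2mX_mem₁ D hq hA N hS

/-! ### the Galois action on the seed -/

include hS hmem₂ in
/-- a Galois element preserving `O_∞` preserves `O_0`. -/
theorem p2m_mem₂_galois (σ : Qb ≃ₐ[ℚ] Qb)
    (hm : ∀ f, f ∈ N.S₁.Ov →
      arithmeticGalois (modularFunctionFieldFull (D.Q * D.R)) σ • f ∈ N.S₁.Ov)
    (f : FBar (D.Q * D.R)) (hf : f ∈ N.S₂.Ov) :
    arithmeticGalois (modularFunctionFieldFull (D.Q * D.R)) σ • f ∈ N.S₂.Ov := by
  rw [hmem₂, atkinLehner_galois_smul]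
  exact hm _ ((hmem₂ f).mp hf)

include hS hmem₂ hred₂ in
/-- a Galois element acting through `τ` on the reductions for `v_∞` acts through `τ` on the
reductions for `v_0`. -/
theorem p2m_red₂_galois (σ : Qb ≃ₐ[ℚ] Qb)
    (τ : modularFunctionFieldFullC (IsLocalRing.ResidueField A) D.R →
      modularFunctionFieldFullC (IsLocalRing.ResidueField A) D.R)
    (hm : ∀ f, f ∈ N.S₁.Ov →
      arithmeticGalois (modularFunctionFieldFull (D.Q * D.R)) σ • f ∈ N.S₁.Ov)
    (hr : ∀ f, f ∈ N.S₁.Ov →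
      N.S₁.red (arithmeticGalois (modularFunctionFieldFull (D.Q * D.R)) σ • f) =
        τ (N.S₁.red f))
    (f : FBar (D.Q * D.R)) (hf : f ∈ N.S₂.Ov) :
    N.S₂.red (arithmeticGalois (modularFunctionFieldFull (D.Q * D.R)) σ • f) =
      τ (N.S₂.red f) := by
  rw [hred₂ _ (p2m_mem₂_galois D N hS hmem₂ σ hm f hf), hred₂ f hf, atkinLehner_galois_smul]
  exact hr _ ((hmem₂ f).mp hf)

include hq hA hS hmem₂ hred₂ hD in
/-- **inertia is inertial** for the nodal package of the seed. -/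
theorem p2m_isInertial [Infinite (IsLocalRing.ResidueField A)] (τ : Qb ≃ₐ[ℚ] Qb)
    (hτ : τ ∈ A.inertiaSubgroupIn ℚ) :
    N.nodalSetup.IsInertial (arithmeticGalois (modularFunctionFieldFull (D.Q * D.R)) τ) := by
  have hm₁ := fun f hf => hS.mem_of_inertia τ hτ f hf
  have hr₁ := fun f hf => hS.red_inertia τ hτ f hf
  refine N.nodalSetup_isInertial _ hm₁ hr₁ (p2m_mem₂_galois D N hS hmem₂ τ hm₁)
    (p2m_red₂_galois D N hS hmem₂ hred₂ τ id hm₁ hr₁) (fun P => ?_)
  rw [hD]
  exact cs_poleDiv_smul N.S₁.hF _ (arithmeticGalois_smul_p2mX D τ) P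

variable [Fact D.Q.Prime] [CharP (IsLocalRing.ResidueField A) D.Q]
  [PerfectRing (IsLocalRing.ResidueField A) D.Q]
  (hs₁ : ∀ i, 0 < (N.s₁ i).ord (N.S₁.red (uF (D.Q * D.R) D.Q (Dvd.intro _ rfl))))
  (hz₁ : ∀ Q : Place (IsLocalRing.ResidueField A)
      (modularFunctionFieldFullC (IsLocalRing.ResidueField A) D.R),
    0 < Q.ord (N.S₁.red (uF (D.Q * D.R) D.Q (Dvd.intro _ rfl))) → ∃ i, Q = N.s₁ i)
  (hs : ∀ i, N.s₂ i = (frobAut (IsLocalRing.ResidueField A) D.R D.Q)⁻¹ • N.s₁ i)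

include hq hA hS hmem₂ hred₂ hD hR₁ hR₂ hs₁ hz₁ hs in
/-- **a Frobenius element is a semilinear automorphism of the seed**, over the coefficientwise
Frobenius on both components. -/
theorem p2m_isSemiAut (φ : Qb ≃ₐ[ℚ] Qb) (hφ : A.IsFrobeniusAt φ D.Q) :
    N.IsSemiAut (arithmeticGalois (modularFunctionFieldFull (D.Q * D.R)) φ)
      (frobAut (IsLocalRing.ResidueField A) D.R D.Q)
      (frobAut (IsLocalRing.ResidueField A) D.R D.Q) := by
  have hm₁ := fun f hf => hS.mem_of_frob φ hφ f hf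
  have hr₁ := fun f hf => hS.red_frob φ hφ f hf
  have hfixu : frobAut (IsLocalRing.ResidueField A) D.R D.Q •
      N.S₁.red (uF (D.Q * D.R) D.Q (Dvd.intro _ rfl)) =
      N.S₁.red (uF (D.Q * D.R) D.Q (Dvd.intro _ rfl)) := by
    rw [← hr₁ _ (uF_mem_Ov hS D.Q _), arithmeticGalois_smul_uF]
  have hn₁ := cs_node_stable_of_zeros (frobAut (IsLocalRing.ResidueField A) D.R D.Q) N.s₁ _
    hfixu hs₁ hz₁
  refine NodalSeed.isSemiAut_of_poleDiv N (p2mX_mem₁ D hq hA N hS)
    (p2mX_mem₂ D hq hA N hS hmem₂) hD hR₁ hR₂ hm₁ hr₁ (p2m_mem₂_galois D N hS hmem₂ φ hm₁)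
    (p2m_red₂_galois D N hS hmem₂ hred₂ φ _ hm₁ hr₁) (arithmeticGalois_smul_p2mX D φ) hn₁ ?_
  intro i
  obtain ⟨j, hj⟩ := hn₁ i
  refine ⟨j, ?_⟩
  rw [hs i, hs j, smul_inv_smul, ← hj, inv_smul_smul]

/-! ### the node condition for the old functions `w (α g₀)` -/

include hq hA hS hmem₂ hred₂ hD in
/-- **the node condition for `w (α g₀)`**: `ḡ₀(Φ s₁ i) = ḡ₀(s₂ i)`, in the form
`((Φ⁻¹ ḡ₀) ^ q)(s₁ i) = ḡ₀(s₂ i)`. -/
theorem p2m_node (g₀ : modularFunctionFieldBar D.R)
    (hg₀ : g₀ ∈ (modularValSetup A D.Q D.R hq hA hqR).Ov)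
    (hpole : ∀ v : Place Qb (modularFunctionFieldBar D.R),
      0 ≤ v.ord (Fermat.Agent.S24.jBar D.R) → 0 ≤ v.ord g₀) (i : ι) :
    ∃ c : IsLocalRing.ResidueField A,
      ValAt (N.s₁ i) (((frobAut (IsLocalRing.ResidueField A) D.R D.Q)⁻¹ •
        (modularValSetup A D.Q D.R hq hA hqR).red g₀) ^ D.Q) c ∧
      ValAt (N.s₂ i) ((modularValSetup A D.Q D.R hq hA hqR).red g₀) c := by
  have hf₁ : atkinLehner D (alphaQ D g₀) ∈ N.S₁.Ov :=
    (mem_valSetupZero_Ov D N.S₁ _).mp (alphaQ_mem_Ov_zero D A hq hA hqR N.S₁ hS g₀ hg₀)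
  have hwf : atkinLehner D (atkinLehner D (alphaQ D g₀)) = alphaQ D g₀ :=
    atkinLehner_atkinLehner D _
  have hf₂ : atkinLehner D (alphaQ D g₀) ∈ N.S₂.Ov := by
    rw [hmem₂, hwf]
    exact alphaQ_mem_Ov D A hq hA hqR N.S₁ hS g₀ hg₀
  have hr₁ : N.S₁.red (atkinLehner D (alphaQ D g₀)) =
      ((frobAut (IsLocalRing.ResidueField A) D.R D.Q)⁻¹ •
        (modularValSetup A D.Q D.R hq hA hqR).red g₀) ^ D.Q := by
    rw [← red_zero_alphaQ_eq_pow D A hq hA hqR N.S₁ hS g₀ hg₀, valSetupZero_red]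
  have hr₂ : N.S₂.red (atkinLehner D (alphaQ D g₀)) =
      (modularValSetup A D.Q D.R hq hA hqR).red g₀ := by
    rw [hred₂ _ hf₂, hwf, red_alphaQ D A hq hA hqR N.S₁ hS g₀ hg₀]
  -- the poles of `w (α g₀)` are zeros or poles of `u`
  have hcusp : ∀ v : Place Qb (FBar (D.Q * D.R)), N.D₀ v = 0 →
      0 ≤ v.ord (atkinLehner D (alphaQ D g₀)) := by
    intro v hv
    rw [hD, p2mX_def, SeedPoles.poleDiv_add_div N.S₁.hF
      (uF_ne_zero (D.Q * D.R) D.Q (Dvd.intro _ rfl)) (natCast_pow_ne_zero D.Q 12),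
      Finsupp.add_apply, poleDiv_apply, poleDiv_apply, v.ord_inv, neg_neg] at hv
    have hu0 : v.ord (uF (D.Q * D.R) D.Q (Dvd.intro _ rfl)) = 0 := by
      rcases max_cases (-(v.ord (uF (D.Q * D.R) D.Q (Dvd.intro _ rfl)))) 0 with ⟨h1, _⟩ | ⟨h1, _⟩ <;>
        rcases max_cases (v.ord (uF (D.Q * D.R) D.Q (Dvd.intro _ rfl))) 0 with ⟨h2, _⟩ | ⟨h2, _⟩ <;>
        omega
    rw [← ord_wAut_smul]
    apply ord_alphaQ_nonneg D g₀ hpole
    by_contra hneg
    apply (ord_jBar_neg_iff_uF hq (Dvd.intro _ rfl) (wAut D • v)).mp (not_le.mp hneg)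
    rw [ord_uF_wAut_smul, hu0, neg_zero]
  obtain ⟨m, hm⟩ := p2m_exists_mem_smul N.S₁.hF N.D₀_nonneg _ hcusp
  obtain ⟨c, hc₁, hc₂⟩ := (mem_nodalRR.mp (N.seed m _ hm hf₁ hf₂)).2.2 i
  refine ⟨c, ?_, ?_⟩
  · rw [← hr₁]
    exact hc₁
  · rw [← hr₂]
    exact hc₂

/-! ### the square of the Frobenius fixes the nodes -/

include hq hA hS hs₁ in
/-- the nodes of the first component, and their images by `Φ`, are not cusps. -/
theorem p2m_reg₁ (i : ι) :
    0 ≤ (frobAut (IsLocalRing.ResidueField A) D.R D.Q • N.s₁ i).ord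
      (Fermat.Agent.RRMod.jC (IsLocalRing.ResidueField A) D.R) := by
  have hh := coe_red_uF hS D.Q (Dvd.intro _ rfl) hq hA
  refine ord_jC_nonneg_of_ss_zero D.R hq hA _ hh _ ?_
  rw [ord_frobAut_smul_pos_iff (IsLocalRing.ResidueField A) D.R D.Q D.Q hh]
  exact hs₁ i

include hq hA hS hs₁ hs in
/-- the nodes of the second component are not cusps. -/
theorem p2m_reg₂ (i : ι) :
    0 ≤ (N.s₂ i).ord (Fermat.Agent.RRMod.jC (IsLocalRing.ResidueField A) D.R) := by
  have hh := coe_red_uF hS D.Q (Dvd.intro _ rfl) hq hA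
  rw [hs i]
  refine ord_jC_nonneg_of_ss_zero D.R hq hA _ hh _ ?_
  rw [ord_frobAut_inv_smul_pos_iff (IsLocalRing.ResidueField A) D.R D.Q D.Q hh]
  exact hs₁ i

/-- the reductions of the integral old functions with poles at the cusps only. -/
def p2mOld : Set (modularFunctionFieldFullC (IsLocalRing.ResidueField A) D.R) :=
  {y | ∃ g₀ : modularFunctionFieldBar D.R, g₀ ∈ (modularValSetup A D.Q D.R hq hA hqR).Ov ∧
    (∀ v : Place Qb (modularFunctionFieldBar D.R),
      0 ≤ v.ord (Fermat.Agent.S24.jBar D.R) → 0 ≤ v.ord g₀) ∧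
    y = (modularValSetup A D.Q D.R hq hA hqR).red g₀}

include hq hA hqR hS hmem₂ hred₂ hD hs₁ hs in
/-- **`Φ²` fixes the nodes of the first component.** -/
theorem p2m_frob_sq_node₁
    (hg : genusFF Qb (modularFunctionFieldBar D.R) =
      genusFF (IsLocalRing.ResidueField A)
        (modularFunctionFieldFullC (IsLocalRing.ResidueField A) D.R)) (i : ι) :
    (frobAut (IsLocalRing.ResidueField A) D.R D.Q *
      frobAut (IsLocalRing.ResidueField A) D.R D.Q) • N.s₁ i = N.s₁ i := by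
  refine frob_sq_smul_node₁ (frobAut (IsLocalRing.ResidueField A) D.R D.Q) hq.ne_zero N.s₁ N.s₂
    hs (p2mOld D hq hA hqR) ?_
    (fun Q => 0 ≤ Q.ord (Fermat.Agent.RRMod.jC (IsLocalRing.ResidueField A) D.R)) ?_
    (p2m_reg₁ D hq hA N hS hs₁) (p2m_reg₂ D hq hA N hS hs₁ hs) i
  · rintro y ⟨g₀, hg₀, hpole, rfl⟩ j
    exact p2m_node D hq hA hqR N hS hmem₂ hred₂ hD g₀ hg₀ hpole j
  · intro Q Q' hQ hQ' hne
    obtain ⟨g₀, h1, h2, -, h4, h5⟩ := exists_oldSep_two A D.Q D.R hq hA hqR hg hne hQ hQ'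
    exact ⟨_, ⟨g₀, h1, h2, rfl⟩, h4, h5⟩

include hq hA hqR hS hmem₂ hred₂ hD hs₁ hs in
/-- **`Φ²` fixes the nodes of the second component.** -/
theorem p2m_frob_sq_node₂
    (hg : genusFF Qb (modularFunctionFieldBar D.R) =
      genusFF (IsLocalRing.ResidueField A)
        (modularFunctionFieldFullC (IsLocalRing.ResidueField A) D.R)) (i : ι) :
    (frobAut (IsLocalRing.ResidueField A) D.R D.Q *
      frobAut (IsLocalRing.ResidueField A) D.R D.Q) • N.s₂ i = N.s₂ i := by
  have h := p2m_frob_sq_node₁ D hq hA hqR N hS hmem₂ hred₂ hD hs₁ hs hg i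
  rw [hs i, ← mul_smul, p2m_group_id, mul_smul, h]

/-- `Φ²` raises the constants to the power `q²`. -/
theorem p2m_baseAut_sq (c : IsLocalRing.ResidueField A) :
    SemilinearAut.baseAut (frobAut (IsLocalRing.ResidueField A) D.R D.Q *
      frobAut (IsLocalRing.ResidueField A) D.R D.Q) c = c ^ (D.Q ^ 2) := by
  rw [SemilinearAut.baseAut_mul, RingAut.mul_apply, baseAut_frobAut_apply,
    baseAut_frobAut_apply, ← pow_mul, sq]

/-! ### the main statement -/

include hq hA hqR hS hmem₂ hred₂ hD hR₁ hR₂ hs₁ hz₁ hs in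
/-- **P2m**: the square of a Frobenius element at `A` is Frobenius-like, with `Q = q²`, for the
nodal package of the modular seed. -/
theorem p2m_isFrobLike [Infinite (IsLocalRing.ResidueField A)]
    (hg : genusFF Qb (modularFunctionFieldBar D.R) =
      genusFF (IsLocalRing.ResidueField A)
        (modularFunctionFieldFullC (IsLocalRing.ResidueField A) D.R))
    (φ : Qb ≃ₐ[ℚ] Qb) (hφ : A.IsFrobeniusAt φ D.Q) :
    Gluing.IsFrobLike N.nodalSetup
      (arithmeticGalois (modularFunctionFieldFull (D.Q * D.R)) (φ * φ)) (D.Q ^ 2)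
      (SemilinearAut.toRingAut (frobAut (IsLocalRing.ResidueField A) D.R D.Q *
        frobAut (IsLocalRing.ResidueField A) D.R D.Q) :
        modularFunctionFieldFullC (IsLocalRing.ResidueField A) D.R →+*
          modularFunctionFieldFullC (IsLocalRing.ResidueField A) D.R)
      (SemilinearAut.toRingAut (frobAut (IsLocalRing.ResidueField A) D.R D.Q *
        frobAut (IsLocalRing.ResidueField A) D.R D.Q) :
        modularFunctionFieldFullC (IsLocalRing.ResidueField A) D.R →+*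
          modularFunctionFieldFullC (IsLocalRing.ResidueField A) D.R) := by
  have h := p2m_isSemiAut D hq hA N hS hmem₂ hred₂ hD hR₁ hR₂ hs₁ hz₁ hs φ hφ
  have h2 := h.mul h
  have e : arithmeticGalois (modularFunctionFieldFull (D.Q * D.R)) (φ * φ) =
      arithmeticGalois (modularFunctionFieldFull (D.Q * D.R)) φ *
        arithmeticGalois (modularFunctionFieldFull (D.Q * D.R)) φ := map_mul _ _ _
  rw [e]
  exact N.nodalType.isFrobLike N.nodalType.push₁ N.nodalType.push₂ h2 (D.Q ^ 2)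
    (p2m_baseAut_sq D) (p2m_baseAut_sq D)
    (p2m_frob_sq_node₁ D hq hA hqR N hS hmem₂ hred₂ hD hs₁ hs hg)
    (p2m_frob_sq_node₂ D hq hA hqR N hS hmem₂ hred₂ hD hs₁ hs hg)

end Modular

end Fermat.Agent.BadRed
end
end MergeWrap_Lib_BadRed_Bridge_P2Mod

section MergeWrap_Lib_BadRed_Final_FrobKey -- from Lib/BadRed/Final/FrobKey.lean

set_option autoImplicit false
set_option linter.style.haveILetI false
set_option linter.unusedSectionVars false
set_option linter.unusedVariables false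
set_option synthInstance.maxHeartbeats 400000
set_option maxHeartbeats 1000000

/-!
# Cluster T / S35, final wiring of (P2): the Frobenius toric key  (helper18)

* `fw_frobSq` : the squares of the Frobenius elements at `A` are Frobenius-like (with `Q = q²`)
  for the modular nodal package `fwModularNodal` (`Bridge/P2Mod.lean` applied to `fwSeed`);
* `fw_keyConcl` : the conclusion of the nodal key lemma for `fwModularNodal`;
* `exists_modularNodal_frobSq` : the input of `frobToricKeyAt_of_modularNodal`;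
* `frobToricKeyAt_of_auxOK : AuxOK D → FrobToricKeyAt D`.
-/

noncomputable section

namespace Fermat.Agent.BadRed

open IntermediateField ModularCurve AlgebraicCurve Fermat.Agent.F3 Fermat.Agent.F3G
  Fermat.Agent.GaussInt Fermat.Agent.AtkinLehner Fermat.Agent.Deuring Fermat.Agent.RR

local notation "Qb" => AlgebraicClosure ℚ

attribute [local instance] fwFintype

section

variable (D : ALData) [NeZero D.Q] [NeZero D.R] [NeZero (D.Q * D.R)]
  (A : ValuationSubring Qb) (hq : D.Q.Prime) (hA : A.LiesOverPrime D.Q) (hqR : ¬ D.Q ∣ D.R)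
  (S : ValSetup Qb (modularFunctionFieldBar (D.Q * D.R)) (IsLocalRing.ResidueField A)
    (modularFunctionFieldFullC (IsLocalRing.ResidueField A) D.R))
  (hS : IsGaussSetup (D.Q * D.R) D.R A S) (hL : HasLattice S)
  [Fact D.Q.Prime] [CharP (IsLocalRing.ResidueField A) D.Q]
  [PerfectRing (IsLocalRing.ResidueField A) D.Q]

/-- **the squares of the Frobenius elements are Frobenius-like** for the modular nodal
package. -/
theorem fw_frobSq (haux : AuxLevelOK D.Q D.R) (hsep : FwSep D A S) :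
    (fwModularNodal D A hq hA hqR S hS hL haux hsep).FrobSq := by
  haveI := infinite_residue A
  intro φ hφ
  exact ⟨_, _, p2m_isFrobLike D hq hA hqR (fwSeed D A hq hA hqR S hS hL haux hsep) hS
    (fun f => Iff.rfl) (fun f _ => valSetupZero_red D S f) rfl rfl rfl (fun i => i.2)
    (fun Q hQ => ⟨⟨Q, hQ⟩, rfl⟩) (fun i => rfl) (genusFF_eq_of_aux D.R hq hqR haux hA) φ hφ⟩

/-- the conclusion of the nodal key lemma for the modular nodal package. -/
theorem fw_keyConcl (haux : AuxLevelOK D.Q D.R) (hsep : FwSep D A S) :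
    Gluing.KeyConcl (fwModularNodal D A hq hA hqR S hS hL haux hsep).N := by
  haveI := infinite_residue A
  haveI := Fermat.Agent.GaussInt.isAlgClosed_residue A
  haveI := fw_nonempty D A hq hA S hS
  exact Gluing.keyConcl_of_lift (fwSeed D A hq hA hqR S hS hL haux hsep).nodalSetup
    (fwSeed D A hq hA hqR S hS hL haux hsep).D₀ (fwSeed D A hq hA hqR S hS hL haux hsep).R₁
    (fwSeed D A hq hA hqR S hS hL haux hsep).R₂
    (fwSeed D A hq hA hqR S hS hL haux hsep).nodalSetup_genusRel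
    (fwSeed D A hq hA hqR S hS hL haux hsep).R₁_pos
    (fwSeed D A hq hA hqR S hS hL haux hsep).R₂_pos
    (fwSeed D A hq hA hqR S hS hL haux hsep).R₁_node
    (fwSeed D A hq hA hqR S hS hL haux hsep).R₂_node
    (fwSeed D A hq hA hqR S hS hL haux hsep).nodalSetup_hasLift

end

/-- `Q ∤ R` for an Atkin-Lehner datum with `Q` prime. -/
theorem fk_not_dvd (D : ALData) (hQ : D.Q.Prime) : ¬ D.Q ∣ D.R := by
  intro h
  have h1 : (D.Q : ℤ) ∣ (D.R : ℤ) := Int.natCast_dvd_natCast.mpr h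
  have h2 : (D.Q : ℤ) ∣ (D.Q : ℤ) * D.a - (D.R : ℤ) * D.b :=
    dvd_sub (dvd_mul_right _ _) (Dvd.dvd.mul_right h1 _)
  rw [D.hdet] at h2
  have h3 : D.Q ∣ 1 := Int.natCast_dvd_natCast.mp (by simpa using h2)
  exact hQ.one_lt.ne' (Nat.dvd_one.mp h3)

/-- **the modular nodal package with Frobenius-like `φ²`** (input of
`frobToricKeyAt_of_modularNodal`). -/
theorem exists_modularNodal_frobSq (D : ALData) (hQ : D.Q.Prime) (haux : AuxLevel.AuxOK D)
    (A : ValuationSubring Qb) (hA : A.LiesOverPrime D.Q) :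
    Infinite (IsLocalRing.ResidueField A) ∧
      ∃ M : ModularNodal D A, Gluing.KeyConcl M.N ∧ M.FrobSq := by
  haveI : NeZero D.Q := ⟨hQ.ne_zero⟩
  haveI : NeZero D.R := ⟨D.hR.ne'⟩
  haveI : NeZero (D.Q * D.R) := ⟨mul_ne_zero hQ.ne_zero D.hR.ne'⟩
  haveI : Fact D.Q.Prime := ⟨hQ⟩
  haveI : CharP (IsLocalRing.ResidueField A) D.Q :=
    Fermat.Agent.FrobTrace.charP_residueField A hA
  haveI : IsAlgClosed (IsLocalRing.ResidueField A) := Fermat.Agent.GaussInt.isAlgClosed_residue A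
  haveI : PerfectRing (IsLocalRing.ResidueField A) D.Q := inferInstance
  have hqR := fk_not_dvd D hQ
  have hS := isGaussSetup_gaussSetupBad D hQ hqR A hA
  have hL := hasLattice_gaussSetupBad D hQ hqR A hA
  have haux' : AuxLevelOK D.Q D.R := haux
  have hsep := fw_sep D A hQ hA hqR _ hS haux'
  exact ⟨infinite_residue A, fwModularNodal D A hQ hA hqR _ hS hL haux' hsep,
    fw_keyConcl D A hQ hA hqR _ hS hL haux' hsep, fw_frobSq D A hQ hA hqR _ hS hL haux' hsep⟩

/-- **the Frobenius toric key** (function form of (P2)) at the Atkin-Lehner data with auxiliary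
level. -/
theorem frobToricKeyAt_of_auxOK (D : ALData) (haux : AuxLevel.AuxOK D) : FrobToricKeyAt D :=
  frobToricKeyAt_of_modularNodal D (fun hQ A hA => exists_modularNodal_frobSq D hQ haux A hA)

end Fermat.Agent.BadRed
end
end MergeWrap_Lib_BadRed_Final_FrobKey
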