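import Fermat.Agent.MU.Lib.BadRed.Mod.GaussSetup
import Fermat.Agent.MU.Lib.BadRed.Mod.UParamW
import Fermat.Agent.MU.Lib.BadRed.Mod.ValZero
import Fermat.Agent.Lib.FrobTrace.Residue
import Fermat.Agent.MU.Lib.BadRed.Mod.GaloisSemi
import Fermat.Agent.MU.Lib.BadRed.Mod.AuxUnified
import Fermat.Agent.MU.Lib.BadRed.Mod.UCuspDegFinal
import Fermat.Agent.MU.Lib.BadRed.Mod.SSDeg
import Fermat.Agent.MU.Lib.BadRed.Mod.SeedOfU
import Fermat.Agent.Lib.BadRed.Mod.Arch
import Fermat.Agent.Lib.BadRed.Mod.FrobAut
import Fermat.Agent.MU.Lib.BadRed.Nodal.Deuring2.Main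
import Fermat.Agent.MU.Lib.BadRed.Mod.GaussSetupFinal

section MergeWrap_Lib_BadRed_Final_UHyp -- from Lib/BadRed/Final/UHyp.lean

set_option autoImplicit false
set_option linter.style.haveILetI false
set_option linter.unusedSectionVars false
set_option synthInstance.maxHeartbeats 400000

/-!
# Cluster T, final wiring (helper81), part 1 (= leaf MA2): the parameter `u = Δ(z)/Δ(qz)`

For `hS : IsGaussSetup (q R) R A S`, `u = uF (q R) q`, `ϖ = q ^ 12`:
`u ∈ S.Ov`, `S.red u` has the expansion `ssFun k q`, `ϖ ∈ S.A`, `res ϖ = 0`,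
`ϖ / u ∈ (valSetupZero D S).Ov` and `(valSetupZero D S).red (ϖ / u) = S.red u`.
-/

noncomputable section

namespace Fermat.Agent.BadRed

open ModularCurve AlgebraicCurve Fermat.Agent.F3 Fermat.Agent.F3G Fermat.Agent.GaussInt
  Fermat.Agent.AtkinLehner Fermat.Agent.Deuring

local notation "Qb" => AlgebraicClosure ℚ

variable (D : ALData) [NeZero D.Q] [NeZero D.R] [NeZero (D.Q * D.R)]
  (A : ValuationSubring Qb) (hq : D.Q.Prime) (hA : A.LiesOverPrime D.Q)
  (S : ValSetup Qb (modularFunctionFieldBar (D.Q * D.R)) (IsLocalRing.ResidueField A)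
    (modularFunctionFieldFullC (IsLocalRing.ResidueField A) D.R))
  (hS : IsGaussSetup (D.Q * D.R) D.R A S)

/-- the parameter `u = Δ(z)/Δ(qz)` at level `q R`. -/
abbrev fwU : modularFunctionFieldBar (D.Q * D.R) := uF (D.Q * D.R) D.Q (Dvd.intro _ rfl)

theorem fw_coe_uF_eq_emb :
    ((fwU D : modularFunctionFieldBar (D.Q * D.R)) : LaurentSeries Qb) = emb A (uSer A D.Q) := by
  rw [coe_uF]
  exact (coeffMap_uSer (R := A) D.Q A.subtype).symm

include hS in
/-- `u` is integral for `v_∞`. -/
theorem fw_uF_mem : fwU D ∈ S.Ov := by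
  rw [hS.mem_iff, fw_coe_uF_eq_emb D A]
  apply emb_mem_gaussSub
  rw [← fw_coe_uF_eq_emb D A]
  exact (fwU D).2

include hS hq hA in
/-- the reduction of `u` is the supersingular function. -/
theorem fw_coe_red_uF :
    ((S.red (fwU D) : modularFunctionFieldFullC (IsLocalRing.ResidueField A) D.R) :
      LaurentSeries (IsLocalRing.ResidueField A)) = ssFun (IsLocalRing.ResidueField A) D.Q := by
  haveI : Fact D.Q.Prime := ⟨hq⟩
  haveI : CharP (IsLocalRing.ResidueField A) D.Q := Fermat.Agent.FrobTrace.charP_residueField A hA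
  rw [hS.coe_red _ (fw_uF_mem D A S hS), fw_coe_uF_eq_emb D A]
  have hmem : emb A (uSer A D.Q) ∈ modularFunctionFieldBar (D.Q * D.R) := by
    rw [← fw_coe_uF_eq_emb D A]
    exact (fwU D).2
  rw [gaussResFun_emb hmem]
  show coeffMap (IsLocalRing.residue A) (uSer A D.Q) = _
  rw [coeffMap_uSer, uSer_eq_ssFun]

/-- `ϖ = q ^ 12`. -/
abbrev fwPi : Qb := (D.Q : Qb) ^ 12

include hq in
theorem fw_pi_ne_zero : fwPi D ≠ 0 :=
  pow_ne_zero _ (by exact_mod_cast hq.ne_zero)

include hA in
theorem fw_pi_mem_A : fwPi D ∈ A :=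
  pow_mem (by exact_mod_cast (natCast_mem A D.Q)) 12

include hS hA in
theorem fw_pi_mem : fwPi D ∈ S.A := by
  rw [hS.A_eq]
  exact fw_pi_mem_A D A hA

include hS hq hA in
theorem fw_pi_res : S.res ⟨fwPi D, fw_pi_mem D A hA S hS⟩ = 0 := by
  haveI : Fact D.Q.Prime := ⟨hq⟩
  haveI : CharP (IsLocalRing.ResidueField A) D.Q := Fermat.Agent.FrobTrace.charP_residueField A hA
  rw [hS.res_eq _ _ (fw_pi_mem_A D A hA)]
  have h1 : (⟨fwPi D, fw_pi_mem_A D A hA⟩ : A) = ((D.Q : ℕ) : A) ^ 12 := by
    apply Subtype.ext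
    simp [fwPi]
  rw [h1, map_pow, map_natCast, CharP.cast_eq_zero, zero_pow (by norm_num)]

/-- `w_q (ϖ / u) = u`. -/
theorem fw_atkinLehner_pi_div :
    atkinLehner D (algebraMap Qb (modularFunctionFieldBar (D.Q * D.R)) (fwPi D) / fwU D)
      = fwU D := by
  rw [map_div₀, AlgEquiv.commutes, atkinLehner_uF]
  have h1 : algebraMap Qb (modularFunctionFieldBar (D.Q * D.R)) (fwPi D) =
      (D.Q : modularFunctionFieldBar (D.Q * D.R)) ^ 12 := by
    rw [fwPi, map_pow, map_natCast]
  have hne : (D.Q : modularFunctionFieldBar (D.Q * D.R)) ^ 12 ≠ 0 :=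
    pow_ne_zero _ (by exact_mod_cast NeZero.ne D.Q)
  rw [h1]
  exact div_div_cancel₀ hne

include hS in
/-- `ϖ / u` is integral for `v_0`. -/
theorem fw_pi_div_mem :
    algebraMap Qb (modularFunctionFieldBar (D.Q * D.R)) (fwPi D) / fwU D ∈ (valSetupZero D S).Ov := by
  rw [mem_valSetupZero_Ov, fw_atkinLehner_pi_div]
  exact fw_uF_mem D A S hS

/-- the `v_0`-reduction of `ϖ / u` is the `v_∞`-reduction of `u`. -/
theorem fw_red_pi_div :
    (valSetupZero D S).red (algebraMap Qb (modularFunctionFieldBar (D.Q * D.R)) (fwPi D) / fwU D)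
      = S.red (fwU D) := by
  rw [valSetupZero_red, fw_atkinLehner_pi_div]

end Fermat.Agent.BadRed
end
end MergeWrap_Lib_BadRed_Final_UHyp

section MergeWrap_Lib_BadRed_Final_Core -- from Lib/BadRed/Final/Core.lean

set_option autoImplicit false
set_option linter.style.haveILetI false
set_option linter.unusedSectionVars false
set_option linter.unusedVariables false
set_option synthInstance.maxHeartbeats 400000
set_option maxHeartbeats 1000000

/-!
# Cluster T, final wiring (helper81), part 2: the modular nodal core and its seed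

`hS : IsGaussSetup (q R) R A S`, `hL : HasLattice S`, `u = Δ(z)/Δ(qz)`, `ϖ = q ^ 12`:

* `fwIota` : the nodes `= ` zeros of `ū = S.red u` (supersingular points of `X₀(R)` mod `q`);
* `fwCore` : the nodal core `(S, valSetupZero D S, s₁ = val, s₂ = Frob⁻¹ • s₁)`;
* `fwSeed` : the seed of `u` (`seedOfU`), given the separation hypothesis `hsep`;
* `fw_exists_modularNodal_of_hsep` : the modular nodal package with its toric key statement.
-/

noncomputable section

namespace Fermat.Agent.BadRed

open IntermediateField ModularCurve AlgebraicCurve Fermat.Agent.F3 Fermat.Agent.F3G Fermat.Agent.GaussInt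
  Fermat.Agent.AtkinLehner Fermat.Agent.Deuring Fermat.Agent.RR Fermat.Agent.BadRed.SeedNode
  Fermat.Agent.BadRed.SeedPoles

local notation "Qb" => AlgebraicClosure ℚ

variable (D : ALData) [NeZero D.Q] [NeZero D.R] [NeZero (D.Q * D.R)]
  (A : ValuationSubring Qb) (hq : D.Q.Prime) (hA : A.LiesOverPrime D.Q) (hqR : ¬ D.Q ∣ D.R)
  (S : ValSetup Qb (modularFunctionFieldBar (D.Q * D.R)) (IsLocalRing.ResidueField A)
    (modularFunctionFieldFullC (IsLocalRing.ResidueField A) D.R))
  (hS : IsGaussSetup (D.Q * D.R) D.R A S) (hL : HasLattice S)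

/-- the nodes: the zeros of the reduction of `u`. -/
abbrev fwIota : Type :=
  {v : Place (IsLocalRing.ResidueField A)
    (modularFunctionFieldFullC (IsLocalRing.ResidueField A) D.R) // 0 < v.ord (S.red (fwU D))}

/-- the nodes are finite in number. -/
def fwFintype : Fintype (fwIota D A S) :=
  haveI := finite_ssZeros (A := A) D.R (S.red (fwU D))
  Fintype.ofFinite _

section Frob

variable [Fact D.Q.Prime] [CharP (IsLocalRing.ResidueField A) D.Q]
  [PerfectRing (IsLocalRing.ResidueField A) D.Q]

/-- **the modular nodal core** at `q ∥ q R`. -/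
@[reducible] def fwCore :
    NodalCore Qb (modularFunctionFieldBar (D.Q * D.R)) (IsLocalRing.ResidueField A)
      (modularFunctionFieldFullC (IsLocalRing.ResidueField A) D.R)
      (modularFunctionFieldFullC (IsLocalRing.ResidueField A) D.R) (fwIota D A S) where
  S₁ := S
  S₂ := valSetupZero D S
  A_eq := rfl
  res_eq := fun _ _ _ => rfl
  lat₁ := hL
  lat₂ := hasLattice_valSetupZero D S hL
  s₁ := Subtype.val
  s₂ := fun i => (frobAut (IsLocalRing.ResidueField A) D.R D.Q)⁻¹ • i.1
  s₁_inj := Subtype.val_injective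
  s₂_inj := fun i j h => Subtype.ext (MulAction.injective _ h)
  arch := by
    rw [hS.A_eq]
    exact arch_algebraicClosure A hq hA

include hS hq hA in
theorem fw_hs₂ (i : fwIota D A S) :
    0 < ((frobAut (IsLocalRing.ResidueField A) D.R D.Q)⁻¹ • i.1).ord
      ((valSetupZero D S).red
        (algebraMap Qb (modularFunctionFieldBar (D.Q * D.R)) (fwPi D) / fwU D)) := by
  rw [fw_red_pi_div, ord_frobAut_inv_smul_of_coe_ssFun _ _ _ D.Q (fw_coe_red_uF D A hq hA S hS)]
  exact i.2

include hS hq hA in
theorem fw_hz₂ (Q : Place (IsLocalRing.ResidueField A)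
      (modularFunctionFieldFullC (IsLocalRing.ResidueField A) D.R))
    (hQ : 0 < Q.ord ((valSetupZero D S).red
        (algebraMap Qb (modularFunctionFieldBar (D.Q * D.R)) (fwPi D) / fwU D))) :
    ∃ i : fwIota D A S,
      Q = (frobAut (IsLocalRing.ResidueField A) D.R D.Q)⁻¹ • i.1 := by
  rw [fw_red_pi_div] at hQ
  refine ⟨⟨frobAut (IsLocalRing.ResidueField A) D.R D.Q • Q, ?_⟩, ?_⟩
  · rw [ord_frobAut_smul_of_coe_ssFun _ _ _ D.Q (fw_coe_red_uF D A hq hA S hS)]
    exact hQ
  · rw [inv_smul_smul]

end Frob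

include hS hq hA in
theorem fw_transcendental_red :
    Transcendental (IsLocalRing.ResidueField A) (S.red (fwU D)) :=
  transcendental_ss D.R hq hA _ (fw_coe_red_uF D A hq hA S hS)

include hS hq hA in
theorem fw_finiteDimensional_red :
    FiniteDimensional (IsLocalRing.ResidueField A)⟮S.red (fwU D)⟯
      (modularFunctionFieldFullC (IsLocalRing.ResidueField A) D.R) :=
  finiteDimensional_adjoin_ss D.R hq hA _ (fw_coe_red_uF D A hq hA S hS)

include hS hq hA hqR in
theorem fw_hdeg :
    Module.finrank Qb⟮fwU D⟯ (modularFunctionFieldBar (D.Q * D.R)) ≤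
      Module.finrank (IsLocalRing.ResidueField A)⟮S.red (fwU D)⟯
        (modularFunctionFieldFullC (IsLocalRing.ResidueField A) D.R) := by
  rw [finrank_uF hq rfl hqR (Dvd.intro _ rfl),
    finrank_adjoin_ss D.R hq hqR hA _ (fw_coe_red_uF D A hq hA S hS)]

include hS hq hA in
/-- there is at least one node. -/
theorem fw_nonempty : Nonempty (fwIota D A S) := by
  haveI := Fermat.Agent.GaussInt.isAlgClosed_residue A
  have hRR := Fermat.Agent.RRMod.isRRField_fullC' (IsLocalRing.ResidueField A) D.R
  have htr := fw_transcendental_red D A hq hA S hS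
  have hne : S.red (fwU D) ≠ 0 := fun h0 => htr (h0 ▸ isAlgebraic_zero)
  have htr' : Transcendental (IsLocalRing.ResidueField A) (S.red (fwU D))⁻¹ := by
    intro halg
    exact htr (by simpa using halg.inv)
  have hpos := Fermat.Agent.RRHur.degree_poleDiv_pos hRR htr'
  by_contra hempty
  rw [not_nonempty_iff] at hempty
  have hzero : poleDiv hRR (S.red (fwU D))⁻¹ = 0 := by
    ext v
    rw [poleDiv_apply, Finsupp.zero_apply]
    have hv : ¬ 0 < v.ord (S.red (fwU D)) := fun h => hempty.false ⟨v, h⟩
    have h1 : v.ord (S.red (fwU D))⁻¹ = - v.ord (S.red (fwU D)) := Place.ord_inv v _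
    rw [h1]
    omega
  rw [hzero, map_zero] at hpos
  exact lt_irrefl _ hpos

end Fermat.Agent.BadRed
end
end MergeWrap_Lib_BadRed_Final_Core

section MergeWrap_Lib_BadRed_Final_Seed -- from Lib/BadRed/Final/Seed.lean

set_option autoImplicit false
set_option linter.style.haveILetI false
set_option linter.unusedSectionVars false
set_option linter.unusedVariables false
set_option synthInstance.maxHeartbeats 400000
set_option maxHeartbeats 1000000

/-!
# Cluster T, final wiring (helper81), part 3: the modular seed and the modular nodal package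

* `FwSep`  : the separation hypothesis `hsep` of `seedOfU` for the modular core (leaf MA10-hsep);
* `fwSeed` : the modular seed `seedOfU (fwCore ..) u ϖ ..`;
* `fwModularNodal` : the modular nodal package `ModularNodal D A` (nodal setup of the seed,
  genus relation, inertia is inertial);
* `fw_abstractToricKey` : `AbstractToricKeyStatement (fwModularNodal ..).N`.
-/

noncomputable section

namespace Fermat.Agent.BadRed

open IntermediateField ModularCurve AlgebraicCurve Fermat.Agent.F3 Fermat.Agent.F3G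
  Fermat.Agent.GaussInt
  Fermat.Agent.AtkinLehner Fermat.Agent.Deuring Fermat.Agent.RR Fermat.Agent.BadRed.SeedNode
  Fermat.Agent.BadRed.SeedPoles

local notation "Qb" => AlgebraicClosure ℚ

attribute [local instance] fwFintype

variable (D : ALData) [NeZero D.Q] [NeZero D.R] [NeZero (D.Q * D.R)]
  (A : ValuationSubring Qb) (hq : D.Q.Prime) (hA : A.LiesOverPrime D.Q) (hqR : ¬ D.Q ∣ D.R)
  (S : ValSetup Qb (modularFunctionFieldBar (D.Q * D.R)) (IsLocalRing.ResidueField A)
    (modularFunctionFieldFullC (IsLocalRing.ResidueField A) D.R))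
  (hS : IsGaussSetup (D.Q * D.R) D.R A S) (hL : HasLattice S)
  [Fact D.Q.Prime] [CharP (IsLocalRing.ResidueField A) D.Q]
  [PerfectRing (IsLocalRing.ResidueField A) D.Q]

/-- the separation hypothesis of `seedOfU` for the modular core: old functions separate the
nodes. -/
def FwSep : Prop :=
  ∀ i j : fwIota D A S, i ≠ j →
    ∃ (g : modularFunctionFieldBar (D.Q * D.R)) (c : fwIota D A S → IsLocalRing.ResidueField A),
      NodeVal S (valSetupZero D S) (fwU D) (Subtype.val : fwIota D A S → _)
        (fun i => (frobAut (IsLocalRing.ResidueField A) D.R D.Q)⁻¹ • i.1) g c ∧ c i ≠ c j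

/-- **the modular seed.** -/
def fwSeed (haux : AuxLevelOK D.Q D.R) (hsep : FwSep D A S) :
    NodalSeed Qb (modularFunctionFieldBar (D.Q * D.R)) (IsLocalRing.ResidueField A)
      (modularFunctionFieldFullC (IsLocalRing.ResidueField A) D.R)
      (modularFunctionFieldFullC (IsLocalRing.ResidueField A) D.R) (fwIota D A S) :=
  haveI := infinite_residue A
  haveI : FiniteDimensional Qb⟮fwU D⟯ (modularFunctionFieldBar (D.Q * D.R)) :=
    finiteDimensional_uF hq (Dvd.intro _ rfl)
  haveI : FiniteDimensional (IsLocalRing.ResidueField A)⟮S.red (fwU D)⟯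
      (modularFunctionFieldFullC (IsLocalRing.ResidueField A) D.R) :=
    fw_finiteDimensional_red D A hq hA S hS
  haveI : FiniteDimensional (IsLocalRing.ResidueField A)⟮(valSetupZero D S).red
        (algebraMap Qb (modularFunctionFieldBar (D.Q * D.R)) (fwPi D) / fwU D)⟯
      (modularFunctionFieldFullC (IsLocalRing.ResidueField A) D.R) := by
    rw [fw_red_pi_div]
    exact fw_finiteDimensional_red D A hq hA S hS
  seedOfU (fwCore D A hq hA S hS hL) (fwU D) (fwPi D) (fw_pi_ne_zero D hq)
    (fw_pi_mem D A hA S hS) (fw_pi_res D A hq hA S hS) (fw_uF_mem D A S hS)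
    (fw_transcendental_red D A hq hA S hS) (fw_pi_div_mem D A S hS)
    (by
      show Transcendental _ ((valSetupZero D S).red _)
      rw [fw_red_pi_div]
      exact fw_transcendental_red D A hq hA S hS)
    (fw_hdeg D A hq hA hqR S hS)
    (by
      show _ ≤ Module.finrank (IsLocalRing.ResidueField A)⟮(valSetupZero D S).red
        (algebraMap Qb (modularFunctionFieldBar (D.Q * D.R)) (fwPi D) / fwU D)⟯ _
      rw [fw_red_pi_div]
      exact fw_hdeg D A hq hA hqR S hS)
    (fun i => i.2) (fw_hs₂ D A hq hA S hS) (fun Q hQ => ⟨⟨Q, hQ⟩, rfl⟩)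
    (fw_hz₂ D A hq hA S hS) hsep
    (ssCount_ge_fintype_of_aux D.R (D.Q * D.R) hq hqR haux rfl hA (S.red (fwU D))
      (fw_coe_red_uF D A hq hA S hS))

end Fermat.Agent.BadRed
end
end MergeWrap_Lib_BadRed_Final_Seed

section MergeWrap_Lib_BadRed_Final_Nodal -- from Lib/BadRed/Final/Nodal.lean

set_option autoImplicit false
set_option linter.style.haveILetI false
set_option linter.unusedSectionVars false
set_option linter.unusedVariables false
set_option synthInstance.maxHeartbeats 400000
set_option maxHeartbeats 1000000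

/-!
# Cluster T, final wiring (helper81), part 4: the modular nodal package

* `fwModularNodal` : `ModularNodal D A` built from the modular seed `fwSeed`;
* `fw_abstractToricKey` : its abstract toric key statement (N4 + N2 + N3);
* `exists_modularNodal_of_sep` : for `D` with `AuxOK D`, from the separation hypothesis for the
  Gauss setup `gaussSetupBad` (MA1).
-/

noncomputable section

namespace Fermat.Agent.BadRed

open IntermediateField ModularCurve AlgebraicCurve Fermat.Agent.F3 Fermat.Agent.F3G
  Fermat.Agent.GaussInt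
  Fermat.Agent.AtkinLehner Fermat.Agent.Deuring Fermat.Agent.RR Fermat.Agent.BadRed.SeedNode
  Fermat.Agent.BadRed.SeedPoles

local notation "Qb" => AlgebraicClosure ℚ

attribute [local instance] fwFintype

variable (D : ALData) [NeZero D.Q] [NeZero D.R] [NeZero (D.Q * D.R)]
  (A : ValuationSubring Qb) (hq : D.Q.Prime) (hA : A.LiesOverPrime D.Q) (hqR : ¬ D.Q ∣ D.R)
  (S : ValSetup Qb (modularFunctionFieldBar (D.Q * D.R)) (IsLocalRing.ResidueField A)
    (modularFunctionFieldFullC (IsLocalRing.ResidueField A) D.R))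
  (hS : IsGaussSetup (D.Q * D.R) D.R A S) (hL : HasLattice S)
  [Fact D.Q.Prime] [CharP (IsLocalRing.ResidueField A) D.Q]
  [PerfectRing (IsLocalRing.ResidueField A) D.Q]

/-- the nodal setup of the modular seed. -/
def fwNodalSetup (haux : AuxLevelOK D.Q D.R) (hsep : FwSep D A S) :
    NodalSetup Qb (modularFunctionFieldBar (D.Q * D.R)) (IsLocalRing.ResidueField A)
      (modularFunctionFieldFullC (IsLocalRing.ResidueField A) D.R)
      (modularFunctionFieldFullC (IsLocalRing.ResidueField A) D.R) (fwIota D A S) :=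
  haveI := infinite_residue A
  (fwSeed D A hq hA hqR S hS hL haux hsep).nodalSetup

theorem fwNodalSetup_S₁ (haux : AuxLevelOK D.Q D.R) (hsep : FwSep D A S) :
    (fwNodalSetup D A hq hA hqR S hS hL haux hsep).S₁ = S := rfl

theorem fwNodalSetup_S₂ (haux : AuxLevelOK D.Q D.R) (hsep : FwSep D A S) :
    (fwNodalSetup D A hq hA hqR S hS hL haux hsep).S₂ = valSetupZero D S := rfl

/-- inertia is inertial for the modular nodal setup. -/
theorem fw_isInertial (haux : AuxLevelOK D.Q D.R) (hsep : FwSep D A S)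
    (τ : Qb ≃ₐ[ℚ] Qb) (hτ : τ ∈ A.inertiaSubgroupIn ℚ) :
    (fwNodalSetup D A hq hA hqR S hS hL haux hsep).IsInertial
      (arithmeticGalois (modularFunctionFieldFull (D.Q * D.R)) τ) := by
  haveI := infinite_residue A
  have hm₁ : ∀ f, f ∈ S.Ov →
      arithmeticGalois (modularFunctionFieldFull (D.Q * D.R)) τ • f ∈ S.Ov :=
    hS.mem_of_inertia τ hτ
  have hr₁ : ∀ f, f ∈ S.Ov →
      S.red (arithmeticGalois (modularFunctionFieldFull (D.Q * D.R)) τ • f) = S.red f :=
    hS.red_inertia τ hτ
  refine NodalSeed.nodalSetup_isInertial (fwSeed D A hq hA hqR S hS hL haux hsep) _ hm₁ hr₁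
    (valSetupZero_mem_galois D S τ hm₁) (valSetupZero_red_galois D S τ id hr₁) ?_
  intro P
  show poleDiv S.hF (fwU D + algebraMap Qb _ (fwPi D) / fwU D) _ =
    poleDiv S.hF (fwU D + algebraMap Qb _ (fwPi D) / fwU D) _
  exact cs_poleDiv_smul S.hF _
    (arithmeticGalois_smul_seedFun_pow (D.Q * D.R) D.Q (Dvd.intro _ rfl) τ 12) P

/-- **the modular nodal package.** -/
def fwModularNodal (haux : AuxLevelOK D.Q D.R) (hsep : FwSep D A S) : ModularNodal D A where
  Fk₁ := modularFunctionFieldFullC (IsLocalRing.ResidueField A) D.R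
  Fk₂ := modularFunctionFieldFullC (IsLocalRing.ResidueField A) D.R
  ι := fwIota D A S
  N := fwNodalSetup D A hq hA hqR S hS hL haux hsep
  genusRel := by
    haveI := infinite_residue A
    exact NodalSeed.nodalSetup_genusRel (fwSeed D A hq hA hqR S hS hL haux hsep)
  A_eq := hS.A_eq
  mem₁_iff := hS.mem_iff
  red₁_eq_one := fun f hf h1 => by
    apply Subtype.ext
    rw [show (fwNodalSetup D A hq hA hqR S hS hL haux hsep).S₁ = S from rfl, hS.coe_red f hf, h1]
    rfl
  mem₂_iff := fun f => Iff.rfl
  red₂_eq_one := fun f hf h1 => by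
    rw [show (fwNodalSetup D A hq hA hqR S hS hL haux hsep).S₂ = valSetupZero D S from rfl,
      valSetupZero_red]
    exact h1
  inertial := fw_isInertial D A hq hA hqR S hS hL haux hsep

/-- **the toric key statement of the modular nodal package.** -/
theorem fw_abstractToricKey (haux : AuxLevelOK D.Q D.R) (hsep : FwSep D A S) :
    AbstractToricKeyStatement (fwModularNodal D A hq hA hqR S hS hL haux hsep).N := by
  haveI := infinite_residue A
  haveI := Fermat.Agent.GaussInt.isAlgClosed_residue A
  haveI := fw_nonempty D A hq hA S hS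
  exact NodalSeed.abstractToricKey (fwSeed D A hq hA hqR S hS hL haux hsep)

end Fermat.Agent.BadRed
end
end MergeWrap_Lib_BadRed_Final_Nodal
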